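import Fermat.Agent.S17.FF.Defs

/-! # S17-FF, file `Basic`: elementary facts on `divf`, `degree`, `ev`, `val`. -/

set_option autoImplicit false
set_option linter.unusedSectionVars false

noncomputable section

namespace Fermat.Agent.S17.FF

open AlgebraicCurve Fermat.Agent.S24.Zeros

variable {K F : Type*} [Field K] [Field F] [Algebra K F] [IsAlgClosed K] [CharZero K] [IsFF K F]

theorem deg_eq_one' (v : Place K F) : v.deg = 1 := by
  obtain ⟨x, hx, hfin⟩ := IsFF.out (K := K) (F := F)
  exact deg_eq_one hx hfin v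

theorem degree_eq_sum (D : Divisor K F) : Divisor.degree D = D.sum fun _ n => n := by
  unfold Divisor.degree
  rw [Finsupp.liftAddHom_apply]
  refine Finsupp.sum_congr fun v _ => ?_
  rw [AddMonoidHom.coe_mulRight, deg_eq_one', Nat.cast_one]
  exact mul_one _

theorem degree_single' (v : Place K F) (n : ℤ) : Divisor.degree (Finsupp.single v n) = n := by
  rw [Divisor.degree_single, deg_eq_one', Nat.cast_one, mul_one]

theorem degree_divf (f : F) : Divisor.degree (divf (K := K) f) = 0 := by
  obtain ⟨x, hx, hfin⟩ := IsFF.out (K := K) (F := F)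
  rw [degree_eq_finsum deg_eq_one']
  exact finsum_ord_eq_zero hfin f

theorem divf_mul {f g : F} (hf : f ≠ 0) (hg : g ≠ 0) :
    divf (K := K) (f * g) = divf f + divf g := by
  refine Finsupp.ext fun v => ?_
  rw [Finsupp.add_apply, divf_apply, divf_apply, divf_apply, v.ord_mul hf hg]

theorem divf_inv (f : F) : divf (K := K) f⁻¹ = -divf f := by
  refine Finsupp.ext fun v => ?_
  rw [Finsupp.neg_apply, divf_apply, divf_apply, v.ord_inv]

theorem divf_algebraMap (c : K) : divf (K := K) (algebraMap K F c) = 0 := by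
  refine Finsupp.ext fun v => ?_
  rw [divf_apply, ord_algebraMap, Finsupp.zero_apply]

theorem degree_mono {D E : Divisor K F} (h : D ≤ E) : Divisor.degree D ≤ Divisor.degree E := by
  rw [← sub_nonneg, ← map_sub, degree_eq_sum]
  refine Finset.sum_nonneg fun v _ => ?_
  rw [Finsupp.sub_apply, sub_nonneg]
  exact h v

/-- a function without poles is constant. -/
theorem exists_const_of_ord_nonneg {f : F} (h : ∀ v : Place K F, 0 ≤ v.ord f) :
    ∃ c : K, f = algebraMap K F c := by
  obtain ⟨x, hx, hfin⟩ := IsFF.out (K := K) (F := F)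
  by_cases hf : IsAlgebraic K f
  · obtain ⟨c, hc⟩ := exists_algebraMap_eq_of_isAlgebraic hf
    exact ⟨c, hc.symm⟩
  · exfalso
    have hfin' := finiteDimensional_adjoin_of_transcendental hfin hf
    have h1 := sum_ord_poles hf hfin'
    have h2 : {v : Place K F | v.ord f < 0} = ∅ := by
      ext v
      simp only [Set.mem_ofPred_eq, Set.mem_empty_iff_false, iff_false, not_lt]
      exact h v
    rw [h2, finsum_mem_empty] at h1
    have h3 : 0 < Module.finrank (IntermediateField.adjoin K {f}) F := Module.finrank_pos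
    omega

theorem transcendental_of_ord_ne_zero {v : Place K F} {x : F} (h : v.ord x ≠ 0) :
    Transcendental K x := by
  intro halg
  obtain ⟨c, rfl⟩ := exists_algebraMap_eq_of_isAlgebraic halg
  exact h (ord_algebraMap v c)

theorem finiteDimensional_adjoin {x : F} (hx : Transcendental K x) :
    FiniteDimensional (IntermediateField.adjoin K {x}) F := by
  obtain ⟨y, _, hfin⟩ := IsFF.out (K := K) (F := F)
  exact finiteDimensional_adjoin_of_transcendental hfin hx

theorem exists_uniformizer (v : Place K F) : ∃ π : F, v.ord π = 1 := by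
  obtain ⟨π, hπ⟩ := IsDiscreteValuationRing.exists_irreducible v.toValuationSubring
  exact ⟨π, v.ord_coe_irreducible hπ⟩

theorem ev_algebraMap (v : Place K F) (c : K) :
    ev v (algebraMap K v.toValuationSubring c) = c := by
  apply (residue_bijective v).1
  rw [algebraMap_ev]
  rfl

theorem ev_eq_zero_iff (v : Place K F) (a : v.toValuationSubring) :
    ev v a = 0 ↔ a = 0 ∨ 0 < v.ord (a : F) := by
  rw [← mem_maximalIdeal_iff, ← IsLocalRing.residue_eq_zero_iff, ← algebraMap_ev,
    map_eq_zero_iff _ (residue_bijective v).1]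

theorem val_of_mem (v : Place K F) {f : F} (hf : f ∈ v.toValuationSubring) :
    val v f = ev v ⟨f, hf⟩ := by
  unfold val
  rw [dif_pos hf]

theorem val_algebraMap (v : Place K F) (c : K) : val v (algebraMap K F c) = c := by
  rw [val_of_mem v (v.algebraMap_mem' c)]
  exact ev_algebraMap v c

theorem val_add (v : Place K F) {f g : F} (hf : 0 ≤ v.ord f) (hg : 0 ≤ v.ord g) :
    val v (f + g) = val v f + val v g := by
  have hf' := mem_of_ord_nonneg v hf
  have hg' := mem_of_ord_nonneg v hg
  rw [val_of_mem v hf', val_of_mem v hg', val_of_mem v (add_mem hf' hg'), ← map_add]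
  rfl

theorem val_mul (v : Place K F) {f g : F} (hf : 0 ≤ v.ord f) (hg : 0 ≤ v.ord g) :
    val v (f * g) = val v f * val v g := by
  have hf' := mem_of_ord_nonneg v hf
  have hg' := mem_of_ord_nonneg v hg
  rw [val_of_mem v hf', val_of_mem v hg', val_of_mem v (mul_mem hf' hg'), ← map_mul]
  rfl

theorem val_eq_zero_iff (v : Place K F) {f : F} (hf : 0 ≤ v.ord f) :
    val v f = 0 ↔ f = 0 ∨ 0 < v.ord f := by
  have hf' := mem_of_ord_nonneg v hf
  rw [val_of_mem v hf', ev_eq_zero_iff, Subtype.ext_iff]
  rfl

/-- `val v f` is the unique constant `c` with `ord_v (f - c) > 0`. -/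
theorem val_eq_iff (v : Place K F) {f : F} (hf : 0 ≤ v.ord f) (c : K) :
    val v f = c ↔ f = algebraMap K F c ∨ 0 < v.ord (f - algebraMap K F c) := by
  have hf' := mem_of_ord_nonneg v hf
  have h1 : val v f = c ↔
      ev v ((⟨f, hf'⟩ : v.toValuationSubring) - algebraMap K v.toValuationSubring c) = 0 := by
    rw [val_of_mem v hf', map_sub, ev_algebraMap, sub_eq_zero]
  rw [h1, ev_eq_zero_iff, Subtype.ext_iff]
  change f - algebraMap K F c = 0 ∨ 0 < v.ord (f - algebraMap K F c) ↔ _
  rw [sub_eq_zero]

end Fermat.Agent.S17.FF
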