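import Fermat.Agent.S17.FF.Basic

/-! # S17-FF, file `Count`: counting zeros; infinitely many places (exports (e), (h)). -/

set_option autoImplicit false
set_option linter.unusedSectionVars false

noncomputable section

namespace Fermat.Agent.S17.FF

open AlgebraicCurve Fermat.Agent.S24.Zeros

variable {K F : Type*} [Field K] [Field F] [Algebra K F] [IsAlgClosed K] [CharZero K] [IsFF K F]

/-- (h) a nonzero function has finitely many zeros. -/
theorem finite_zeros' (f : F) : {v : Place K F | 0 < v.ord f}.Finite :=
  (finite_support_ord' f).subset fun _ hv => ne_of_gt hv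

theorem finite_poles' (f : F) : {v : Place K F | v.ord f < 0}.Finite :=
  (finite_support_ord' f).subset fun _ hv => ne_of_lt hv

theorem Count_exists_val_eq {x : F} (hx : Transcendental K x) (c : K) :
    ∃ v : Place K F, 0 ≤ v.ord x ∧ val v x = c := by
  have hfin := finiteDimensional_adjoin hx
  have hsum := sum_ord_zeros_sub hx hfin c
  have hpos : (0 : ℤ) < (Module.finrank (IntermediateField.adjoin K {x}) F : ℤ) := by
    exact_mod_cast Module.finrank_pos
  have hne : {v : Place K F | 0 < v.ord (x - algebraMap K F c)}.Nonempty := by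
    by_contra hcon
    rw [Set.not_nonempty_iff_eq_empty] at hcon
    rw [hcon, finsum_mem_empty] at hsum
    omega
  obtain ⟨v, hv⟩ := hne
  have hv' : 0 < v.ord (x - algebraMap K F c) := hv
  have hx0 : x ≠ 0 := by
    rintro rfl
    exact hx (isAlgebraic_zero)
  have h0 : 0 ≤ v.ord x := by
    have h1 := min_ord_le_ord_add v (f := x - algebraMap K F c) (g := algebraMap K F c)
      (by rwa [sub_add_cancel])
    rw [sub_add_cancel, ord_algebraMap] at h1
    exact le_trans (le_min hv'.le le_rfl) h1
  exact ⟨v, h0, (val_eq_iff v h0 c).2 (Or.inr hv')⟩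

/-- (h) there are infinitely many places. -/
theorem infinite_place : Infinite (Place K F) := by
  obtain ⟨x, hx, -⟩ := IsFF.out (K := K) (F := F)
  choose w hw using fun c : K => Count_exists_val_eq hx c
  refine Infinite.of_injective w fun a b hab => ?_
  rw [← (hw a).2, ← (hw b).2, hab]

/-- every value is taken: surjectivity of a nonconstant function. -/
theorem exists_val_eq {x : F} (hx : Transcendental K x) (c : K) :
    ∃ v : Place K F, 0 ≤ v.ord x ∧ val v x = c :=
  Count_exists_val_eq hx c

theorem finsum_ord_eq_zero' (f : F) : ∑ᶠ v : Place K F, v.ord f = 0 := by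
  obtain ⟨x, -, hfin⟩ := IsFF.out (K := K) (F := F)
  exact finsum_ord_eq_zero hfin f

variable (oo : Place K F)

theorem Count_finsum_ord (f : F) :
    ∑ᶠ c : {c : Place K F // c ≠ oo}, c.1.ord f = -oo.ord f := by
  have h1 : ∑ᶠ c : {c : Place K F // c ≠ oo}, c.1.ord f =
      ∑ᶠ c ∈ {c : Place K F | c ≠ oo}, c.ord f :=
    finsum_set_coe_eq_finsum_mem (f := fun c : Place K F => c.ord f) {c : Place K F | c ≠ oo}
  have h2 := finsum_mem_add_sdiff' (f := fun c : Place K F => c.ord f)
    (Set.subset_univ ({oo} : Set (Place K F)))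
    ((finite_support_ord' f).subset Set.inter_subset_right)
  rw [finsum_mem_singleton, finsum_mem_univ, finsum_ord_eq_zero'] at h2
  have h3 : (Set.univ \ {oo} : Set (Place K F)) = {c : Place K F | c ≠ oo} := by
    ext c
    simp
  rw [h3] at h2
  rw [h1]
  omega

/-- (e) the number of zeros of a section of `L(m ∞)`. -/
theorem finsum_ord_of_mem_affRing {f : F} (hf : f ∈ affRing oo) :
    ∑ᶠ c : {c : Place K F // c ≠ oo}, c.1.ord f = -oo.ord f := by
  have _ := hf
  exact Count_finsum_ord oo f

theorem Count_neg_le_ord {m : ℤ} {f : F} (hf : f ∈ LSpace (Finsupp.single oo m)) (h0 : f ≠ 0) :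
    -m ≤ oo.ord f := by
  rcases mem_LSpace.1 hf with h | h
  · exact absurd h h0
  · have := h oo
    rwa [Finsupp.single_eq_same] at this

theorem Count_ord_nonneg {m : ℤ} {f : F} (hf : f ∈ LSpace (Finsupp.single oo m))
    {c : Place K F} (hc : c ≠ oo) : 0 ≤ c.ord f := by
  rcases mem_LSpace.1 hf with h | h
  · simp [h]
  · have := h c
    rwa [Finsupp.single_eq_of_ne hc, neg_zero] at this

theorem finsum_ord_le {m : ℤ} {f : F} (hf : f ∈ LSpace (Finsupp.single oo m)) (h0 : f ≠ 0) :
    ∑ᶠ c : {c : Place K F // c ≠ oo}, c.1.ord f ≤ m := by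
  rw [Count_finsum_ord]
  have := Count_neg_le_ord oo hf h0
  omega

/-- finset version: the orders at finitely many distinct finite places add up to at most `m`. -/
theorem sum_ord_le {m : ℤ} {f : F} (hf : f ∈ LSpace (Finsupp.single oo m)) (h0 : f ≠ 0)
    (S : Finset (Place K F)) (hS : oo ∉ S) : ∑ c ∈ S, c.ord f ≤ m := by
  classical
  set T := (finite_support_ord' (K := K) f).toFinset with hT
  set U := insert oo (T ∪ S) with hU
  have h1 : ∑ᶠ v : Place K F, v.ord f = ∑ v ∈ U, v.ord f := by
    apply finsum_eq_sum_of_support_subset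
    intro v hv
    simp only [hU, hT, Finset.coe_insert, Finset.coe_union, Set.Finite.coe_toFinset]
    exact Or.inr (Or.inl hv)
  rw [finsum_ord_eq_zero'] at h1
  have h2 := Finset.add_sum_erase U (fun v : Place K F => v.ord f) (Finset.mem_insert_self oo _)
  have h3 : ∑ c ∈ S, c.ord f ≤ ∑ c ∈ U.erase oo, c.ord f := by
    apply Finset.sum_le_sum_of_subset_of_nonneg
    · intro c hc
      refine Finset.mem_erase.2 ⟨fun h => hS (h ▸ hc), ?_⟩
      exact Finset.mem_insert_of_mem (Finset.mem_union_right _ hc)
    · intro c hc _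
      exact Count_ord_nonneg oo hf (Finset.mem_erase.1 hc).1
  have h4 := Count_neg_le_ord oo hf h0
  omega

/-- a section of `L(m ∞)` with more than `m` zeros is `0`. -/
theorem eq_zero_of_card_lt {m : ℤ} {f : F} (hf : f ∈ LSpace (Finsupp.single oo m))
    (S : Finset (Place K F)) (hS : oo ∉ S) (hz : ∀ c ∈ S, val c f = 0) (hm : m < S.card) :
    f = 0 := by
  by_contra h0
  have h1 := sum_ord_le oo hf h0 S hS
  have h2 : (S.card : ℤ) ≤ ∑ c ∈ S, c.ord f := by
    have h3 : ∑ c ∈ S, (1 : ℤ) ≤ ∑ c ∈ S, c.ord f := by
      apply Finset.sum_le_sum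
      intro c hc
      have hc' : c ≠ oo := fun h => hS (h ▸ hc)
      rcases (val_eq_zero_iff c (Count_ord_nonneg oo hf hc')).1 (hz c hc) with h | h
      · exact absurd h h0
      · omega
    simpa using h3
  omega

instance infinite_pts : Infinite {c : Place K F // c ≠ oo} := by
  have : Infinite (Place K F) := infinite_place
  have h : ({c : Place K F | c ≠ oo}).Infinite := by
    have h1 := (Set.infinite_univ (α := Place K F)).sdiff (Set.finite_singleton oo)
    have h3 : (Set.univ \ {oo} : Set (Place K F)) = {c : Place K F | c ≠ oo} := by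
      ext c
      simp
    rwa [h3] at h1
  exact h.to_subtype

end Fermat.Agent.S17.FF
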