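import Fermat.Agent.S17.FF.Basic

/-! # S17-FF, file `Local`: `O_c` is a localisation of a finitely generated `K`-algebra. -/

set_option autoImplicit false
set_option linter.unusedSectionVars false

noncomputable section

namespace Fermat.Agent.S17.FF

open AlgebraicCurve Fermat.Agent.S24.Zeros

variable {K F : Type*} [Field K] [Field F] [Algebra K F] [IsAlgClosed K] [CharZero K] [IsFF K F]

/-- the integral closure of `K[y]` in `F`, as a `K`-subalgebra. -/
def chartAlg (K : Type*) {F : Type*} [Field K] [Field F] [Algebra K F] (y : F) : Subalgebra K F :=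
  (integralClosure (Algebra.adjoin K {y}) F).restrictScalars K

theorem mem_chartAlg {y f : F} : f ∈ chartAlg K y ↔ IsIntegral (Algebra.adjoin K {y}) f := Iff.rfl

theorem self_mem_chartAlg (y : F) : y ∈ chartAlg K y := by
  rw [mem_chartAlg]
  exact isIntegral_algebraMap (x := (⟨y, Algebra.self_mem_adjoin_singleton K y⟩ :
    Algebra.adjoin K {y}))

/-- the identity `intClosure K y ≃ chartAlg K y`. -/
def localEquiv (y : F) : intClosure K y ≃ₐ[K] chartAlg K y where
  toFun b := ⟨b.1, b.2⟩
  invFun b := ⟨b.1, b.2⟩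
  left_inv _ := rfl
  right_inv _ := rfl
  map_mul' _ _ := rfl
  map_add' _ _ := rfl
  commutes' _ := rfl

theorem chartAlg_fg {y : F} (hy : Transcendental K y) : (chartAlg K y).FG := by
  rw [Subalgebra.fg_iff_finiteType]
  have := finiteDimensional_adjoin hy
  have := finiteType_intClosure hy
  exact Algebra.FiniteType.equiv this (localEquiv y)

theorem ord_nonneg_of_mem_chartAlg {c : Place K F} {y : F} (h : 0 ≤ c.ord y) {f : F}
    (hf : f ∈ chartAlg K y) : 0 ≤ c.ord f :=
  ord_nonneg_of_mem c (intClosure_mem c h ⟨f, hf⟩)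

/-- `f ∈ chartAlg K y` iff `f` is regular at all places where `y` is regular. -/
theorem mem_chartAlg_iff {y : F} (hy : Transcendental K y) (f : F) :
    f ∈ chartAlg K y ↔ ∀ c : Place K F, 0 ≤ c.ord y → 0 ≤ c.ord f := by
  refine ⟨fun hf c h => ord_nonneg_of_mem_chartAlg h hf, fun H => ?_⟩
  have := finiteDimensional_adjoin hy
  have := isDedekindDomain_intClosure hy
  have := isFractionRing_intClosure (K := K) y
  have key : f ∈ (algebraMap (intClosure K y) F).range := by
    apply IsDedekindDomain.HeightOneSpectrum.mem_integers_of_valuation_le_one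
    intro w
    rw [← adicValuation_ofHeightOneSpectrum (K := K), adicValuation_le_one_iff_mem,
      mem_iff_ord_nonneg']
    apply H
    exact ord_nonneg_of_mem _ (algebraMap_mem_ofHeightOneSpectrum w ⟨y, self_mem_chartAlg y⟩)
  obtain ⟨b, rfl⟩ := key
  exact b.2

/-- `O_c` is the localisation of `chartAlg K y` at the point `c`. -/
theorem ord_nonneg_iff_exists_div_chartAlg (c : Place K F) {y : F} (hy : Transcendental K y)
    (h : 0 ≤ c.ord y) (f : F) :
    0 ≤ c.ord f ↔ ∃ a ∈ chartAlg K y, ∃ b ∈ chartAlg K y, b ≠ 0 ∧ c.ord b = 0 ∧ f = a / b := by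
  constructor
  · intro hf
    have := finiteDimensional_adjoin hy
    have := isDedekindDomain_intClosure hy
    have := isFractionRing_intClosure (K := K) y
    obtain ⟨w, rfl⟩ := exists_heightOneSpectrum (R := intClosure K y) c (intClosure_mem c h)
    have hv : w.valuation F f ≤ 1 := by
      rw [← adicValuation_ofHeightOneSpectrum (K := K), adicValuation_le_one_iff_mem,
        mem_iff_ord_nonneg']
      exact hf
    obtain ⟨n, d, hnd⟩ := w.exists_primeCompl_mul_eq_of_integer f hv
    have hd : (d : intClosure K y) ∉ w.asIdeal := d.2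
    have hd0 : (d : intClosure K y) ≠ 0 := by
      intro h0
      exact hd (h0 ▸ zero_mem _)
    have hd0' : algebraMap (intClosure K y) F d ≠ 0 := by
      simpa using (IsFractionRing.injective (intClosure K y) F).ne hd0
    refine ⟨algebraMap (intClosure K y) F n, n.2, algebraMap (intClosure K y) F d,
      (d : intClosure K y).2, hd0', ?_, ?_⟩
    · have h1 := (mem_asIdeal_iff_ord_pos (K := K) (F := F) w hd0).not.1 hd
      have h2 : 0 ≤ (Place.ofHeightOneSpectrum (K := K) (F := F) w).ord
          (algebraMap (intClosure K y) F d) :=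
        ord_nonneg_of_mem _ (algebraMap_mem_ofHeightOneSpectrum w _)
      omega
    · rw [← hnd]
      field_simp
  · rintro ⟨a, ha, b, hb, hb0, hbc, rfl⟩
    rcases eq_or_ne a 0 with rfl | ha0
    · simp
    · rw [div_eq_mul_inv, c.ord_mul ha0 (inv_ne_zero hb0), c.ord_inv, hbc]
      simpa using ord_nonneg_of_mem_chartAlg h ha

theorem exists_fg_localization (c : Place K F) :
    ∃ B : Subalgebra K F, B.FG ∧ (∀ b ∈ B, 0 ≤ c.ord b) ∧
      ∀ f : F, 0 ≤ c.ord f → ∃ a ∈ B, ∃ b ∈ B, b ≠ 0 ∧ c.ord b = 0 ∧ f = a / b := by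
  obtain ⟨x, hx, -⟩ := (inferInstance : IsFF K F).out
  obtain ⟨y, hy, h⟩ : ∃ y : F, Transcendental K y ∧ 0 ≤ c.ord y := by
    rcases le_total 0 (c.ord x) with h | h
    · exact ⟨x, hx, h⟩
    · refine ⟨x⁻¹, transcendental_inv hx, ?_⟩
      rw [c.ord_inv]
      omega
  exact ⟨chartAlg K y, chartAlg_fg hy, fun b hb => ord_nonneg_of_mem_chartAlg h hb,
    fun f hf => (ord_nonneg_iff_exists_div_chartAlg c hy h f).1 hf⟩

/-- `K`-algebra homs `chartAlg K y → K` are the places where `y` is regular. -/
theorem exists_place_of_hom {y : F} (hy : Transcendental K y) (ψ : chartAlg K y →ₐ[K] K) :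
    ∃ c : Place K F, 0 ≤ c.ord y ∧ ∀ f : chartAlg K y, ψ f = val c (f : F) := by
  have hfin := finiteDimensional_adjoin hy
  let ψ' : intClosure K y →ₐ[K] K := ψ.comp (localEquiv y).toAlgHom
  have hsurj : Function.Surjective ψ' := fun k => ⟨algebraMap K _ k, ψ'.commutes k⟩
  have hmax : (RingHom.ker (ψ' : intClosure K y →+* K)).IsMaximal :=
    RingHom.ker_isMaximal_of_surjective _ hsurj
  let y' : intClosure K y := ⟨y, self_mem_chartAlg y⟩
  have hne : RingHom.ker (ψ' : intClosure K y →+* K) ≠ ⊥ := by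
    intro hbot
    have hmem : y' - algebraMap K _ (ψ' y') ∈ RingHom.ker (ψ' : intClosure K y →+* K) := by
      rw [RingHom.mem_ker]
      show ψ' (y' - algebraMap K _ (ψ' y')) = 0
      rw [map_sub, ψ'.commutes]
      simp
    rw [hbot, Ideal.mem_bot, sub_eq_zero] at hmem
    apply hy
    have : y = algebraMap K F (ψ' y') := congrArg Subtype.val hmem
    rw [this]
    exact isAlgebraic_algebraMap _
  obtain ⟨c, h, hc⟩ := exists_place_of_isPrime hy hfin _ hmax.isPrime hne
  refine ⟨c, h, fun f => ?_⟩
  symm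
  rw [val_eq_iff c (ord_nonneg_of_mem_chartAlg h f.2)]
  let f' : intClosure K y := ⟨f.1, f.2⟩
  have hmem : f' - algebraMap K _ (ψ f) ∈ primeOfPlace c h := by
    rw [hc, RingHom.mem_ker]
    show ψ' (f' - algebraMap K _ (ψ f)) = 0
    rw [map_sub, ψ'.commutes]
    show ψ f - _ = 0
    simp
  rw [mem_primeOfPlace] at hmem
  rcases hmem with h0 | h0
  · left
    rw [sub_eq_zero] at h0
    exact congrArg Subtype.val h0
  · right
    exact h0

end Fermat.Agent.S17.FF
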