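import Fermat.Agent.S17.FF.Aff

/-! # S17-FF, file `AffPts`: points of the affine ring = places `≠ ∞`. -/

set_option autoImplicit false
set_option linter.unusedSectionVars false

noncomputable section

namespace Fermat.Agent.S17.FF

open AlgebraicCurve Fermat.Agent.S24.Zeros

variable {K F : Type*} [Field K] [Field F] [Algebra K F] [IsAlgClosed K] [CharZero K] [IsFF K F]
variable (oo : Place K F)

/-- the point of `Spec A` attached to a place `≠ ∞`. -/
def ptOfPlace (v : {v : Place K F // v ≠ oo}) : affRing oo →ₐ[K] K where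
  toFun f := val v.1 (f : F)
  map_one' := by
    have := val_algebraMap v.1 (1 : K)
    simpa using this
  map_mul' f g := val_mul v.1 (f.2 v.1 v.2) (g.2 v.1 v.2)
  map_zero' := by
    have := val_algebraMap v.1 (0 : K)
    simpa using this
  map_add' f g := val_add v.1 (f.2 v.1 v.2) (g.2 v.1 v.2)
  commutes' c := val_algebraMap v.1 c

@[simp] theorem ptOfPlace_apply (v : {v : Place K F // v ≠ oo}) (f : affRing oo) :
    ptOfPlace oo v f = val v.1 (f : F) := rfl

/-- auxiliary form of `exists_mem_affRing_ord_eq_one` (stated before its first use). -/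
theorem AffPts_exists_ord_eq_one {v : Place K F} (hv : v ≠ oo) (S : Finset (Place K F))
    (hS : v ∉ S) : ∃ f ∈ affRing oo, v.ord f = 1 ∧ ∀ w ∈ S, w ≠ oo → w.ord f = 0 := by
  classical
  set D : Divisor K F := Finsupp.single oo (cBound K F + 2) - Finsupp.single v 1 with hD
  have hdeg : cBound K F + 1 ≤ Divisor.degree D := by
    rw [hD, map_sub, degree_single', degree_single']
    omega
  obtain ⟨f, hfL, hf0, hf⟩ := exists_mem_LSpace_forall_ord_eq hdeg (insert v (S.erase oo))
  have hDv : D v = -1 := by
    rw [hD, Finsupp.sub_apply, Finsupp.single_apply, Finsupp.single_apply, if_neg (Ne.symm hv),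
      if_pos rfl]
    norm_num
  have hDw : ∀ w : Place K F, w ≠ oo → w ≠ v → D w = 0 := by
    intro w hw hwv
    rw [hD, Finsupp.sub_apply, Finsupp.single_apply, Finsupp.single_apply, if_neg (Ne.symm hw),
      if_neg (Ne.symm hwv)]
    norm_num
  have hfL' : ∀ w : Place K F, -D w ≤ w.ord f := (mem_LSpace.1 hfL).resolve_left hf0
  refine ⟨f, ?_, ?_, ?_⟩
  · intro w hw
    by_cases hwv : w = v
    · have := hfL' w
      rw [hwv, hDv] at this
      rw [hwv]
      omega
    · have := hfL' w
      rw [hDw w hw hwv] at this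
      omega
  · rw [hf v (Finset.mem_insert_self _ _), hDv]
    norm_num
  · intro w hwS hw
    have hwv : w ≠ v := fun h => hS (h ▸ hwS)
    rw [hf w (Finset.mem_insert_of_mem (Finset.mem_erase.2 ⟨hw, hwS⟩)), hDw w hw hwv]
    norm_num

/-- affine points = places different from `∞`. -/
theorem ptOfPlace_bijective : Function.Bijective (ptOfPlace oo) := by
  classical
  constructor
  · rintro ⟨v, hv⟩ ⟨w, hw⟩ h
    by_contra hvw
    have hvw' : v ≠ w := fun e => hvw (Subtype.ext e)
    obtain ⟨f, hfA, hfv, hfw⟩ := AffPts_exists_ord_eq_one oo hv {w}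
      (by simpa using hvw')
    have hfw' : w.ord f = 0 := hfw w (Finset.mem_singleton_self w) hw
    have hf0 : f ≠ 0 := by
      rintro rfl
      rw [Place.ord_zero] at hfv
      exact zero_ne_one hfv
    have h1 : val v f = 0 := (val_eq_zero_iff v (hfA v hv)).2 (Or.inr (by omega))
    have h2 : val w f ≠ 0 := by
      intro h0
      rcases (val_eq_zero_iff w (hfA w hw)).1 h0 with h3 | h3
      · exact hf0 h3
      · omega
    have h3 := congrArg (fun φ : affRing oo →ₐ[K] K => φ ⟨f, hfA⟩) h
    simp only [ptOfPlace_apply] at h3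
    exact h2 (h3 ▸ h1)
  · intro ψ
    have := isDedekindDomain_affRing oo
    have := isFractionRing_affRing oo
    obtain ⟨x, hxA, hx⟩ := exists_nonconstant oo
    have hsurj : Function.Surjective (ψ : affRing oo →+* K) := fun c =>
      ⟨algebraMap K (affRing oo) c, by simp⟩
    have hmax : (RingHom.ker (ψ : affRing oo →+* K)).IsMaximal :=
      RingHom.ker_isMaximal_of_surjective _ hsurj
    have hbot : RingHom.ker (ψ : affRing oo →+* K) ≠ ⊥ := by
      intro hb
      have hmem : (⟨x, hxA⟩ - algebraMap K (affRing oo) (ψ ⟨x, hxA⟩) : affRing oo) ∈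
          RingHom.ker (ψ : affRing oo →+* K) := by
        rw [RingHom.mem_ker]
        simp
      rw [hb, Ideal.mem_bot, sub_eq_zero] at hmem
      have hx' : x = algebraMap K F (ψ ⟨x, hxA⟩) := congrArg Subtype.val hmem
      rw [hx', ord_algebraMap] at hx
      exact lt_irrefl _ hx
    let w : IsDedekindDomain.HeightOneSpectrum (affRing oo) :=
      ⟨RingHom.ker (ψ : affRing oo →+* K), hmax.isPrime, hbot⟩
    let v : Place K F := Place.ofHeightOneSpectrum (K := K) w
    have hmemv : ∀ r : affRing oo, 0 ≤ v.ord (r : F) := fun r =>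
      ord_nonneg_of_mem v (algebraMap_mem_ofHeightOneSpectrum w r)
    have hv : v ≠ oo := by
      intro e
      have := hmemv ⟨x, hxA⟩
      rw [e] at this
      exact absurd hx (not_lt.2 this)
    refine ⟨⟨v, hv⟩, AlgHom.ext fun f => ?_⟩
    rw [ptOfPlace_apply]
    refine (val_eq_iff v (hmemv f) (ψ f)).2 ?_
    by_cases hr : f - algebraMap K (affRing oo) (ψ f) = 0
    · left
      exact congrArg Subtype.val (sub_eq_zero.1 hr)
    · right
      have hmem : f - algebraMap K (affRing oo) (ψ f) ∈ w.asIdeal := by
        show _ ∈ RingHom.ker (ψ : affRing oo →+* K)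
        rw [RingHom.mem_ker]
        simp
      exact (mem_asIdeal_iff_ord_pos (K := K) (F := F) w hr).1 hmem

/-- `O_v` is the localisation of `A` at the point `v`. -/
theorem ord_nonneg_iff_exists_div {v : Place K F} (hv : v ≠ oo) (f : F) :
    0 ≤ v.ord f ↔ ∃ a ∈ affRing oo, ∃ b ∈ affRing oo, val v b ≠ 0 ∧ f = a / b := by
  classical
  constructor
  · intro hf
    by_cases hf0 : f = 0
    · refine ⟨0, (affRing oo).zero_mem, 1, (affRing oo).one_mem, ?_, by simp [hf0]⟩
      have := val_algebraMap v (1 : K)
      rw [map_one] at this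
      rw [this]
      exact one_ne_zero
    set D : Divisor K F :=
      Finsupp.single oo (cBound K F + 1 + Divisor.degree (poleDiv (K := K) f)) - poleDiv f with hD
    have hdeg : cBound K F + 1 ≤ Divisor.degree D := by
      rw [hD, map_sub, degree_single']
      omega
    obtain ⟨b, hbL, hb0, hb⟩ := exists_mem_LSpace_forall_ord_eq hdeg {v}
    have hDw : ∀ w : Place K F, w ≠ oo → D w = -max 0 (-(w.ord f)) := by
      intro w hw
      rw [hD, Finsupp.sub_apply, Finsupp.single_apply, if_neg (Ne.symm hw), poleDiv_apply]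
      omega
    have hbL' : ∀ w : Place K F, -D w ≤ w.ord b := (mem_LSpace.1 hbL).resolve_left hb0
    have hbv : v.ord b = 0 := by
      rw [hb v (Finset.mem_singleton_self v), hDw v hv]
      omega
    have hbA : b ∈ affRing oo := by
      intro w hw
      have := hbL' w
      rw [hDw w hw] at this
      omega
    refine ⟨f * b, ?_, b, hbA, ?_, by field_simp⟩
    · intro w hw
      have := hbL' w
      rw [hDw w hw] at this
      rw [w.ord_mul hf0 hb0]
      omega
    · intro h0
      rcases (val_eq_zero_iff v (hbA v hv)).1 h0 with h | h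
      · exact hb0 h
      · omega
  · rintro ⟨a, haA, b, hbA, hb, rfl⟩
    have hb0 : b ≠ 0 := by
      rintro rfl
      exact hb ((val_eq_zero_iff v (hbA v hv)).2 (Or.inl rfl))
    have hbv : v.ord b = 0 := by
      have h1 := hbA v hv
      by_contra h2
      exact hb ((val_eq_zero_iff v h1).2 (Or.inr (by omega)))
    by_cases ha0 : a = 0
    · simp [ha0]
    rw [div_eq_mul_inv, v.ord_mul ha0 (inv_ne_zero hb0), v.ord_inv, hbv]
    have := haA v hv
    omega

/-- functions in `A` separate the places `≠ ∞`, with prescribed simple zero. -/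
theorem exists_mem_affRing_ord_eq_one {v : Place K F} (hv : v ≠ oo) (S : Finset (Place K F))
    (hS : v ∉ S) : ∃ f ∈ affRing oo, v.ord f = 1 ∧ ∀ w ∈ S, w ≠ oo → w.ord f = 0 := by
  exact AffPts_exists_ord_eq_one oo hv S hS

end Fermat.Agent.S17.FF
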