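import Fermat.Agent.S17.FF.Cls
import Fermat.Agent.S17.FF.AffPts
import Fermat.Prelude.Def_AlgebraicCurve_BaseChangeGalois

/-! # S17-FF, file `Semi`: semilinear automorphisms act on everything. -/

set_option autoImplicit false
set_option linter.unusedSectionVars false

noncomputable section

namespace Fermat.Agent.S17.FF

open AlgebraicCurve Fermat.Agent.S24.Zeros

variable {K F : Type*} [Field K] [Field F] [Algebra K F] [IsAlgClosed K] [CharZero K] [IsFF K F]
variable (g : SemilinearAut K F)

theorem place_ext_ord {v w : Place K F} (h : ∀ f : F, v.ord f = w.ord f) : v = w := by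
  apply Place.ext
  ext f
  rw [mem_iff_ord_nonneg', mem_iff_ord_nonneg', h]

theorem ord_smul_eq (v : Place K F) (f : F) : (g • v).ord f = v.ord (g⁻¹ • f) := by
  have h := SemilinearAut.ord_smul g v (g⁻¹ • f)
  rwa [smul_inv_smul] at h

theorem smul_eq_zero_iff' (f : F) : g • f = 0 ↔ f = 0 := by
  exact smul_eq_zero_iff_eq g

theorem val_smul (v : Place K F) (f : F) :
    val (g • v) (g • f) = SemilinearAut.baseAut g (val v f) := by
  by_cases hf : 0 ≤ v.ord f
  · have hf' : 0 ≤ (g • v).ord (g • f) := by rw [SemilinearAut.ord_smul]; exact hf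
    rw [val_eq_iff (g • v) hf', ← SemilinearAut.smul_algebraMap, ← smul_sub,
      SemilinearAut.ord_smul]
    rcases (val_eq_iff v hf (val v f)).1 rfl with h | h
    · exact Or.inl (congrArg (g • ·) h)
    · exact Or.inr h
  · have h1 : f ∉ v.toValuationSubring := by rwa [mem_iff_ord_nonneg']
    have h2 : g • f ∉ (g • v).toValuationSubring := by
      rwa [mem_iff_ord_nonneg', SemilinearAut.ord_smul]
    unfold val
    rw [dif_neg h1, dif_neg h2, map_zero]

theorem divf_smul (f : F) : divf (K := K) (g • f) = g • divf f := by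
  refine Finsupp.ext fun w => ?_
  rw [SemilinearAut.divisor_smul_apply, divf_apply, divf_apply, ord_smul_eq, inv_inv]

theorem smul_nonneg' {D : Divisor K F} (h : 0 ≤ D) : 0 ≤ g • D := by
  intro w
  rw [SemilinearAut.divisor_smul_apply]
  exact h _

theorem smul_mem_LSpace_iff (D : Divisor K F) (f : F) : g • f ∈ LSpace (g • D) ↔ f ∈ LSpace D := by
  rw [mem_LSpace, mem_LSpace, smul_eq_zero_iff']
  refine or_congr Iff.rfl ⟨fun h v => ?_, fun h v => ?_⟩
  · have := h (g • v)
    rwa [SemilinearAut.divisor_smul_apply_smul, SemilinearAut.ord_smul] at this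
  · have := h (g⁻¹ • v)
    rw [ord_smul_eq, inv_inv] at this
    rwa [SemilinearAut.divisor_smul_apply]

theorem ell_smul (D : Divisor K F) : ell (g • D) = ell D := by
  let j : LSpace D ≃+ LSpace (g • D) :=
    { toFun := fun f => ⟨g • (f : F), (smul_mem_LSpace_iff g D f).2 f.2⟩
      invFun := fun f => ⟨g⁻¹ • (f : F), by
        rw [← smul_mem_LSpace_iff g D, smul_inv_smul]; exact f.2⟩
      left_inv := fun f => Subtype.ext (inv_smul_smul g (f : F))
      right_inv := fun f => Subtype.ext (smul_inv_smul g (f : F))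
      map_add' := fun f f' => Subtype.ext (smul_add g (f : F) (f' : F)) }
  have h := rank_eq_of_equiv_equiv (SemilinearAut.baseAut g) j (SemilinearAut.baseAut g).bijective
    (fun r m => Subtype.ext (by
      show g • (r • (m : F)) = SemilinearAut.baseAut g r • (g • (m : F))
      rw [Algebra.smul_def, Algebra.smul_def, smul_mul', SemilinearAut.smul_algebraMap]))
  unfold ell Module.finrank
  rw [h]

theorem smul_sum_single (P : Finset (Place K F)) [DecidableEq (Place K F)] :
    g • (∑ v ∈ P, Finsupp.single v (1 : ℤ)) = ∑ v ∈ P.image (g • ·), Finsupp.single v (1 : ℤ) := by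
  rw [Finset.smul_sum, Finset.sum_image (fun a _ b _ hab => MulAction.injective g hab)]
  exact Finset.sum_congr rfl fun v _ => SemilinearAut.smul_single g v 1

theorem cls_smul (oo : Place K F) (D : Divisor K F) : g • cls oo D = cls (g • oo) (g • D) := by
  unfold cls
  rw [SemilinearAut.pic0_smul_mk]
  refine congrArg Pic0.mk (Subtype.ext ?_)
  rw [SemilinearAut.coe_degZeroSMulHom]
  show g • (D - Finsupp.single oo (Divisor.degree D)) =
    g • D - Finsupp.single (g • oo) (Divisor.degree (g • D))
  rw [smul_sub, SemilinearAut.smul_single, SemilinearAut.degree_smul]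

variable {oo : Place K F}

theorem smul_mem_affRing_iff (h : g • oo = oo) (f : F) : g • f ∈ affRing oo ↔ f ∈ affRing oo := by
  rw [mem_affRing, mem_affRing]
  refine ⟨fun H v hv => ?_, fun H v hv => ?_⟩
  · have := H (g • v) (fun h1 => hv (MulAction.injective g (h1.trans h.symm)))
    rwa [SemilinearAut.ord_smul] at this
  · have h' : g⁻¹ • oo = oo := by rw [inv_smul_eq_iff, h]
    have := H (g⁻¹ • v) (fun h1 => hv (MulAction.injective g⁻¹ (h1.trans h'.symm)))
    rwa [ord_smul_eq, inv_inv] at this

theorem smul_ne_oo (h : g • oo = oo) {v : Place K F} (hv : v ≠ oo) : g • v ≠ oo := by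
  intro h1
  exact hv (MulAction.injective g (h1.trans h.symm))

/-- the action on affine points: `(g P)(g f) = g (P f)`. -/
theorem ptOfPlace_smul (h : g • oo = oo) (v : {v : Place K F // v ≠ oo}) (f : affRing oo) :
    ptOfPlace oo ⟨g • v.1, smul_ne_oo g h v.2⟩ ⟨g • (f : F), (smul_mem_affRing_iff g h f).2 f.2⟩ =
      SemilinearAut.baseAut g (ptOfPlace oo v f) := by
  exact val_smul g v.1 (f : F)

end Fermat.Agent.S17.FF
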