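import Fermat.Agent.S17.FF.Index
import Fermat.Agent.S17.FF.Semi

/-! # S17-FF, file `Canon`: the canonical (minimal effective) representative of a class. -/

set_option autoImplicit false
set_option linter.unusedSectionVars false

noncomputable section

namespace Fermat.Agent.S17.FF

open AlgebraicCurve Fermat.Agent.S24.Zeros

variable {K F : Type*} [Field K] [Field F] [Algebra K F] [IsAlgClosed K] [CharZero K] [IsFF K F]
variable (oo : Place K F)

/-- every class has a unique effective representative `E - (deg E) ∞` of minimal degree. -/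
theorem exists_canon (x : Pic0 K F) : ∃ E : Divisor K F, 0 ≤ E ∧
    Divisor.degree E ≤ genus K F ∧ E oo = 0 ∧ cls oo E = x ∧ ell E = 1 ∧
    ∀ E' : Divisor K F, 0 ≤ E' → Divisor.degree E' ≤ Divisor.degree E → cls oo E' = x → E' = E := by
  classical
  obtain ⟨D, hD0, hDx⟩ := cls_surjective oo x
  have hdeg : ∀ m : ℤ, Divisor.degree (D + Finsupp.single oo m) = m := by
    intro m
    rw [map_add, hD0, degree_single', zero_add]
  have hgen : 0 < ell (D + Finsupp.single oo ((genus K F : ℕ) : ℤ)) := by
    have h1 := riemann_le (D + Finsupp.single oo ((genus K F : ℕ) : ℤ))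
    rw [hdeg] at h1
    omega
  have hex : ∃ d : ℕ, 0 < ell (D + Finsupp.single oo (d : ℤ)) := ⟨genus K F, hgen⟩
  obtain ⟨d, hd, hmin⟩ : ∃ d : ℕ, 0 < ell (D + Finsupp.single oo (d : ℤ)) ∧
      ∀ m : ℕ, 0 < ell (D + Finsupp.single oo (m : ℤ)) → d ≤ m :=
    ⟨Nat.find hex, Nat.find_spec hex, fun m hm => Nat.find_min' hex hm⟩
  obtain ⟨f, hf, hf0⟩ := ell_pos_iff.1 hd
  have hone : ell (D + Finsupp.single oo (d : ℤ)) = 1 := by
    apply ell_eq_one_of_minimal _ oo hd
    rcases Nat.eq_zero_or_pos d with rfl | hdpos
    · apply ell_eq_zero_of_degree_neg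
      rw [map_sub, hdeg, degree_single']
      norm_num
    · obtain ⟨m, rfl⟩ : ∃ m, d = m + 1 := ⟨d - 1, by omega⟩
      have h1 : D + Finsupp.single oo (((m + 1 : ℕ)) : ℤ) - Finsupp.single oo 1
          = D + Finsupp.single oo (m : ℤ) := by
        rw [add_sub_assoc, ← Finsupp.single_sub]
        congr 2
        push_cast
        ring
      rw [h1]
      by_contra hcon
      have := hmin m (Nat.pos_of_ne_zero hcon)
      omega
  have hE0 : 0 ≤ D + Finsupp.single oo (d : ℤ) + divf f := by
    rw [add_comm]
    exact (mem_LSpace_of_ne_zero hf0).1 hf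
  have hEdeg : Divisor.degree (D + Finsupp.single oo (d : ℤ) + divf f) = d := by
    rw [map_add, hdeg, degree_divf, add_zero]
  have hEcls : cls oo (D + Finsupp.single oo (d : ℤ) + divf f) = x := by
    rw [cls_add, cls_add, cls_single_oo, cls_divf, hDx, add_zero, add_zero]
  have huniq : ∀ E' : Divisor K F, 0 ≤ E' →
      Divisor.degree E' ≤ Divisor.degree (D + Finsupp.single oo (d : ℤ) + divf f) →
      cls oo E' = x → E' = D + Finsupp.single oo (d : ℤ) + divf f := by
    intro E' hE'0 hE'd hE'x
    rw [hEdeg] at hE'd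
    obtain ⟨h, hh0, hE'⟩ := (cls_eq_cls_iff' oo D E').1 (by rw [hDx, hE'x])
    rw [hD0, sub_zero] at hE'
    have hd'0 : 0 ≤ Divisor.degree E' := by
      have := degree_mono hE'0
      rwa [map_zero] at this
    obtain ⟨d', hd'⟩ : ∃ d' : ℕ, Divisor.degree E' = (d' : ℤ) :=
      ⟨(Divisor.degree E').toNat, (Int.toNat_of_nonneg hd'0).symm⟩
    rw [hd'] at hE' hE'd
    have hhL : h ∈ LSpace (D + Finsupp.single oo (d' : ℤ)) := by
      rw [mem_LSpace_of_ne_zero hh0, add_comm, ← hE']
      exact hE'0
    have h1 : d ≤ d' := hmin d' (ell_pos_iff.2 ⟨h, hhL, hh0⟩)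
    have h2 : d' = d := by omega
    subst h2
    obtain ⟨c, hc⟩ := exists_smul_eq_of_ell_eq_one hone hf hhL hf0
    have hc0 : algebraMap K F c ≠ 0 := by
      intro h0
      rw [h0, zero_mul] at hc
      exact hh0 hc
    rw [hE', hc, divf_mul hc0 hf0, divf_algebraMap, zero_add]
  refine ⟨D + Finsupp.single oo (d : ℤ) + divf f, hE0, ?_, ?_, hEcls, ?_, huniq⟩
  · rw [hEdeg]
    exact_mod_cast hmin _ hgen
  · by_contra hoo
    have hpos : 1 ≤ (D + Finsupp.single oo (d : ℤ) + divf f : Divisor K F) oo := by
      have h1 := Finsupp.le_def.1 hE0 oo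
      rw [Finsupp.zero_apply] at h1
      omega
    have h2 : 0 ≤ D + Finsupp.single oo (d : ℤ) + divf f - Finsupp.single oo 1 := by
      rw [Finsupp.le_def]
      intro v
      rw [Finsupp.zero_apply, Finsupp.sub_apply]
      by_cases hv : v = oo
      · subst hv
        rw [Finsupp.single_eq_same]
        omega
      · rw [Finsupp.single_eq_of_ne hv, sub_zero]
        exact Finsupp.le_def.1 hE0 v
    have h3 := huniq _ h2 (by rw [map_sub, degree_single']; omega)
      (by rw [cls_sub, cls_single_oo, hEcls, sub_zero])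
    have h4 := congrArg Divisor.degree h3
    rw [map_sub, degree_single'] at h4
    omega
  · rw [ell_add_divf _ hf0, hone]

/-- the canonical representative. -/
def canon (x : Pic0 K F) : Divisor K F := (exists_canon oo x).choose

theorem canon_nonneg (x : Pic0 K F) : 0 ≤ canon oo x := (exists_canon oo x).choose_spec.1

theorem degree_canon_le (x : Pic0 K F) : Divisor.degree (canon oo x) ≤ genus K F :=
  (exists_canon oo x).choose_spec.2.1

theorem canon_oo (x : Pic0 K F) : canon oo x oo = 0 := (exists_canon oo x).choose_spec.2.2.1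

@[simp] theorem cls_canon (x : Pic0 K F) : cls oo (canon oo x) = x :=
  (exists_canon oo x).choose_spec.2.2.2.1

theorem ell_canon (x : Pic0 K F) : ell (canon oo x) = 1 :=
  (exists_canon oo x).choose_spec.2.2.2.2.1

theorem eq_canon (x : Pic0 K F) {E' : Divisor K F} (h0 : 0 ≤ E')
    (hd : Divisor.degree E' ≤ Divisor.degree (canon oo x)) (hx : cls oo E' = x) :
    E' = canon oo x :=
  (exists_canon oo x).choose_spec.2.2.2.2.2 E' h0 hd hx

/-- an effective divisor `E` with `ℓ(E) = 1` not containing `∞` is canonical. -/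
theorem eq_canon_of_ell_eq_one {E : Divisor K F} (h0 : 0 ≤ E) (hoo : E oo = 0) (h : ell E = 1) :
    E = canon oo (cls oo E) := by
  rcases le_or_gt (Divisor.degree E) (Divisor.degree (canon oo (cls oo E))) with hle | hlt
  · exact eq_canon oo _ h0 hle rfl
  exfalso
  have hdeg : Divisor.degree E = Divisor.degree (canon oo (cls oo E) +
      Finsupp.single oo (Divisor.degree E - Divisor.degree (canon oo (cls oo E)))) := by
    rw [map_add, degree_single']
    ring
  obtain ⟨k, hh0, hh⟩ := (cls_eq_cls_iff oo hdeg).1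
    (by rw [cls_add, cls_single_oo, cls_canon, add_zero])
  have hC'0 : 0 ≤ canon oo (cls oo E) +
      Finsupp.single oo (Divisor.degree E - Divisor.degree (canon oo (cls oo E))) := by
    apply add_nonneg (canon_nonneg oo _)
    rw [Finsupp.le_def]
    intro v
    rw [Finsupp.zero_apply]
    by_cases hv : v = oo
    · subst hv
      rw [Finsupp.single_eq_same]
      omega
    · rw [Finsupp.single_eq_of_ne hv]
  have hhL : k ∈ LSpace E := by
    rw [mem_LSpace_of_ne_zero hh0, add_comm, ← hh]
    exact hC'0
  have h1L : (1 : F) ∈ LSpace E := by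
    rw [mem_LSpace_of_ne_zero one_ne_zero, ← map_one (algebraMap K F), divf_algebraMap, zero_add]
    exact h0
  obtain ⟨c, hc⟩ := exists_smul_eq_of_ell_eq_one h h1L hhL one_ne_zero
  rw [mul_one] at hc
  rw [hc, divf_algebraMap, add_zero] at hh
  have h5 := DFunLike.congr_fun hh oo
  rw [Finsupp.add_apply, canon_oo, Finsupp.single_eq_same, hoo] at h5
  omega

/-- equivariance. -/
theorem smul_canon (g : SemilinearAut K F) (hg : g • oo = oo) (x : Pic0 K F) :
    g • canon oo x = canon oo (g • x) := by
  have hg' : g⁻¹ • oo = oo := by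
    rw [inv_smul_eq_iff, hg]
  rcases le_total (Divisor.degree (canon oo x)) (Divisor.degree (canon oo (g • x))) with hle | hle
  · apply eq_canon oo _ (smul_nonneg' g (canon_nonneg oo x))
    · rw [SemilinearAut.degree_smul]
      exact hle
    · have h1 := cls_smul g oo (canon oo x)
      rw [hg, cls_canon] at h1
      exact h1.symm
  · have h2 : g⁻¹ • canon oo (g • x) = canon oo x := by
      apply eq_canon oo _ (smul_nonneg' g⁻¹ (canon_nonneg oo _))
      · rw [SemilinearAut.degree_smul]
        exact hle
      · have h1 := cls_smul g⁻¹ oo (canon oo (g • x))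
        rw [hg', cls_canon, inv_smul_smul] at h1
        exact h1.symm
    rw [← h2, smul_inv_smul]

theorem smul_canon_of_fixed (g : SemilinearAut K F) (hg : g • oo = oo) {x : Pic0 K F}
    (hx : g • x = x) : g • canon oo x = canon oo x := by
  rw [smul_canon oo g hg, hx]

/-- a representative of degree `n` which is stable under the stabiliser of the class. -/
def canonRep (x : Pic0 K F) (n : ℤ) : Divisor K F :=
  canon oo x + Finsupp.single oo (n - Divisor.degree (canon oo x))

theorem degree_canonRep (x : Pic0 K F) (n : ℤ) : Divisor.degree (canonRep oo x n) = n := by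
  unfold canonRep
  rw [map_add, degree_single']
  ring

theorem cls_canonRep (x : Pic0 K F) (n : ℤ) : cls oo (canonRep oo x n) = x := by
  unfold canonRep
  rw [cls_add, cls_single_oo, cls_canon, add_zero]

theorem smul_canonRep (g : SemilinearAut K F) (hg : g • oo = oo) {x : Pic0 K F}
    (hx : g • x = x) (n : ℤ) : g • canonRep oo x n = canonRep oo x n := by
  unfold canonRep
  rw [smul_add, SemilinearAut.smul_single, hg, smul_canon_of_fixed oo g hg hx]

end Fermat.Agent.S17.FF
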