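import Fermat.Agent.S17.FF.Aff

/-! # S17-FF, file `Sep`: top sections, separation of points, independent conditions
(exports (b), (c), (d) for S17-VG). -/

set_option autoImplicit false
set_option linter.unusedSectionVars false

noncomputable section

namespace Fermat.Agent.S17.FF

open AlgebraicCurve Fermat.Agent.S24.Zeros

variable {K F : Type*} [Field K] [Field F] [Algebra K F] [IsAlgClosed K] [CharZero K] [IsFF K F]
variable (oo : Place K F)

/-- (b) every `n ≥ cBound + 1` is a non-gap. -/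
theorem exists_top {n : ℤ} (hn : cBound K F + 1 ≤ n) :
    ∃ top ∈ LSpace (Finsupp.single oo n), top ≠ 0 ∧ oo.ord top = -n := by
  obtain ⟨f, hf, hf0, hord⟩ := exists_mem_LSpace_ord_eq (D := Finsupp.single oo n)
    (by rw [degree_single']; exact hn) oo
  rw [Finsupp.single_eq_same] at hord
  exact ⟨f, hf, hf0, hord⟩

/-- (b) `f / top` is regular at `∞`. -/
theorem ord_div_top_nonneg {n : ℤ} {f top : F} (hf : f ∈ LSpace (Finsupp.single oo n))
    (htop : oo.ord top = -n) : 0 ≤ oo.ord (f / top) := by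
  by_cases hf0 : f = 0
  · rw [hf0, zero_div, Place.ord_zero]
  by_cases ht0 : top = 0
  · rw [ht0, div_zero, Place.ord_zero]
  rcases hf with hf | hf
  · exact absurd hf hf0
  have h1 := hf oo
  rw [Finsupp.single_eq_same] at h1
  rw [div_eq_mul_inv, oo.ord_mul hf0 (inv_ne_zero ht0), oo.ord_inv, htop]
  omega

/-- the divisor `d ∞ - c`. -/
theorem Sep_degree (d : ℤ) (c : Place K F) :
    Divisor.degree (Finsupp.single oo d - Finsupp.single c 1) = d - 1 := by
  rw [map_sub, degree_single', degree_single']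

theorem Sep_le (d : ℤ) (c : Place K F) :
    Finsupp.single oo d - Finsupp.single c (1 : ℤ) ≤ Finsupp.single oo d := by
  intro v
  rw [Finsupp.sub_apply]
  have : (0 : ℤ) ≤ Finsupp.single c (1 : ℤ) v := by
    by_cases h : c = v
    · rw [h, Finsupp.single_eq_same]; exact zero_le_one
    · rw [Finsupp.single_eq_of_ne (Ne.symm h)]
  omega

theorem Sep_ord_pos {d : ℤ} {c : Place K F} (hc : c ≠ oo) {f : F} (hf0 : f ≠ 0)
    (hf : f ∈ LSpace (Finsupp.single oo d - Finsupp.single c 1)) : 1 ≤ c.ord f := by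
  rcases hf with hf | hf
  · exact absurd hf hf0
  have h1 := hf c
  rw [Finsupp.sub_apply, Finsupp.single_eq_same, Finsupp.single_eq_of_ne hc] at h1
  omega

/-- (c1) separation of two finite points. -/
theorem exists_sep {d : ℤ} (hd : cBound K F + 2 ≤ d) {c c' : Place K F} (hc : c ≠ oo)
    (hc' : c' ≠ oo) (h : c ≠ c') :
    ∃ f ∈ LSpace (Finsupp.single oo d), val c f = 0 ∧ val c' f ≠ 0 := by
  obtain ⟨f, hf, hf0, hord⟩ := exists_mem_LSpace_ord_eq
    (D := Finsupp.single oo d - Finsupp.single c 1) (by rw [Sep_degree]; omega) c'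
  rw [Finsupp.sub_apply, Finsupp.single_eq_of_ne hc', Finsupp.single_eq_of_ne (Ne.symm h)] at hord
  have h1 := Sep_ord_pos oo hc hf0 hf
  refine ⟨f, LSpace_mono (Sep_le oo d c) hf, ?_, ?_⟩
  · rw [val_eq_zero_iff c (by omega)]
    exact Or.inr (by omega)
  · rw [Ne, val_eq_zero_iff c' (by omega)]
    rintro (h2 | h2)
    · exact hf0 h2
    · omega

/-- (c2) separation of a finite point from `∞`. -/
theorem exists_sep_oo {d : ℤ} (hd : cBound K F + 2 ≤ d) {c : Place K F} (hc : c ≠ oo) :
    ∃ f ∈ LSpace (Finsupp.single oo d), oo.ord f = -d ∧ val c f = 0 := by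
  obtain ⟨f, hf, hf0, hord⟩ := exists_mem_LSpace_ord_eq
    (D := Finsupp.single oo d - Finsupp.single c 1) (by rw [Sep_degree]; omega) oo
  rw [Finsupp.sub_apply, Finsupp.single_eq_same, Finsupp.single_eq_of_ne (Ne.symm hc),
    sub_zero] at hord
  have h1 := Sep_ord_pos oo hc hf0 hf
  refine ⟨f, LSpace_mono (Sep_le oo d c) hf, hord, ?_⟩
  rw [val_eq_zero_iff c (by omega)]
  exact Or.inr (by omega)

/-- (c3) a section which is a uniformiser at `c`. -/
theorem exists_unif {d : ℤ} (hd : cBound K F + 2 ≤ d) {c : Place K F} (hc : c ≠ oo) :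
    ∃ f ∈ LSpace (Finsupp.single oo d), c.ord f = 1 := by
  obtain ⟨f, hf, hf0, hord⟩ := exists_mem_LSpace_ord_eq
    (D := Finsupp.single oo d - Finsupp.single c 1) (by rw [Sep_degree]; omega) c
  rw [Finsupp.sub_apply, Finsupp.single_eq_same, Finsupp.single_eq_of_ne hc] at hord
  exact ⟨f, LSpace_mono (Sep_le oo d c) hf, by omega⟩

/-- (c4) a section with pole order exactly `d - 1`. -/
theorem exists_subtop {d : ℤ} (hd : cBound K F + 2 ≤ d) :
    ∃ f ∈ LSpace (Finsupp.single oo d), f ≠ 0 ∧ oo.ord f = -(d - 1) := by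
  obtain ⟨f, hf, hf0, hord⟩ := exists_top oo (n := d - 1) (by omega)
  refine ⟨f, LSpace_mono ?_ hf, hf0, hord⟩
  intro v
  by_cases h : oo = v
  · rw [h, Finsupp.single_eq_same, Finsupp.single_eq_same]; omega
  · rw [Finsupp.single_eq_of_ne (Ne.symm h), Finsupp.single_eq_of_ne (Ne.symm h)]

/-- (c5) a section not vanishing at `c`. -/
theorem exists_val_ne_zero {d : ℤ} (hd : 0 ≤ d) (c : Place K F) (hc : c ≠ oo) :
    ∃ f ∈ LSpace (Finsupp.single oo d), val c f ≠ 0 := by
  refine ⟨1, Or.inr fun v => ?_, ?_⟩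
  · rw [Place.ord_one]
    by_cases h : oo = v
    · rw [h, Finsupp.single_eq_same]; omega
    · rw [Finsupp.single_eq_of_ne (Ne.symm h)]; omega
  · have h1 := val_algebraMap c (1 : K)
    rw [map_one] at h1
    rw [h1]
    exact one_ne_zero

/-- (d') general form. -/
theorem Sep_ell_sub_eq {D E : Divisor K F} (hE : 0 ≤ E)
    (h : cBound K F ≤ Divisor.degree D - Divisor.degree E) :
    (ell (D - E) : ℤ) = ell D - Divisor.degree E := by
  have hE' : 0 ≤ Divisor.degree E := by
    have := degree_mono hE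
    rwa [map_zero] at this
  have h1 := riemann_eq (D := D - E) (by rw [map_sub]; exact h)
  have h2 := riemann_eq (D := D) (by omega)
  rw [map_sub] at h1
  omega

/-- (d) independent conditions. -/
theorem ell_sub_eq {n : ℤ} {E : Divisor K F} (hE : 0 ≤ E)
    (h : cBound K F ≤ n - Divisor.degree E) :
    (ell (Finsupp.single oo n - E) : ℤ) = ell (Finsupp.single oo n) - Divisor.degree E := by
  exact Sep_ell_sub_eq hE (by rw [degree_single']; exact h)

/-- (d') general form. -/
theorem ell_sub_eq' {D E : Divisor K F} (hE : 0 ≤ E)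
    (h : cBound K F ≤ Divisor.degree D - Divisor.degree E) :
    (ell (D - E) : ℤ) = ell D - Divisor.degree E := by
  exact Sep_ell_sub_eq hE h

end Fermat.Agent.S17.FF
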