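import Fermat.Agent.S17.FF.RiemannCor

/-! # S17-FF, file `Index`: the index lemma (export (g), for S17-DIV). -/

set_option autoImplicit false
set_option linter.unusedSectionVars false

noncomputable section

namespace Fermat.Agent.S17.FF

open AlgebraicCurve Fermat.Agent.S24.Zeros

variable {K F : Type*} [Field K] [Field F] [Algebra K F] [IsAlgClosed K] [CharZero K] [IsFF K F]

theorem Index_single_nonneg (P : Place K F) : (0 : Divisor K F) ≤ Finsupp.single P 1 := by
  classical
  intro v
  rw [Finsupp.single_apply]
  split_ifs <;> simp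

theorem Index_sum_nonneg (S : Finset (Place K F)) :
    (0 : Divisor K F) ≤ ∑ P ∈ S, Finsupp.single P 1 :=
  Finset.sum_nonneg fun P _ => Index_single_nonneg P

theorem Index_sum_apply_of_notMem {S : Finset (Place K F)} {P : Place K F} (hP : P ∉ S) :
    (∑ Q ∈ S, Finsupp.single Q 1 : Divisor K F) P = 0 := by
  classical
  rw [Finsupp.finsetSum_apply]
  refine Finset.sum_eq_zero fun Q hQ => ?_
  rw [Finsupp.single_apply, if_neg]
  rintro rfl
  exact hP hQ

theorem Index_degree_sum (S : Finset (Place K F)) :
    Divisor.degree (∑ P ∈ S, Finsupp.single P 1 : Divisor K F) = S.card := by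
  rw [map_sum, Finset.sum_congr rfl fun P _ => degree_single' P 1]
  simp

/-- a function in `L(D + P)` not in `L(D)` has a pole of order `> D P` at `P`. -/
theorem Index_exists_new (D : Divisor K F) (P : Place K F)
    (h : ell (D + Finsupp.single P 1) = ell D + 1) :
    ∃ f ∈ LSpace (D + Finsupp.single P 1), f ≠ 0 ∧ P.ord f < -D P := by
  classical
  have hle : LSpace D ≤ LSpace (D + Finsupp.single P 1) :=
    LSpace_mono (le_add_of_nonneg_right (Index_single_nonneg P))
  have hne : ¬ LSpace (D + Finsupp.single P 1) ≤ LSpace D := by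
    intro hge
    have heq : LSpace D = LSpace (D + Finsupp.single P 1) := le_antisymm hle hge
    have : ell D = ell (D + Finsupp.single P 1) := by
      unfold ell
      rw [heq]
    omega
  obtain ⟨f, hf, hfD⟩ := SetLike.not_le_iff_exists.1 hne
  have hf0 : f ≠ 0 := by
    rintro rfl
    exact hfD (Submodule.zero_mem _)
  refine ⟨f, hf, hf0, ?_⟩
  have hf' := (mem_LSpace.1 hf).resolve_left hf0
  by_contra hP
  push Not at hP
  apply hfD
  refine mem_LSpace.2 (Or.inr fun v => ?_)
  by_cases hv : v = P
  · rw [hv]; exact hP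
  · have := hf' v
    rwa [Finsupp.add_apply, Finsupp.single_apply, if_neg (Ne.symm hv), add_zero] at this

/-- adding distinct points each of which increases `ℓ` increases `ℓ` by their number. -/
theorem ell_add_sum_ge (D : Divisor K F) (S : Finset (Place K F))
    (hS : ∀ P ∈ S, ell (D + Finsupp.single P 1) = ell D + 1) :
    ell D + S.card ≤ ell (D + ∑ P ∈ S, Finsupp.single P 1) := by
  classical
  induction S using Finset.induction_on with
  | empty => simp
  | insert P S' hP ih =>
    have ih' := ih fun Q hQ => hS Q (Finset.mem_insert_of_mem hQ)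
    obtain ⟨f, hf, hf0, hfP⟩ := Index_exists_new D P (hS P (Finset.mem_insert_self _ _))
    set E : Divisor K F := D + ∑ Q ∈ S', Finsupp.single Q 1 with hE
    have hsum : D + ∑ Q ∈ insert P S', Finsupp.single Q 1 = E + Finsupp.single P 1 := by
      rw [Finset.sum_insert hP, hE]
      abel
    rw [hsum, Finset.card_insert_of_notMem hP]
    have hDE : D ≤ E := le_add_of_nonneg_right (Index_sum_nonneg S')
    have hf1 : f ∈ LSpace (E + Finsupp.single P 1) := LSpace_mono (add_le_add_left hDE _) hf
    have hf2 : f ∉ LSpace E := by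
      intro hfE
      have := (mem_LSpace.1 hfE).resolve_left hf0 P
      rw [hE, Finsupp.add_apply, Index_sum_apply_of_notMem hP, add_zero] at this
      omega
    have hlt : LSpace E < LSpace (E + Finsupp.single P 1) := by
      refine lt_of_le_of_ne (LSpace_mono (le_add_of_nonneg_right (Index_single_nonneg P))) ?_
      intro heq
      exact hf2 (heq ▸ hf1)
    have := Submodule.finrank_lt_finrank_of_lt hlt
    unfold ell at *
    omega

/-- (g) if `D` is special, only finitely many points `P` increase `ℓ`. -/
theorem finite_ell_add_single {D : Divisor K F}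
    (h : Divisor.degree D + 1 - genus K F < ell D) :
    {P : Place K F | ell (D + Finsupp.single P 1) = ell D + 1}.Finite := by
  classical
  by_contra hinf
  obtain ⟨S, hS, hcard⟩ := Set.Infinite.exists_subset_card_eq hinf
    (cBound K F - Divisor.degree D).toNat
  have h1 := ell_add_sum_ge D S fun P hP => hS hP
  have hdeg : Divisor.degree (D + ∑ P ∈ S, Finsupp.single P 1) = Divisor.degree D + S.card := by
    rw [map_add, Index_degree_sum]
  have h2 : cBound K F ≤ Divisor.degree (D + ∑ P ∈ S, Finsupp.single P 1) := by
    rw [hdeg, hcard]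
    have := Int.self_le_toNat (cBound K F - Divisor.degree D)
    omega
  have h3 := riemann_eq h2
  rw [hdeg] at h3
  omega

/-- if `ℓ(D) ≥ 1` then `ℓ(D - P) = ℓ(D) - 1` for all but finitely many `P`. -/
theorem finite_ell_sub_single {D : Divisor K F} (h : 0 < ell D) :
    {P : Place K F | ell (D - Finsupp.single P 1) = ell D}.Finite := by
  classical
  obtain ⟨f, hf, hf0⟩ := ell_pos_iff.1 h
  refine Set.Finite.subset (divf (K := K) f + D).support.finite_toSet ?_
  intro P hP
  have hle : LSpace (D - Finsupp.single P 1) ≤ LSpace D :=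
    LSpace_mono (sub_le_self _ (Index_single_nonneg P))
  have heq : LSpace (D - Finsupp.single P 1) = LSpace D :=
    Submodule.eq_of_le_of_finrank_eq hle hP
  have hf' : f ∈ LSpace (D - Finsupp.single P 1) := heq ▸ hf
  have := (mem_LSpace.1 hf').resolve_left hf0 P
  rw [Finsupp.sub_apply, Finsupp.single_apply, if_pos rfl] at this
  rw [Finset.mem_coe, Finsupp.mem_support_iff, Finsupp.add_apply, divf_apply]
  omega

/-- minimal `d` with `ℓ(D + d ∞) ≥ 1` has `ℓ = 1`: uniqueness of the reduced representative. -/
theorem ell_eq_one_of_minimal (D : Divisor K F) (oo : Place K F) (h : 0 < ell D)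
    (h' : ell (D - Finsupp.single oo 1) = 0) : ell D = 1 := by
  have := ell_add_single_le (D - Finsupp.single oo 1) oo
  rw [sub_add_cancel, h'] at this
  omega

/-- two nonzero elements of a one-dimensional `L(D)` are proportional. -/
theorem exists_smul_eq_of_ell_eq_one {D : Divisor K F} (h : ell D = 1) {f g : F}
    (hf : f ∈ LSpace D) (hg : g ∈ LSpace D) (hf0 : f ≠ 0) : ∃ c : K, g = algebraMap K F c * f := by
  have hne : (⟨f, hf⟩ : LSpace D) ≠ 0 := fun h0 => hf0 (congrArg Subtype.val h0)
  obtain ⟨c, hc⟩ := (finrank_eq_one_iff_of_nonzero' (⟨f, hf⟩ : LSpace D) hne).1 h ⟨g, hg⟩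
  refine ⟨c, ?_⟩
  have := congrArg Subtype.val hc
  rw [← Algebra.smul_def]
  exact this.symm

end Fermat.Agent.S17.FF
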