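import Fermat.Agent.S17.FF.Aff

/-! # S17-FF, file `PoleBasis`: bases of `A` with strictly increasing pole orders. -/

set_option autoImplicit false
set_option linter.unusedSectionVars false

noncomputable section

namespace Fermat.Agent.S17.FF

open AlgebraicCurve Fermat.Agent.S24.Zeros

variable {K F : Type*} [Field K] [Field F] [Algebra K F] [IsAlgClosed K] [CharZero K] [IsFF K F]
variable (oo : Place K F)

/-- `e 0 = 1, e 1, e 2, …` realise every pole order of `A` exactly once, in increasing order. -/
structure IsPoleBasis (e : ℕ → F) : Prop where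
  zero : e 0 = 1
  mem : ∀ i, e i ∈ affRing oo
  ne_zero : ∀ i, e i ≠ 0
  strictMono : StrictMono fun i => -oo.ord (e i)
  surj : ∀ f ∈ affRing oo, f ≠ 0 → ∃ i, oo.ord f = oo.ord (e i)

theorem exists_isPoleBasis : ∃ e : ℕ → F, IsPoleBasis oo e := by
  classical
  set P : ℕ → Prop := fun n => ∃ f ∈ affRing oo, f ≠ 0 ∧ oo.ord f = -(n : ℤ) with hP
  have hP0 : P 0 := ⟨1, (affRing oo).one_mem, one_ne_zero, by simp⟩
  have hinf : (Set.ofPred P).Infinite := by
    obtain ⟨x, hx, hxo⟩ := exists_nonconstant oo
    have hx0 : x ≠ 0 := by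
      rintro rfl
      simp at hxo
    refine Set.infinite_of_not_bddAbove ?_
    rintro ⟨B, hB⟩
    have hmem : P ((B + 1) * (-oo.ord x).toNat) := by
      refine ⟨x ^ (B + 1), (affRing oo).pow_mem hx _, pow_ne_zero _ hx0, ?_⟩
      have h := oo.ord_zpow x ((B + 1 : ℕ) : ℤ)
      rw [zpow_natCast] at h
      rw [h]
      push_cast
      rw [Int.toNat_of_nonneg (by omega)]
      ring
    have h1 : (B + 1) * (-oo.ord x).toNat ≤ B := hB hmem
    have h2 : 1 ≤ (-oo.ord x).toNat := by omega
    nlinarith
  have hw : ∀ i, P (Nat.nth P i) := Nat.nth_mem_of_infinite hinf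
  choose w hwm hw0 hwo using hw
  refine ⟨fun i => if i = 0 then 1 else w i, ?_⟩
  have hord : ∀ i, oo.ord (if i = 0 then (1 : F) else w i) = -(Nat.nth P i : ℤ) := by
    intro i
    split_ifs with hi
    · subst hi
      rw [Nat.nth_zero_of_zero hP0]
      simp
    · exact hwo i
  refine ⟨by simp, ?_, ?_, ?_, ?_⟩
  · intro i
    split_ifs
    · exact (affRing oo).one_mem
    · exact hwm i
  · intro i
    split_ifs
    · exact one_ne_zero
    · exact hw0 i
  · intro i j hij
    dsimp only
    rw [hord, hord]
    have := Nat.nth_strictMono hinf hij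
    omega
  · intro f hf hf0
    have hle := ord_nonpos_of_mem_affRing oo hf
    have hPf : P (-oo.ord f).toNat := ⟨f, hf, hf0, by rw [Int.toNat_of_nonneg (by omega)]; ring⟩
    have : (-oo.ord f).toNat ∈ Set.range (Nat.nth P) := by
      rw [Nat.range_nth_of_infinite hinf]
      exact hPf
    obtain ⟨i, hi⟩ := this
    refine ⟨i, ?_⟩
    rw [hord, hi, Int.toNat_of_nonneg (by omega)]
    ring

variable {oo}
variable {e : ℕ → F}

theorem PoleBasis_mem_LSpace_iff (he : IsPoleBasis oo e) (n : ℤ) (i : ℕ) :
    e i ∈ LSpace (Finsupp.single oo n) ↔ -oo.ord (e i) ≤ n := by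
  rw [mem_LSpace_single_iff]
  constructor
  · rintro (h | ⟨_, h⟩)
    · exact absurd h (he.ne_zero i)
    · omega
  · intro h
    exact Or.inr ⟨he.mem i, by omega⟩

theorem PoleBasis_smul_mem (he : IsPoleBasis oo e) {c : K} {m : ℕ} {n : ℤ}
    (hn : n < -oo.ord (e m)) (h : c • e m ∈ LSpace (Finsupp.single oo n)) : c = 0 := by
  by_contra hc
  have h2 : e m ∈ LSpace (Finsupp.single oo n) := by
    have := (LSpace (Finsupp.single oo n)).smul_mem c⁻¹ h
    rwa [smul_smul, inv_mul_cancel₀ hc, one_smul] at this
  rw [PoleBasis_mem_LSpace_iff he] at h2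
  omega

theorem IsPoleBasis.linearIndependent (he : IsPoleBasis oo e) : LinearIndependent K e := by
  classical
  rw [linearIndependent_iff']
  intro s g hsum
  by_contra hne
  push Not at hne
  obtain ⟨i₀, hi₀, hgi₀⟩ := hne
  set t := s.filter fun i => g i ≠ 0 with ht
  have htne : t.Nonempty := ⟨i₀, by simp [ht, hi₀, hgi₀]⟩
  set m := t.max' htne with hm
  have hmt : m ∈ t := t.max'_mem htne
  have hms : m ∈ s := (Finset.mem_filter.1 hmt).1
  have hgm : g m ≠ 0 := (Finset.mem_filter.1 hmt).2
  apply hgm
  refine PoleBasis_smul_mem he (m := m) (n := -oo.ord (e m) - 1) (by omega) ?_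
  have hsplit : g m • e m = -∑ i ∈ s.erase m, g i • e i := by
    rw [← Finset.add_sum_erase s _ hms] at hsum
    exact eq_neg_of_add_eq_zero_left hsum
  rw [hsplit]
  refine Submodule.neg_mem _ (Submodule.sum_mem _ fun i hi => ?_)
  by_cases hgi : g i = 0
  · rw [hgi, zero_smul]
    exact Submodule.zero_mem _
  refine Submodule.smul_mem _ _ ?_
  rw [PoleBasis_mem_LSpace_iff he]
  have hit : i ∈ t := Finset.mem_filter.2 ⟨(Finset.mem_erase.1 hi).2, hgi⟩
  have hle : i ≤ m := t.le_max' i hit
  have hlt : i < m := lt_of_le_of_ne hle (Finset.mem_erase.1 hi).1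
  have := he.strictMono hlt
  dsimp only at this
  omega

theorem PoleBasis_mem_span (he : IsPoleBasis oo e) (N : ℕ) :
    ∀ f ∈ affRing oo, f ≠ 0 → -oo.ord f = (N : ℤ) →
      f ∈ Submodule.span K (e '' {i | -oo.ord (e i) ≤ (N : ℤ)}) := by
  induction N using Nat.strong_induction_on with
  | _ N ih =>
    intro f hf hf0 hfN
    obtain ⟨i, hi⟩ := he.surj f hf hf0
    have hei := he.ne_zero i
    have hmemi : e i ∈ Submodule.span K (e '' {i | -oo.ord (e i) ≤ (N : ℤ)}) :=
      Submodule.subset_span ⟨i, by simp only [Set.mem_ofPred_eq]; omega, rfl⟩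
    have hu : oo.ord (f / e i) = 0 := by
      rw [div_eq_mul_inv, oo.ord_mul hf0 (inv_ne_zero hei), oo.ord_inv]
      omega
    rcases (val_eq_iff oo hu.ge (val oo (f / e i))).1 rfl with h | h
    · have : f = val oo (f / e i) • e i := by
        rw [Algebra.smul_def, ← h, div_mul_cancel₀ _ hei]
      rw [this]
      exact Submodule.smul_mem _ _ hmemi
    · set c := val oo (f / e i) with hc
      have hh : f - c • e i = (f / e i - algebraMap K F c) * e i := by
        rw [sub_mul, div_mul_cancel₀ _ hei, Algebra.smul_def]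
      have hsum : f = (f - c • e i) + c • e i := by ring
      rw [hsum]
      refine Submodule.add_mem _ ?_ (Submodule.smul_mem _ _ hmemi)
      by_cases hz : f - c • e i = 0
      · rw [hz]
        exact Submodule.zero_mem _
      have hz' : f / e i - algebraMap K F c ≠ 0 := by
        intro h0
        rw [h0, zero_mul] at hh
        exact hz hh
      have hmemh : f - c • e i ∈ affRing oo :=
        (affRing oo).sub_mem hf ((affRing oo).smul_mem (he.mem i) c)
      have hordh : oo.ord (f - c • e i) = oo.ord (f / e i - algebraMap K F c) + oo.ord (e i) := by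
        rw [hh, oo.ord_mul hz' hei]
      have hle := ord_nonpos_of_mem_affRing oo hmemh
      have key := ih (-oo.ord (f - c • e i)).toNat (by omega) _ hmemh hz
        (by rw [Int.toNat_of_nonneg (by omega)])
      refine Submodule.span_mono (Set.image_mono ?_) key
      intro j hj
      simp only [Set.mem_ofPred_eq] at hj ⊢
      omega

theorem IsPoleBasis.span_eq (he : IsPoleBasis oo e) (n : ℤ) :
    LSpace (Finsupp.single oo n) = Submodule.span K (e '' {i | -oo.ord (e i) ≤ n}) := by
  apply le_antisymm
  · intro f hf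
    rcases (mem_LSpace_single_iff oo n f).1 hf with rfl | ⟨hfA, hfn⟩
    · exact Submodule.zero_mem _
    by_cases hf0 : f = 0
    · rw [hf0]
      exact Submodule.zero_mem _
    have hle := ord_nonpos_of_mem_affRing oo hfA
    have key := PoleBasis_mem_span he (-oo.ord f).toNat f hfA hf0
      (by rw [Int.toNat_of_nonneg (by omega)])
    refine Submodule.span_mono (Set.image_mono ?_) key
    intro j hj
    simp only [Set.mem_ofPred_eq] at hj ⊢
    omega
  · rw [Submodule.span_le]
    rintro _ ⟨i, hi, rfl⟩
    exact (PoleBasis_mem_LSpace_iff he n i).2 hi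

theorem IsPoleBasis.span_range (he : IsPoleBasis oo e) :
    Submodule.span K (Set.range e) = Subalgebra.toSubmodule (affRing oo) := by
  apply le_antisymm
  · rw [Submodule.span_le]
    rintro _ ⟨i, rfl⟩
    exact he.mem i
  · intro f hf
    obtain ⟨n, hn⟩ := (mem_affRing_iff_exists oo f).1 hf
    rw [he.span_eq] at hn
    exact Submodule.span_mono (Set.image_subset_range _ _) hn

/-- `L(n ∞)` has the basis `e 0, …, e (ℓ(n ∞) - 1)`. -/
theorem IsPoleBasis.lt_ell_iff (he : IsPoleBasis oo e) (n : ℤ) (i : ℕ) :
    i < ell (Finsupp.single oo n) ↔ -oo.ord (e i) ≤ n := by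
  classical
  constructor
  · intro hi
    by_contra hn
    have hsub : LSpace (Finsupp.single oo n) ≤
        Submodule.span K (((Finset.range i).image e : Finset F) : Set F) := by
      rw [he.span_eq]
      refine Submodule.span_mono ?_
      rintro _ ⟨j, hj, rfl⟩
      simp only [Set.mem_ofPred_eq] at hj
      simp only [Finset.coe_image, Finset.coe_range]
      refine ⟨j, ?_, rfl⟩
      simp only [Set.mem_Iio]
      by_contra hji
      have := he.strictMono.monotone (not_lt.1 hji)
      omega
    have h1 : ell (Finsupp.single oo n) ≤ i :=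
      calc ell (Finsupp.single oo n)
          ≤ Module.finrank K (Submodule.span K (((Finset.range i).image e : Finset F) : Set F)) :=
            Submodule.finrank_mono hsub
        _ ≤ ((Finset.range i).image e).card := finrank_span_finset_le_card _
        _ ≤ (Finset.range i).card := Finset.card_image_le
        _ = i := Finset.card_range i
    omega
  · intro hn
    have hmem : ∀ j : Fin (i + 1), e j ∈ LSpace (Finsupp.single oo n) := by
      intro j
      rw [PoleBasis_mem_LSpace_iff he]
      have := he.strictMono.monotone (Nat.lt_succ_iff.1 j.2)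
      omega
    have hli : LinearIndependent K (fun j : Fin (i + 1) =>
        (⟨e j, hmem j⟩ : LSpace (Finsupp.single oo n))) := by
      refine LinearIndependent.of_comp (LSpace (Finsupp.single oo n)).subtype ?_
      exact he.linearIndependent.comp (fun j : Fin (i + 1) => (j : ℕ)) Fin.val_injective
    have := hli.fintype_card_le_finrank
    rw [Fintype.card_fin] at this
    exact this

theorem IsPoleBasis.span_eq' (he : IsPoleBasis oo e) (n : ℤ) :
    LSpace (Finsupp.single oo n) =
      Submodule.span K (e '' {i | i < ell (Finsupp.single oo n)}) := by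
  rw [he.span_eq n]
  congr 2
  ext i
  exact (he.lt_ell_iff n i).symm

/-- there are exactly `g` gaps: `-ord_∞ (e i) = i + g` for large `i`. -/
theorem IsPoleBasis.ord_eq_of_large (he : IsPoleBasis oo e) :
    ∃ i₀ : ℕ, ∀ i, i₀ ≤ i → -oo.ord (e i) = (i : ℤ) + genus K F := by
  refine ⟨(cBound K F - genus K F + 1).toNat, fun i hi => ?_⟩
  have h1 : (ell (Finsupp.single oo ((i : ℤ) + genus K F)) : ℤ) = (i : ℤ) + 1 := by
    rw [riemann_eq (by rw [degree_single']; omega), degree_single']
    ring
  have h2 : (ell (Finsupp.single oo ((i : ℤ) + genus K F - 1)) : ℤ) = (i : ℤ) := by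
    rw [riemann_eq (by rw [degree_single']; omega), degree_single']
    ring
  have h3 := (he.lt_ell_iff ((i : ℤ) + genus K F) i).1 (by omega)
  have h4 : ¬ (-oo.ord (e i) ≤ (i : ℤ) + genus K F - 1) := by
    rw [← he.lt_ell_iff]
    omega
  omega

theorem IsPoleBasis.le_ord (he : IsPoleBasis oo e) (i : ℕ) : (i : ℤ) ≤ -oo.ord (e i) := by
  induction i with
  | zero => simp [he.zero]
  | succ i ih =>
    have := he.strictMono (Nat.lt_add_one i)
    dsimp only at this
    push_cast
    omega

theorem IsPoleBasis.ord_le (he : IsPoleBasis oo e) (i : ℕ) :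
    -oo.ord (e i) ≤ (i : ℤ) + genus K F := by
  obtain ⟨i₀, hi₀⟩ := he.ord_eq_of_large
  have hmono : Monotone fun j : ℕ => -oo.ord (e j) - (j : ℤ) := by
    refine monotone_nat_of_le_succ fun j => ?_
    have := he.strictMono (Nat.lt_add_one j)
    dsimp only at this
    push_cast
    omega
  have h1 := hmono (le_max_left i i₀)
  have h2 := hi₀ (max i i₀) (le_max_right i i₀)
  dsimp only at h1
  omega

end Fermat.Agent.S17.FF
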