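import Fermat.Agent.S17.FF.DivOf
import Fermat.Agent.S17.FF.Index
import Fermat.Agent.S17.FF.PoleBasis

/-! # S17-FF, file `Det`: evaluation determinants and `ℓ(n∞ - S)`; residual divisors. -/

set_option autoImplicit false
set_option linter.unusedSectionVars false

noncomputable section

namespace Fermat.Agent.S17.FF

open AlgebraicCurve Fermat.Agent.S24.Zeros

variable {K F : Type*} [Field K] [Field F] [Algebra K F] [IsAlgClosed K] [CharZero K] [IsFF K F]
  {oo : Place K F} {e : ℕ → F}

/-- the value of a section at a finite place. -/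
theorem IsPoleBasis.val_sum (he : IsPoleBasis oo e) {v : Place K F} (hv : v ≠ oo) (s : Finset ℕ)
    (t : ℕ → K) : val v (∑ i ∈ s, algebraMap K F (t i) * e i) = ∑ i ∈ s, t i * val v (e i) := by
  classical
  have hterm : ∀ i, algebraMap K F (t i) * e i ∈ affRing oo := fun i =>
    (affRing oo).mul_mem ((affRing oo).algebraMap_mem _) (he.mem i)
  have hmem : ∀ s : Finset ℕ, ∑ i ∈ s, algebraMap K F (t i) * e i ∈ affRing oo := fun s =>
    Subalgebra.sum_mem _ fun i _ => hterm i
  induction s using Finset.induction_on with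
  | empty =>
    have := val_algebraMap v (0 : K)
    rw [map_zero] at this
    simpa using this
  | insert a s ha ih =>
    rw [Finset.sum_insert ha, Finset.sum_insert ha, val_add v (hterm a v hv) (hmem s v hv), ih,
      val_mul v (by rw [ord_algebraMap]) (he.mem a v hv), val_algebraMap]

/-- sections of `L(n∞)` in coordinates. -/
theorem IsPoleBasis.mem_LSpace_iff (he : IsPoleBasis oo e) (n : ℤ) (f : F) :
    f ∈ LSpace (Finsupp.single oo n) ↔
      ∃ t : ℕ → K, f = ∑ i ∈ Finset.range (ell (Finsupp.single oo n)), algebraMap K F (t i) * e i := by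
  have hset : {i | i < ell (Finsupp.single oo n)} =
      (↑(Finset.range (ell (Finsupp.single oo n))) : Set ℕ) := by
    ext i
    simp
  rw [he.span_eq' n, hset, Submodule.mem_span_image_finset_iff_exists_fun']
  refine exists_congr fun t => ?_
  simp only [Algebra.smul_def]
  exact eq_comm

theorem IsPoleBasis.sum_eq_zero_iff (he : IsPoleBasis oo e) (r : ℕ) (t : ℕ → K) :
    ∑ i ∈ Finset.range r, algebraMap K F (t i) * e i = 0 ↔ ∀ i < r, t i = 0 := by
  constructor
  · intro h i hi
    refine linearIndependent_iff'.1 he.linearIndependent (Finset.range r) t ?_ i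
      (Finset.mem_range.2 hi)
    simpa only [Algebra.smul_def] using h
  · intro h
    refine Finset.sum_eq_zero fun i hi => ?_
    rw [h i (Finset.mem_range.1 hi), map_zero, zero_mul]

/-- `det (e_i(P_j)) ≠ 0 ↔ ℓ(n∞ - ∑ P_j) = 0` for `ℓ(n∞)` distinct finite places `P_j`. -/
theorem IsPoleBasis.det_ne_zero_iff (he : IsPoleBasis oo e) (n : ℤ) {r : ℕ} (P : Fin r → Place K F)
    (hP : Function.Injective P) (hoo : ∀ j, P j ≠ oo) (hr : r = ell (Finsupp.single oo n)) :
    Matrix.det (Matrix.of fun i j : Fin r => val (P j) (e i)) ≠ 0 ↔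
      ell (Finsupp.single oo n - ∑ j, Finsupp.single (P j) (1 : ℤ)) = 0 := by
  classical
  set Q : Multiset (Place K F) := Multiset.ofList (List.ofFn P) with hQdef
  have hQ : Q.Nodup := Multiset.coe_nodup.2 (List.nodup_ofFn.2 hP)
  have hmemQ : ∀ v, v ∈ Q ↔ ∃ j, P j = v := fun v => by
    rw [hQdef, Multiset.mem_coe, List.mem_ofFn]
  have hooQ : oo ∉ Q := fun h => by
    obtain ⟨j, hj⟩ := (hmemQ oo).1 h
    exact hoo j hj
  rw [← divOf_ofFn P, ← hQdef]
  set M : Matrix (Fin r) (Fin r) K := Matrix.of fun i j : Fin r => val (P j) (e i) with hM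
  have hval : ∀ (t : ℕ → K) (j : Fin r),
      val (P j) (∑ i ∈ Finset.range r, algebraMap K F (t i) * e i) =
        Matrix.vecMul (fun i : Fin r => t i) M j := by
    intro t j
    rw [he.val_sum (hoo j), ← Fin.sum_univ_eq_sum_range (fun i => t i * val (P j) (e i)) r]
    rfl
  have key : M.det = 0 ↔ 0 < ell (Finsupp.single oo n - divOf Q) := by
    rw [← Matrix.exists_vecMul_eq_zero_iff, ell_pos_iff]
    constructor
    · rintro ⟨a, ha, haM⟩
      let t : ℕ → K := fun i => if h : i < r then a ⟨i, h⟩ else 0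
      have hta : (fun i : Fin r => t i) = a := by
        funext i
        exact dif_pos i.2
      refine ⟨∑ i ∈ Finset.range r, algebraMap K F (t i) * e i, ?_, ?_⟩
      · rw [mem_LSpace_sub_divOf_iff oo hQ hooQ]
        refine ⟨(he.mem_LSpace_iff n _).2 ⟨t, by rw [← hr]⟩, fun v hv => ?_⟩
        obtain ⟨j, rfl⟩ := (hmemQ v).1 hv
        rw [hval, hta, haM]
        rfl
      · intro h0
        apply ha
        rw [← hta]
        funext i
        exact (he.sum_eq_zero_iff r t).1 h0 i i.2
    · rintro ⟨f, hf, hf0⟩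
      rw [mem_LSpace_sub_divOf_iff oo hQ hooQ] at hf
      obtain ⟨t, ht⟩ := (he.mem_LSpace_iff n f).1 hf.1
      rw [← hr] at ht
      refine ⟨fun i : Fin r => t i, ?_, ?_⟩
      · intro h0
        apply hf0
        rw [ht, he.sum_eq_zero_iff]
        intro i hi
        exact congrFun h0 ⟨i, hi⟩
      · funext j
        rw [← hval, ← ht, hf.2 (P j) ((hmemQ _).2 ⟨j, rfl⟩)]
        rfl
  rw [Ne, key]
  omega

/-- a determinant with a repeated point vanishes. -/
theorem det_eq_zero_of_not_injective {r : ℕ} (P : Fin r → Place K F)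
    (hP : ¬ Function.Injective P) :
    Matrix.det (Matrix.of fun i j : Fin r => val (P j) (e i)) = 0 := by
  have h : ∃ j j', P j = P j' ∧ j ≠ j' := by
    unfold Function.Injective at hP
    push Not at hP
    exact hP
  obtain ⟨j, j', hjj, hne⟩ := h
  refine Matrix.det_zero_of_column_eq hne fun k => ?_
  simp only [Matrix.of_apply]
  rw [hjj]

/-- `ℓ(D - S)` depends only on the class of `S`. -/
theorem ell_sub_congr (oo : Place K F) (D : Divisor K F) {S S' : Divisor K F}
    (hd : Divisor.degree S = Divisor.degree S') (hc : cls oo S = cls oo S') :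
    ell (D - S) = ell (D - S') := by
  obtain ⟨f, hf, rfl⟩ := (cls_eq_cls_iff oo hd).1 hc
  have h : D - (S + divf f) = D - S + divf f⁻¹ := by
    rw [divf_inv]
    abel
  rw [h, ell_add_divf _ (inv_ne_zero hf)]

/-- uniqueness of the residual divisor. -/
theorem resid_unique (oo : Place K F) (n : ℤ) {S P P' : Divisor K F}
    (h : ell (Finsupp.single oo n - S) = 0) (hP : 0 ≤ P) (hP' : 0 ≤ P')
    (hd : Divisor.degree (S + P) = n + 1) (hd' : Divisor.degree (S + P') = n + 1)
    (hc : cls oo (S + P) = 0) (hc' : cls oo (S + P') = 0) : P = P' := by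
  obtain ⟨s, hs0, hs⟩ := (cls_eq_zero_iff oo _).1 hc
  obtain ⟨s', hs0', hs'⟩ := (cls_eq_zero_iff oo _).1 hc'
  rw [hd] at hs
  rw [hd'] at hs'
  set E : Divisor K F := Finsupp.single oo (n + 1) - S with hE
  have hsE : s ∈ LSpace E := by
    rw [mem_LSpace_of_ne_zero hs0]
    have : divf s + E = P := by
      rw [hE]
      have h1 : divf s = S + P - Finsupp.single oo (n + 1) := by rw [hs]; abel
      rw [h1]
      abel
    rw [this]
    exact hP
  have hsE' : s' ∈ LSpace E := by
    rw [mem_LSpace_of_ne_zero hs0']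
    have : divf s' + E = P' := by
      rw [hE]
      have h1 : divf s' = S + P' - Finsupp.single oo (n + 1) := by rw [hs']; abel
      rw [h1]
      abel
    rw [this]
    exact hP'
  have hE1 : ell E = 1 := by
    have h1 : E = Finsupp.single oo n - S + Finsupp.single oo 1 := by
      rw [hE, Finsupp.single_add]
      abel
    have h2 := ell_add_single_le (Finsupp.single oo n - S) oo
    rw [← h1, h] at h2
    have h3 : 0 < ell E := ell_pos_iff.2 ⟨s, hsE, hs0⟩
    omega
  obtain ⟨c, hc⟩ := exists_smul_eq_of_ell_eq_one hE1 hsE hsE' hs0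
  have hc0 : algebraMap K F c ≠ 0 := by
    intro h0
    rw [h0, zero_mul] at hc
    exact hs0' hc
  have hdiv : divf (K := K) s' = divf s := by
    rw [hc, divf_mul hc0 hs0, divf_algebraMap, zero_add]
  rw [hdiv, ← hs] at hs'
  exact (add_left_cancel hs').symm

theorem Det_ell_succ (oo : Place K F) {m : ℤ} (hm : cBound K F + 1 ≤ m) :
    ell (Finsupp.single oo m) = ell (Finsupp.single oo (m - 1)) + 1 := by
  have h1 := riemann_eq (D := Finsupp.single oo m) (by rw [degree_single']; omega)
  have h2 := riemann_eq (D := Finsupp.single oo (m - 1)) (by rw [degree_single']; omega)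
  rw [degree_single'] at h1 h2
  omega

/-- the last basis element of `L(m∞)` has pole order exactly `m` (`m` large). -/
theorem IsPoleBasis.ord_top (he : IsPoleBasis oo e) {m : ℤ} (hm : cBound K F + 1 ≤ m) :
    oo.ord (e (ell (Finsupp.single oo m) - 1)) = -m := by
  have h := Det_ell_succ oo hm
  have h1 := (he.lt_ell_iff m (ell (Finsupp.single oo m) - 1)).1 (by omega)
  have h2 : ¬ (-oo.ord (e (ell (Finsupp.single oo m) - 1)) ≤ m - 1) := by
    rw [← he.lt_ell_iff (m - 1)]
    omega
  omega

theorem IsPoleBasis.ord_sum_eq (he : IsPoleBasis oo e) {m : ℤ} (hm : cBound K F + 1 ≤ m)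
    (t : ℕ → K) (ht : t (ell (Finsupp.single oo m) - 1) ≠ 0) :
    oo.ord (∑ i ∈ Finset.range (ell (Finsupp.single oo m)), algebraMap K F (t i) * e i) = -m := by
  have h := Det_ell_succ oo hm
  have htop := he.ord_top hm
  have hk : ell (Finsupp.single oo m) - 1 = ell (Finsupp.single oo (m - 1)) := by omega
  rw [hk] at ht htop
  rw [h, Finset.sum_range_succ, add_comm]
  set k := ell (Finsupp.single oo (m - 1)) with hkdef
  have hc0 : algebraMap K F (t k) ≠ 0 := by simpa using ht
  have hlast0 : algebraMap K F (t k) * e k ≠ 0 := mul_ne_zero hc0 (he.ne_zero k)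
  have hlast : oo.ord (algebraMap K F (t k) * e k) = -m := by
    rw [oo.ord_mul hc0 (he.ne_zero k), ord_algebraMap, zero_add, htop]
  have hR : ∑ i ∈ Finset.range k, algebraMap K F (t i) * e i ∈ LSpace (Finsupp.single oo (m - 1)) :=
    (he.mem_LSpace_iff (m - 1) _).2 ⟨t, rfl⟩
  rcases mem_LSpace.1 hR with h0 | h0
  · rw [h0, add_zero, hlast]
  · have h1 := h0 oo
    rw [Finsupp.single_eq_same] at h1
    rw [ord_add_eq_of_lt oo (by rw [hlast]; omega) hlast0, hlast]

end Fermat.Agent.S17.FF
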