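import Fermat.Agent.S17.FF.DivOf
import Fermat.Agent.S17.FF.Index

/-! # S17-FF, file `GenPos`: points in general position. -/

set_option autoImplicit false
set_option linter.unusedSectionVars false

noncomputable section

namespace Fermat.Agent.S17.FF

open AlgebraicCurve Fermat.Agent.S24.Zeros

variable {K F : Type*} [Field K] [Field F] [Algebra K F] [IsAlgClosed K] [CharZero K] [IsFF K F]

/-- auxiliary: a point which is not a base point imposes exactly one condition. -/
theorem GenPos_ell_sub_add_one (D : Divisor K F) (v : Place K F)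
    (hv : ell (D - Finsupp.single v 1) ≠ ell D) : ell (D - Finsupp.single v 1) + 1 = ell D := by
  have h1 : ell (D - Finsupp.single v 1) ≤ ell D := by
    refine ell_mono ?_
    rw [sub_le_self_iff]
    intro w
    rw [Finsupp.coe_zero, Pi.zero_apply]
    classical
    rw [Finsupp.single_apply]
    split_ifs <;> norm_num
  have h2 := ell_add_single_le (D - Finsupp.single v 1) v
  rw [sub_add_cancel] at h2
  omega

/-- a general point imposes one condition on two given linear systems. -/
theorem exists_place_ell_sub (D D' : Divisor K F) (h : 0 < ell D) (h' : 0 < ell D')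
    (T : Finset (Place K F)) : ∃ v : Place K F, v ∉ T ∧
      ell (D - Finsupp.single v 1) + 1 = ell D ∧ ell (D' - Finsupp.single v 1) + 1 = ell D' := by
  have hinf : Infinite (Place K F) := infinite_place
  have hfin : ({P : Place K F | ell (D - Finsupp.single P 1) = ell D} ∪
      {P : Place K F | ell (D' - Finsupp.single P 1) = ell D'} ∪ (T : Set (Place K F))).Finite :=
    ((finite_ell_sub_single h).union (finite_ell_sub_single h')).union T.finite_toSet
  obtain ⟨v, hv⟩ := hfin.exists_notMem
  simp only [Set.mem_union, Set.mem_ofPred_eq, Finset.mem_coe, not_or] at hv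
  obtain ⟨⟨hv1, hv2⟩, hv3⟩ := hv
  exact ⟨v, hv3, GenPos_ell_sub_add_one D v hv1, GenPos_ell_sub_add_one D' v hv2⟩

/-- `k = ℓ(D) = ℓ(D')` general points kill all the sections of `D` and `D'`. -/
theorem exists_list_ell_eq_zero (k : ℕ) (D D' : Divisor K F) (h : ell D = k) (h' : ell D' = k)
    (T : Finset (Place K F)) : ∃ Y : List (Place K F), Y.Nodup ∧ Y.length = k ∧ (∀ v ∈ Y, v ∉ T) ∧
      ell (D - divOf (Y : Multiset (Place K F))) = 0 ∧
      ell (D' - divOf (Y : Multiset (Place K F))) = 0 := by
  classical
  induction k generalizing D D' T with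
  | zero =>
    refine ⟨[], List.nodup_nil, rfl, fun v hv => absurd hv (List.not_mem_nil), ?_, ?_⟩
    · rw [Multiset.coe_nil, divOf_zero, sub_zero]
      exact h
    · rw [Multiset.coe_nil, divOf_zero, sub_zero]
      exact h'
  | succ k ih =>
    obtain ⟨v, hvT, h1, h2⟩ := exists_place_ell_sub D D' (by omega) (by omega) T
    obtain ⟨Y, hY1, hY2, hY3, hY4, hY5⟩ := ih (D - Finsupp.single v 1) (D' - Finsupp.single v 1)
      (by omega) (by omega) (insert v T)
    refine ⟨v :: Y, ?_, ?_, ?_, ?_, ?_⟩
    · refine List.nodup_cons.2 ⟨fun hv => ?_, hY1⟩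
      exact hY3 v hv (Finset.mem_insert_self v T)
    · rw [List.length_cons, hY2]
    · intro w hw
      rcases List.mem_cons.1 hw with rfl | hw
      · exact hvT
      · exact fun hwT => hY3 w hw (Finset.mem_insert_of_mem hwT)
    · rw [← Multiset.cons_coe, divOf_cons, ← sub_sub]
      exact hY4
    · rw [← Multiset.cons_coe, divOf_cons, ← sub_sub]
      exact hY5

end Fermat.Agent.S17.FF
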