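import Fermat.Agent.S17.FF.CurveDef
import Fermat.Agent.S17.FF.Det
import Fermat.Agent.S17.FF.GenPos
import Fermat.Agent.S17.FF.Sep

/-! # S17-FF (module GAL), file `CurveDet`: the fields `det_congr`, `resid_unique`, `exists_indep`,
`cover` of `(curveOf A).Geom`. -/

set_option autoImplicit false
set_option linter.unusedSectionVars false

noncomputable section

namespace Fermat.Agent.S17.FF

open AlgebraicCurve Fermat.Agent.S24.Zeros

variable {F : Type} [Field F] [Algebra Qbar F] [IsFF Qbar F] {oo : Place Qbar F}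
  (A : QAction GQ Qbar F oo)

/-- lists of finite places lift to lists of points. -/
theorem CurveDet_exists_lift (Y : List (Place Qbar F)) (h : ∀ v ∈ Y, v ≠ oo) :
    ∃ U : List {v : Place Qbar F // v ≠ oo}, U.map Subtype.val = Y := by
  refine ⟨Y.pmap Subtype.mk h, ?_⟩
  rw [List.map_pmap]
  exact (List.pmap_eq_map (p := fun v => v ≠ oo) (f := fun a => a) (l := Y) (H := h)).trans
    (List.map_id' Y)

theorem CurveDet_ell_eq (n : ℕ) (hn : thr Qbar F ≤ n) :
    (ell (Finsupp.single oo (n : ℤ) : Divisor Qbar F) : ℤ) + genus Qbar F = n + 1 := by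
  have h1 := cBound_le_thr (F := F)
  have h2 : cBound Qbar F ≤ Divisor.degree (Finsupp.single oo (n : ℤ) : Divisor Qbar F) := by
    rw [degree_single']
    have : (thr Qbar F : ℤ) ≤ n := by exact_mod_cast hn
    have h3 : (0 : ℤ) ≤ genus Qbar F := Int.natCast_nonneg _
    omega
  have h3 := riemann_eq h2
  rw [degree_single'] at h3
  omega

theorem CurveDet_degree (S : Multiset {v : Place Qbar F // v ≠ oo}) :
    Divisor.degree (divOf (S.map Subtype.val)) = (S.card : ℤ) := by
  rw [degree_divOf, Multiset.card_map]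

/-- the determinant, written with places. -/
def CurveDet_DL (l : List {v : Place Qbar F // v ≠ oo}) : Qbar :=
  Matrix.det (Matrix.of fun i j : Fin l.length => val (l.get j).1 (A.basis i))

theorem CurveDet_DL_ne_zero_iff (n : ℕ) (S : List {v : Place Qbar F // v ≠ oo})
    (hl : S.length = ell (Finsupp.single oo (n : ℤ) : Divisor Qbar F)) :
    CurveDet_DL A S ≠ 0 ↔ S.Nodup ∧
      ell (Finsupp.single oo (n : ℤ) -
        divOf ((S : Multiset {v : Place Qbar F // v ≠ oo}).map Subtype.val)) = 0 := by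
  unfold CurveDet_DL
  by_cases hS : S.Nodup
  · have hinj : Function.Injective (fun j : Fin S.length => (S.get j).1) :=
      Subtype.val_injective.comp (List.nodup_iff_injective_get.1 hS)
    have h1 := A.isPoleBasis_basis.det_ne_zero_iff (n : ℤ) (fun j : Fin S.length => (S.get j).1)
      hinj (fun j => (S.get j).2) hl
    rw [h1, divOf_map_val_coe]
    exact ⟨fun h => ⟨hS, h⟩, fun h => h.2⟩
  · have hninj : ¬ Function.Injective (fun j : Fin S.length => (S.get j).1) := by
      intro hinj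
      refine hS (List.nodup_iff_injective_get.2 ?_)
      intro i j hij
      exact hinj (congrArg Subtype.val hij)
    have h1 := det_eq_zero_of_not_injective (e := A.basis)
      (fun j : Fin S.length => (S.get j).1) hninj
    constructor
    · intro h
      exact absurd h1 h
    · intro h
      exact absurd h.1 hS

theorem CurveDet_det_congr (n : ℕ) (S S' : List {v : Place Qbar F // v ≠ oo})
    (hS' : S'.Nodup) (hl : S.length = ell (Finsupp.single oo (n : ℤ) : Divisor Qbar F))
    (hl' : S'.length = ell (Finsupp.single oo (n : ℤ) : Divisor Qbar F))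
    (hc : cls oo (divOf ((S : Multiset {v : Place Qbar F // v ≠ oo}).map Subtype.val)) =
      cls oo (divOf ((S' : Multiset {v : Place Qbar F // v ≠ oo}).map Subtype.val)))
    (h : CurveDet_DL A S ≠ 0) : CurveDet_DL A S' ≠ 0 := by
  rw [CurveDet_DL_ne_zero_iff A n S hl] at h
  rw [CurveDet_DL_ne_zero_iff A n S' hl']
  refine ⟨hS', ?_⟩
  rw [← h.2]
  refine (ell_sub_congr oo _ ?_ hc).symm
  rw [CurveDet_degree, CurveDet_degree, Multiset.coe_card, Multiset.coe_card, hl, hl']

theorem CurveDet_resid_unique (n : ℕ) (hn : thr Qbar F ≤ n)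
    (S : List {v : Place Qbar F // v ≠ oo})
    (hl : S.length = ell (Finsupp.single oo (n : ℤ) : Divisor Qbar F)) (h : CurveDet_DL A S ≠ 0)
    (P P' : Multiset {v : Place Qbar F // v ≠ oo}) (hP : P.card = genus Qbar F)
    (hP' : P'.card = genus Qbar F)
    (hc : cls oo (divOf (((S : Multiset {v : Place Qbar F // v ≠ oo}) + P).map Subtype.val)) = 0)
    (hc' : cls oo (divOf (((S : Multiset {v : Place Qbar F // v ≠ oo}) + P').map Subtype.val)) = 0) :
    P = P' := by
  rw [CurveDet_DL_ne_zero_iff A n S hl] at h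
  rw [Multiset.map_add, divOf_add] at hc hc'
  have hell := CurveDet_ell_eq (oo := oo) n hn
  have e1 := CurveDet_degree (oo := oo) (S : Multiset {v : Place Qbar F // v ≠ oo})
  have e2 := CurveDet_degree (oo := oo) P
  have e3 := CurveDet_degree (oo := oo) P'
  rw [Multiset.coe_card] at e1
  have hl2 : (S.length : ℤ) = (ell (Finsupp.single oo (n : ℤ) : Divisor Qbar F) : ℤ) := by
    exact_mod_cast hl
  have hP2 : (P.card : ℤ) = genus Qbar F := by exact_mod_cast hP
  have hP2' : (P'.card : ℤ) = genus Qbar F := by exact_mod_cast hP'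
  have key := resid_unique oo (n : ℤ) h.2 (divOf_nonneg (P.map Subtype.val))
    (divOf_nonneg (P'.map Subtype.val))
    (by rw [map_add, e1, e2]; omega) (by rw [map_add, e1, e3]; omega) hc hc'
  exact Multiset.map_injective Subtype.val_injective (divOf_injective key)

theorem CurveDet_exists_indep (n : ℕ) (Sg : Finset {v : Place Qbar F // v ≠ oo}) :
    ∃ U : List {v : Place Qbar F // v ≠ oo}, U.Nodup ∧
      U.length = ell (Finsupp.single oo (n : ℤ) : Divisor Qbar F) ∧ CurveDet_DL A U ≠ 0 ∧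
      ∀ P ∈ U, P ∉ Sg := by
  classical
  obtain ⟨Y, hYnd, hYl, hYT, hY0, -⟩ := exists_list_ell_eq_zero
    (ell (Finsupp.single oo (n : ℤ) : Divisor Qbar F)) (Finsupp.single oo (n : ℤ))
    (Finsupp.single oo (n : ℤ)) rfl rfl (insert oo (Sg.image Subtype.val))
  obtain ⟨U, hU⟩ := CurveDet_exists_lift (oo := oo) Y (fun v hv h =>
    hYT v hv (by rw [h]; exact Finset.mem_insert_self _ _))
  have hUnd : U.Nodup := List.Nodup.of_map Subtype.val (hU ▸ hYnd)
  have hUl : U.length = ell (Finsupp.single oo (n : ℤ) : Divisor Qbar F) := by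
    rw [← hYl, ← hU, List.length_map]
  refine ⟨U, hUnd, hUl, ?_, ?_⟩
  · rw [CurveDet_DL_ne_zero_iff A n U hUl]
    refine ⟨hUnd, ?_⟩
    rw [Multiset.map_coe, hU]
    exact hY0
  · intro P hP hPS
    refine hYT P.1 (hU ▸ List.mem_map_of_mem hP) ?_
    exact Finset.mem_insert_of_mem (Finset.mem_image_of_mem _ hPS)

theorem CurveDet_cover (n μ : ℕ) (hn : thr Qbar F + μ ≤ n)
    (Q Q' : List {v : Place Qbar F // v ≠ oo})
    (hQ : Q.Nodup) (hQ' : Q'.Nodup) (hl : Q.length = μ) (hl' : Q'.length = μ) :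
    ∃ Y : List {v : Place Qbar F // v ≠ oo},
      Y.length + μ = ell (Finsupp.single oo (n : ℤ) : Divisor Qbar F) ∧
      CurveDet_DL A (Q ++ Y) ≠ 0 ∧ CurveDet_DL A (Q' ++ Y) ≠ 0 := by
  classical
  have hthr := cBound_le_thr (F := F)
  have hn' : (thr Qbar F : ℤ) + μ ≤ n := by exact_mod_cast hn
  have hg0 : (0 : ℤ) ≤ genus Qbar F := Int.natCast_nonneg _
  have eQ := CurveDet_degree (oo := oo) (Q : Multiset {v : Place Qbar F // v ≠ oo})
  have eQ' := CurveDet_degree (oo := oo) (Q' : Multiset {v : Place Qbar F // v ≠ oo})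
  rw [Multiset.coe_card, hl] at eQ
  rw [Multiset.coe_card, hl'] at eQ'
  have h1 := ell_sub_eq (oo := oo) (n := (n : ℤ))
    (divOf_nonneg ((Q : Multiset {v : Place Qbar F // v ≠ oo}).map Subtype.val))
    (by rw [eQ]; omega)
  have h2 := ell_sub_eq (oo := oo) (n := (n : ℤ))
    (divOf_nonneg ((Q' : Multiset {v : Place Qbar F // v ≠ oo}).map Subtype.val))
    (by rw [eQ']; omega)
  rw [eQ] at h1
  rw [eQ'] at h2
  have h12 : ell (Finsupp.single oo (n : ℤ) -
      divOf ((Q' : Multiset {v : Place Qbar F // v ≠ oo}).map Subtype.val)) =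
      ell (Finsupp.single oo (n : ℤ) -
      divOf ((Q : Multiset {v : Place Qbar F // v ≠ oo}).map Subtype.val)) := by
    have : (ell (Finsupp.single oo (n : ℤ) -
      divOf ((Q' : Multiset {v : Place Qbar F // v ≠ oo}).map Subtype.val)) : ℤ) =
      ell (Finsupp.single oo (n : ℤ) -
      divOf ((Q : Multiset {v : Place Qbar F // v ≠ oo}).map Subtype.val)) := by
      rw [h1, h2]
    exact_mod_cast this
  obtain ⟨Y, hYnd, hYl, hYT, hY0, hY0'⟩ := exists_list_ell_eq_zero _ _ _ rfl h12
    (insert oo ((Q.map Subtype.val).toFinset ∪ (Q'.map Subtype.val).toFinset))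
  obtain ⟨U, hU⟩ := CurveDet_exists_lift (oo := oo) Y (fun v hv h =>
    hYT v hv (by rw [h]; exact Finset.mem_insert_self _ _))
  have hUnd : U.Nodup := List.Nodup.of_map Subtype.val (hU ▸ hYnd)
  have hUl : U.length + μ = ell (Finsupp.single oo (n : ℤ) : Divisor Qbar F) := by
    have e : U.length = Y.length := by rw [← hU, List.length_map]
    rw [e, hYl]
    have : ((ell (Finsupp.single oo (n : ℤ) -
      divOf ((Q : Multiset {v : Place Qbar F // v ≠ oo}).map Subtype.val)) + μ : ℕ) : ℤ) =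
      (ell (Finsupp.single oo (n : ℤ) : Divisor Qbar F) : ℤ) := by
      push_cast
      rw [h1]
      ring
    exact_mod_cast this
  have hmain : ∀ Q₁ : List {v : Place Qbar F // v ≠ oo}, Q₁.Nodup → Q₁.length = μ →
      (∀ P ∈ Q₁, P.1 ∉ Y) →
      ell (Finsupp.single oo (n : ℤ) -
        divOf ((Q₁ : Multiset {v : Place Qbar F // v ≠ oo}).map Subtype.val) -
        divOf (Y : Multiset (Place Qbar F))) = 0 → CurveDet_DL A (Q₁ ++ U) ≠ 0 := by
    intro Q₁ hnd hlen hdis h0
    rw [CurveDet_DL_ne_zero_iff A n (Q₁ ++ U) (by rw [List.length_append, hlen, ← hUl, add_comm])]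
    constructor
    · rw [List.nodup_append]
      refine ⟨hnd, hUnd, ?_⟩
      intro a ha b hb hab
      refine hdis a ha ?_
      rw [← hU, hab]
      exact List.mem_map_of_mem hb
    · rw [← Multiset.coe_add, Multiset.map_add, divOf_add, ← sub_sub, Multiset.map_coe _ U, hU]
      exact h0
  refine ⟨U, hUl, hmain Q hQ hl ?_ hY0, hmain Q' hQ' hl' ?_ hY0'⟩
  · intro P hP hPY
    refine hYT P.1 hPY (Finset.mem_insert_of_mem (Finset.mem_union_left _ ?_))
    rw [List.mem_toFinset]
    exact List.mem_map_of_mem hP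
  · intro P hP hPY
    refine hYT P.1 hPY (Finset.mem_insert_of_mem (Finset.mem_union_right _ ?_))
    rw [List.mem_toFinset]
    exact List.mem_map_of_mem hP

/-- `det_n(S) ≠ 0 ↔ S` is reduced and `h⁰(n∞ - S) = 0`. -/
theorem curveOf_DL_ne_zero_iff (n : ℕ) (S : List (curveOf A).Pts)
    (hl : S.length = (curveOf A).ℓ n) :
    (curveOf A).DL S ≠ 0 ↔ S.Nodup ∧
      ell (Finsupp.single oo (n : ℤ) -
        divOf ((S : Multiset (curveOf A).Pts).map Subtype.val)) = 0 := by
  exact CurveDet_DL_ne_zero_iff A n S hl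

theorem curveOf_det_congr (n : ℕ) (hn : (curveOf A).n₀ ≤ n) (S S' : List (curveOf A).Pts)
    (hS : S.Nodup) (hS' : S'.Nodup) (hl : S.length = (curveOf A).ℓ n)
    (hl' : S'.length = (curveOf A).ℓ n)
    (hc : (curveOf A).cls (S : Multiset (curveOf A).Pts) =
      (curveOf A).cls (S' : Multiset (curveOf A).Pts))
    (h : (curveOf A).DL S ≠ 0) : (curveOf A).DL S' ≠ 0 := by
  exact CurveDet_det_congr A n S S' hS' hl hl' hc h

theorem curveOf_resid_unique (n : ℕ) (hn : (curveOf A).n₀ ≤ n) (S : List (curveOf A).Pts)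
    (hS : S.Nodup) (hl : S.length = (curveOf A).ℓ n) (h : (curveOf A).DL S ≠ 0)
    (P P' : Multiset (curveOf A).Pts) (hP : P.card = (curveOf A).g) (hP' : P'.card = (curveOf A).g)
    (hc : (curveOf A).cls ((S : Multiset (curveOf A).Pts) + P) = 0)
    (hc' : (curveOf A).cls ((S : Multiset (curveOf A).Pts) + P') = 0) : P = P' := by
  exact CurveDet_resid_unique A n hn S hl h P P' hP hP' hc hc'

theorem curveOf_exists_indep (n : ℕ) (hn : (curveOf A).n₀ ≤ n) (Sg : Finset (curveOf A).Pts) :
    ∃ U : List (curveOf A).Pts, U.Nodup ∧ U.length = (curveOf A).ℓ n ∧ (curveOf A).DL U ≠ 0 ∧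
      ∀ P ∈ U, P ∉ Sg := by
  exact CurveDet_exists_indep A n Sg

theorem curveOf_cover (n μ : ℕ) (hn : (curveOf A).n₀ + μ ≤ n) (Q Q' : List (curveOf A).Pts)
    (hQ : Q.Nodup) (hQ' : Q'.Nodup) (hl : Q.length = μ) (hl' : Q'.length = μ) :
    ∃ Y : List (curveOf A).Pts, Y.length + μ = (curveOf A).ℓ n ∧ (curveOf A).DL (Q ++ Y) ≠ 0 ∧
      (curveOf A).DL (Q' ++ Y) ≠ 0 := by
  exact CurveDet_cover A n μ hn Q Q' hQ hQ' hl hl'

end Fermat.Agent.S17.FF
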