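import Fermat.Agent.S17.FF.RiemannCor

/-! # S17-FF, file `Cls`: dictionary between divisors and classes in `Pic0 K F`
(base point `∞`). -/

set_option autoImplicit false
set_option linter.unusedSectionVars false

noncomputable section

namespace Fermat.Agent.S17.FF

open AlgebraicCurve Fermat.Agent.S24.Zeros

variable {K F : Type*} [Field K] [Field F] [Algebra K F] [IsAlgClosed K] [CharZero K] [IsFF K F]
variable (oo : Place K F)

theorem sub_single_mem_degZero (D : Divisor K F) :
    D - Finsupp.single oo (Divisor.degree D) ∈ Divisor.degZero (K := K) (F := F) := by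
  rw [Divisor.mem_degZero, map_sub, degree_single', sub_self]

/-- the class of `D - (deg D) ∞`. -/
def cls (D : Divisor K F) : Pic0 K F :=
  Pic0.mk ⟨D - Finsupp.single oo (Divisor.degree D), sub_single_mem_degZero oo D⟩

theorem mk_eq_cls (D : Divisor.degZero (K := K) (F := F)) : Pic0.mk D = cls oo (D : Divisor K F) := by
  unfold cls
  congr 1
  apply Subtype.ext
  change (D : Divisor K F) = (D : Divisor K F) - Finsupp.single oo (Divisor.degree (D : Divisor K F))
  rw [Divisor.mem_degZero.1 D.2, Finsupp.single_zero, sub_zero]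

/-- `cls oo` as an additive homomorphism. -/
def Cls_hom : Divisor K F →+ Pic0 K F where
  toFun := cls oo
  map_zero' := by
    have h : (⟨(0 : Divisor K F) - Finsupp.single oo (Divisor.degree (0 : Divisor K F)),
        sub_single_mem_degZero oo 0⟩ : Divisor.degZero (K := K) (F := F)) = 0 :=
      Subtype.ext (by
        change (0 : Divisor K F) - Finsupp.single oo (Divisor.degree (0 : Divisor K F)) = 0
        rw [map_zero, Finsupp.single_zero, sub_zero])
    unfold cls
    rw [h]
    rfl
  map_add' D E := by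
    unfold cls
    rw [← Pic0.mk_add]
    congr 1
    apply Subtype.ext
    change D + E - Finsupp.single oo (Divisor.degree (D + E)) =
      (D - Finsupp.single oo (Divisor.degree D)) + (E - Finsupp.single oo (Divisor.degree E))
    rw [map_add, Finsupp.single_add]
    abel

theorem Cls_hom_apply (D : Divisor K F) : Cls_hom oo D = cls oo D := rfl

theorem cls_surjective (x : Pic0 K F) : ∃ D : Divisor K F, Divisor.degree D = 0 ∧ cls oo D = x := by
  obtain ⟨D, rfl⟩ := Pic0.mk_surjective x
  exact ⟨D, Divisor.mem_degZero.1 D.2, (mk_eq_cls oo D).symm⟩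

@[simp] theorem cls_zero : cls oo (0 : Divisor K F) = 0 := by
  exact map_zero (Cls_hom oo)

theorem cls_add (D E : Divisor K F) : cls oo (D + E) = cls oo D + cls oo E := by
  exact map_add (Cls_hom oo) D E

theorem cls_neg (D : Divisor K F) : cls oo (-D) = -cls oo D := by
  exact map_neg (Cls_hom oo) D

theorem cls_sub (D E : Divisor K F) : cls oo (D - E) = cls oo D - cls oo E := by
  exact map_sub (Cls_hom oo) D E

theorem cls_sum {ι : Type*} (s : Finset ι) (D : ι → Divisor K F) :
    cls oo (∑ i ∈ s, D i) = ∑ i ∈ s, cls oo (D i) := by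
  exact map_sum (Cls_hom oo) D s

theorem cls_nsmul (n : ℕ) (D : Divisor K F) : cls oo (n • D) = n • cls oo D := by
  exact map_nsmul (Cls_hom oo) n D

@[simp] theorem cls_single_oo (n : ℤ) : cls oo (Finsupp.single oo n) = 0 := by
  have h : (⟨Finsupp.single oo n - Finsupp.single oo (Divisor.degree (Finsupp.single oo n)),
      sub_single_mem_degZero oo _⟩ : Divisor.degZero (K := K) (F := F)) = 0 :=
    Subtype.ext (by
      change Finsupp.single oo n - Finsupp.single oo (Divisor.degree (Finsupp.single oo n)) = 0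
      rw [degree_single', sub_self])
  unfold cls
  rw [h]
  rfl

theorem Cls_mk_eq_zero_iff (D : Divisor.degZero (K := K) (F := F)) :
    Pic0.mk D = 0 ↔ ∃ f : F, f ≠ 0 ∧ (D : Divisor K F) = divf f := by
  unfold Pic0.mk
  rw [QuotientAddGroup.eq_zero_iff, AddSubgroup.mem_addSubgroupOf, Divisor.mem_principal]
  constructor
  · rintro ⟨f, hf, h⟩
    exact ⟨f, hf, Finsupp.ext fun v => by rw [h v, divf_apply]⟩
  · rintro ⟨f, hf, h⟩
    exact ⟨f, hf, fun v => by rw [h, divf_apply]⟩

@[simp] theorem cls_divf (f : F) : cls oo (divf f) = 0 := by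
  by_cases hf : f = 0
  · have h0 : divf (K := K) (0 : F) = 0 := Finsupp.ext fun v => by
      rw [divf_apply, Place.ord_zero, Finsupp.zero_apply]
    rw [hf, h0, cls_zero]
  · unfold cls
    rw [Cls_mk_eq_zero_iff]
    refine ⟨f, hf, ?_⟩
    change divf f - Finsupp.single oo (Divisor.degree (divf (K := K) f)) = divf f
    rw [degree_divf, Finsupp.single_zero, sub_zero]

theorem mk_eq_zero_iff (D : Divisor.degZero (K := K) (F := F)) :
    Pic0.mk D = 0 ↔ ∃ f : F, f ≠ 0 ∧ (D : Divisor K F) = divf f := by
  exact Cls_mk_eq_zero_iff D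

theorem cls_eq_zero_iff (D : Divisor K F) :
    cls oo D = 0 ↔ ∃ f : F, f ≠ 0 ∧ D = Finsupp.single oo (Divisor.degree D) + divf f := by
  unfold cls
  rw [mk_eq_zero_iff]
  refine exists_congr fun f => and_congr_right fun _ => ?_
  change D - Finsupp.single oo (Divisor.degree D) = divf f ↔ _
  rw [sub_eq_iff_eq_add']

theorem cls_eq_cls_iff {D E : Divisor K F} (h : Divisor.degree D = Divisor.degree E) :
    cls oo D = cls oo E ↔ ∃ f : F, f ≠ 0 ∧ E = D + divf f := by
  rw [eq_comm, ← sub_eq_zero, ← cls_sub, cls_eq_zero_iff, map_sub, h, sub_self,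
    Finsupp.single_zero]
  refine exists_congr fun f => and_congr_right fun _ => ?_
  rw [zero_add, sub_eq_iff_eq_add']

/-- general form, without the assumption on the degrees. -/
theorem cls_eq_cls_iff' (D E : Divisor K F) :
    cls oo D = cls oo E ↔ ∃ f : F, f ≠ 0 ∧
      E = D + Finsupp.single oo (Divisor.degree E - Divisor.degree D) + divf f := by
  rw [eq_comm, ← sub_eq_zero, ← cls_sub, cls_eq_zero_iff, map_sub]
  refine exists_congr fun f => and_congr_right fun _ => ?_
  rw [sub_eq_iff_eq_add', add_assoc]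

/-- every class has an effective representative of every degree `≥ g`. -/
theorem exists_effective_rep (x : Pic0 K F) {n : ℕ} (hn : genus K F ≤ n) :
    ∃ E : Divisor K F, 0 ≤ E ∧ Divisor.degree E = n ∧ cls oo E = x := by
  obtain ⟨D, hD, rfl⟩ := cls_surjective oo x
  have hdeg : Divisor.degree (D + Finsupp.single oo (n : ℤ)) = n := by
    rw [map_add, hD, degree_single', zero_add]
  obtain ⟨f, hf, hf0⟩ := exists_ne_zero_mem_LSpace (D := D + Finsupp.single oo (n : ℤ))
    (by rw [hdeg]; exact_mod_cast hn)
  refine ⟨D + Finsupp.single oo (n : ℤ) + divf f, ?_, ?_, ?_⟩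
  · rw [Finsupp.le_def]
    intro v
    have h1 := (mem_LSpace.1 hf).resolve_left hf0 v
    rw [Finsupp.zero_apply, Finsupp.add_apply, divf_apply]
    linarith
  · rw [map_add, hdeg, degree_divf, add_zero]
  · rw [cls_add, cls_add, cls_single_oo, cls_divf, add_zero, add_zero]

/-- degree of a reduced divisor. -/
theorem degree_sum_single (P : Finset (Place K F)) :
    Divisor.degree (∑ v ∈ P, Finsupp.single v (1 : ℤ)) = P.card := by
  rw [map_sum]
  simp only [degree_single']
  rw [Finset.sum_const, nsmul_eq_mul, mul_one]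

theorem sum_single_apply (P : Finset (Place K F)) (w : Place K F) [Decidable (w ∈ P)] :
    (∑ v ∈ P, Finsupp.single v (1 : ℤ)) w = if w ∈ P then 1 else 0 := by
  classical
  rw [Finsupp.finsetSum_apply]
  simp only [Finsupp.single_apply]
  rw [Finset.sum_ite_eq']
  by_cases hw : w ∈ P
  · rw [if_pos hw, if_pos hw]
  · rw [if_neg hw, if_neg hw]

/-- a section of `L(m ∞)` cutting out a reduced divisor in the trivial class. -/
theorem exists_section_of_cls_eq_zero (P : Finset (Place K F)) (hP : oo ∉ P)
    (h : cls oo (∑ v ∈ P, Finsupp.single v (1 : ℤ)) = 0) :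
    ∃ t ∈ LSpace (Finsupp.single oo (P.card : ℤ)), t ≠ 0 ∧ oo.ord t = -(P.card : ℤ) ∧
      (∀ v ∈ P, v.ord t = 1) ∧ ∀ v, v ∉ P → v ≠ oo → v.ord t = 0 := by
  classical
  obtain ⟨f, hf0, hf⟩ := (cls_eq_zero_iff oo _).1 h
  rw [degree_sum_single] at hf
  have hord : ∀ v : Place K F, v.ord f =
      (if v ∈ P then 1 else 0) - (Finsupp.single oo (P.card : ℤ) : Divisor K F) v := by
    intro v
    have h1 := DFunLike.congr_fun hf v
    rw [sum_single_apply, Finsupp.add_apply, divf_apply] at h1
    linarith
  refine ⟨f, ?_, hf0, ?_, ?_, ?_⟩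
  · refine mem_LSpace.2 (Or.inr fun v => ?_)
    rw [hord v]
    by_cases hv : v ∈ P
    · rw [if_pos hv]; linarith
    · rw [if_neg hv]; linarith
  · rw [hord oo, if_neg hP, Finsupp.single_eq_same, zero_sub]
  · intro v hv
    have hne : v ≠ oo := fun h => hP (h ▸ hv)
    rw [hord v, if_pos hv, Finsupp.single_apply, if_neg (Ne.symm hne), sub_zero]
  · intro v hv hne
    rw [hord v, if_neg hv, Finsupp.single_apply, if_neg (Ne.symm hne), sub_zero]

end Fermat.Agent.S17.FF
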