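import Fermat.Agent.S17.FF.Pencil
import Fermat.Agent.S17.FF.Cls

/-! # S17-FF, file `Moving`: the moving lemma (reduced representatives avoiding a finite set). -/

set_option autoImplicit false
set_option linter.unusedSectionVars false

noncomputable section

namespace Fermat.Agent.S17.FF

open AlgebraicCurve Fermat.Agent.S24.Zeros

variable {K F : Type*} [Field K] [Field F] [Algebra K F] [IsAlgClosed K] [CharZero K] [IsFF K F]

/-- a divisor with values in `{0, 1}` is the sum of the points of its support. -/
theorem Moving_eq_sum_single (E : Divisor K F) (h0 : ∀ v, 0 ≤ E v) (h1 : ∀ v, E v ≤ 1) :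
    E = ∑ v ∈ E.support, Finsupp.single v (1 : ℤ) := by
  classical
  ext w
  rw [sum_single_apply]
  split_ifs with hw
  · have := Finsupp.mem_support_iff.1 hw
    have := h0 w
    have := h1 w
    omega
  · exact Finsupp.notMem_support_iff.1 hw

/-- core of the moving lemma, relative to a set `R` of "rational" functions. -/
theorem exists_reduced_of (D : Divisor K F) (R : Set F)
    (hR1 : ∀ S : Finset (Place K F), ∃ f ∈ R, f ∈ LSpace D ∧ f ≠ 0 ∧ ∀ v ∈ S, v.ord f = -D v)
    (hR2 : ∀ s ∈ R, ∀ t ∈ R, ∀ q : ℚ, s + algebraMap K F (q : K) * t ∈ R)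
    (S : Finset (Place K F)) :
    ∃ f ∈ R, f ≠ 0 ∧ ∃ P : Finset (Place K F), Disjoint P S ∧
      D + divf f = ∑ v ∈ P, Finsupp.single v (1 : ℤ) := by
  classical
  obtain ⟨s, hsR, hsL, hs0, hsS⟩ := hR1 S
  set Z : Finset (Place K F) := (D + divf s).support with hZ
  obtain ⟨t, htR, htL, ht0, htZ⟩ := hR1 (Z ∪ S)
  have hs_ge : ∀ v : Place K F, -D v ≤ v.ord s := (mem_LSpace.1 hsL).resolve_left hs0
  have ht_ge : ∀ v : Place K F, -D v ≤ v.ord t := (mem_LSpace.1 htL).resolve_left ht0
  have hmin : ∀ v : Place K F, min (v.ord s) (v.ord t) = -D v := by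
    intro v
    by_cases hv : v ∈ Z
    · have h1 := htZ v (Finset.mem_union_left _ hv)
      rw [h1]
      exact min_eq_right (hs_ge v)
    · have h1 : (D + divf s : Divisor K F) v = 0 := Finsupp.notMem_support_iff.1 hv
      rw [Finsupp.add_apply, divf_apply] at h1
      have h2 : v.ord s = -D v := by omega
      rw [h2]
      exact min_eq_left (ht_ge v)
  by_cases halg : IsAlgebraic K (s / t)
  · -- the pencil is constant
    obtain ⟨c, hc⟩ := exists_algebraMap_eq_of_isAlgebraic halg
    have hst : s = algebraMap K F c * t := by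
      rw [hc]
      field_simp
    have hc0 : algebraMap K F c ≠ 0 := by
      intro h
      rw [h, zero_mul] at hst
      exact hs0 hst
    have hord : ∀ v : Place K F, v.ord s = v.ord t := by
      intro v
      rw [hst, v.ord_mul hc0 ht0, ord_algebraMap, zero_add]
    have hZe : D + divf s = 0 := by
      rw [← Finsupp.support_eq_empty, ← hZ, Finset.eq_empty_iff_forall_notMem]
      intro v hv
      have h1 := htZ v (Finset.mem_union_left _ hv)
      have h2 := Finsupp.mem_support_iff.1 hv
      apply h2
      rw [Finsupp.add_apply, divf_apply, hord v, h1]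
      ring
    exact ⟨s, hsR, hs0, ∅, Finset.disjoint_empty_left _, by rw [hZe, Finset.sum_empty]⟩
  · have htr : Transcendental K (s / t) := halg
    have hfin := (finite_bad_pencil s t htr).union (finite_bad_pencil_at s t htr S)
    have hinj : Function.Injective (fun q : ℚ => (q : K)) := Rat.cast_injective
    have hfin' := hfin.preimage (f := fun q : ℚ => (q : K)) hinj.injOn
    obtain ⟨q, hq⟩ := hfin'.infinite_compl.nonempty
    rw [Set.mem_compl_iff, Set.mem_preimage, Set.mem_union, not_or] at hq
    obtain ⟨hq1, hq2⟩ := hq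
    set f : F := s + algebraMap K F (q : K) * t with hf
    have hf0 : f ≠ 0 := by
      intro h0
      apply htr
      have : s / t = algebraMap K F (-(q : K)) := by
        rw [map_neg, div_eq_iff ht0, neg_mul]
        exact eq_neg_of_add_eq_zero_left h0
      rw [this]
      exact isAlgebraic_algebraMap _
    have hfL : f ∈ LSpace D := by
      have := (LSpace D).add_mem hsL ((LSpace D).smul_mem (q : K) htL)
      rwa [Algebra.smul_def] at this
    have hf_ge : ∀ v : Place K F, -D v ≤ v.ord f := (mem_LSpace.1 hfL).resolve_left hf0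
    have hf_le : ∀ v : Place K F, v.ord f ≤ -D v + 1 := by
      intro v
      by_contra hlt
      rw [not_le] at hlt
      exact hq1 ⟨v, by rw [hmin v]; exact hlt⟩
    have hf_S : ∀ v ∈ S, v.ord f ≤ -D v := by
      intro v hv
      by_contra hlt
      rw [not_le] at hlt
      exact hq2 ⟨v, hv, by rw [hmin v]; exact hlt⟩
    refine ⟨f, hR2 s hsR t htR q, hf0, (D + divf f).support, ?_, ?_⟩
    · rw [Finset.disjoint_left]
      intro v hv hvS
      apply Finsupp.mem_support_iff.1 hv
      rw [Finsupp.add_apply, divf_apply]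
      have := hf_S v hvS
      have := hf_ge v
      omega
    · refine Moving_eq_sum_single _ (fun v => ?_) (fun v => ?_)
      · rw [Finsupp.add_apply, divf_apply]
        have := hf_ge v
        omega
      · rw [Finsupp.add_apply, divf_apply]
        have := hf_le v
        omega

/-- the moving lemma for divisors. -/
theorem exists_reduced {D : Divisor K F} (hD : cBound K F + 1 ≤ Divisor.degree D)
    (S : Finset (Place K F)) :
    ∃ f : F, f ≠ 0 ∧ ∃ P : Finset (Place K F), Disjoint P S ∧
      D + divf f = ∑ v ∈ P, Finsupp.single v (1 : ℤ) := by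
  obtain ⟨f, -, hf⟩ := exists_reduced_of D Set.univ
    (fun S => by
      obtain ⟨f, h1, h2, h3⟩ := exists_mem_LSpace_forall_ord_eq hD S
      exact ⟨f, Set.mem_univ _, h1, h2, h3⟩)
    (fun _ _ _ _ _ => Set.mem_univ _) S
  exact ⟨f, hf⟩

/-- the moving lemma for classes. -/
theorem exists_reduced_cls (oo : Place K F) (x : Pic0 K F) {μ : ℕ} (hμ : cBound K F + 1 ≤ μ)
    (S : Finset (Place K F)) :
    ∃ P : Finset (Place K F), P.card = μ ∧ oo ∉ P ∧ Disjoint P S ∧
      cls oo (∑ v ∈ P, Finsupp.single v (1 : ℤ)) = x := by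
  classical
  obtain ⟨D0, hD0, hx⟩ := cls_surjective oo x
  have hdeg : Divisor.degree (D0 + Finsupp.single oo (μ : ℤ)) = μ := by
    rw [map_add, hD0, degree_single', zero_add]
  obtain ⟨f, hf0, P, hPS, hP⟩ := exists_reduced (D := D0 + Finsupp.single oo (μ : ℤ))
    (by rw [hdeg]; exact hμ) (insert oo S)
  rw [Finset.disjoint_insert_right] at hPS
  refine ⟨P, ?_, hPS.1, hPS.2, ?_⟩
  · have h1 := congrArg Divisor.degree hP
    rw [map_add, hdeg, degree_divf, add_zero, degree_sum_single] at h1
    exact_mod_cast h1.symm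
  · rw [← hP, cls_add, cls_add, cls_divf, cls_single_oo, hx, add_zero, add_zero]

end Fermat.Agent.S17.FF
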