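import Fermat.Agent.S17.FF.Echelon
import Fermat.Agent.S17.FF.Moving
import Fermat.Agent.S17.FF.Canon

/-! # S17-FF (module GAL), file `QMoving`: the rational moving lemma. -/

set_option autoImplicit false
set_option linter.unusedSectionVars false

noncomputable section

namespace Fermat.Agent.S17.FF

open AlgebraicCurve Fermat.Agent.S24.Zeros

variable {G K F : Type*} [Group G] [Field K] [Field F] [Algebra K F] [IsAlgClosed K] [CharZero K]
  [IsFF K F] {oo : Place K F} (A : QAction G K F oo)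

namespace QAction

/-- the rational moving lemma for divisors. -/
theorem exists_inv_reduced {D : Divisor K F} (hst : ∀ σ : G, A.ρ σ • D = D)
    (hD : cBound K F + 1 ≤ Divisor.degree D) (S : Finset (Place K F)) :
    ∃ f : F, f ≠ 0 ∧ A.Inv f ∧ ∃ P : Finset (Place K F), Disjoint P S ∧
      D + divf f = ∑ v ∈ P, Finsupp.single v (1 : ℤ) := by
  obtain ⟨f, hfR, hf0, P, hP, hE⟩ := exists_reduced_of D {f : F | A.Inv f}
    (fun S' => by
      obtain ⟨f, hfL, hfI, hf0, hford⟩ := A.exists_inv_mem_LSpace_forall_ord_eq hst hD S'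
      exact ⟨f, hfI, hfL, hf0, hford⟩)
    (fun s hs t ht q =>
      Inv.add A hs (Inv.mul A ((A.inv_algebraMap_iff _).2 (A.invK_ratCast q)) ht)) S
  exact ⟨f, hf0, hfR, P, hP, hE⟩

/-- a reduced divisor is stable iff its support is. -/
theorem smul_sum_single_eq_iff (P : Finset (Place K F)) (σ : G) :
    A.ρ σ • (∑ v ∈ P, Finsupp.single v (1 : ℤ)) = ∑ v ∈ P, Finsupp.single v (1 : ℤ) ↔
      ∀ v ∈ P, A.ρ σ • v ∈ P := by
  classical
  rw [smul_sum_single]
  constructor
  · intro h v hv
    have h1 := DFunLike.congr_fun h (A.ρ σ • v)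
    rw [sum_single_apply, sum_single_apply] at h1
    have hmem : A.ρ σ • v ∈ P.image (A.ρ σ • ·) := Finset.mem_image_of_mem _ hv
    rw [if_pos hmem] at h1
    by_contra hn
    rw [if_neg hn] at h1
    exact one_ne_zero h1
  · intro h
    have hsub : P.image (A.ρ σ • ·) ⊆ P := by
      intro w hw
      obtain ⟨v, hv, rfl⟩ := Finset.mem_image.1 hw
      exact h v hv
    have hcard : P.card ≤ (P.image (A.ρ σ • ·)).card := by
      rw [Finset.card_image_of_injective _ (MulAction.injective (A.ρ σ))]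
    rw [Finset.eq_of_subset_of_card_le hsub hcard]

/-- the rational moving lemma for classes: a rational class has stable reduced representatives of
every large degree avoiding any finite set. -/
theorem exists_inv_reduced_cls {x : Pic0 K F} (hx : ∀ σ : G, A.ρ σ • x = x) {μ : ℕ}
    (hμ : cBound K F + 1 ≤ μ) (S : Finset (Place K F)) :
    ∃ P : Finset (Place K F), P.card = μ ∧ oo ∉ P ∧ Disjoint P S ∧
      (∀ σ : G, ∀ v ∈ P, A.ρ σ • v ∈ P) ∧ cls oo (∑ v ∈ P, Finsupp.single v (1 : ℤ)) = x := by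
  classical
  have hst : ∀ σ : G, A.ρ σ • canonRep oo x μ = canonRep oo x μ := fun σ =>
    smul_canonRep oo (A.ρ σ) (A.smul_oo σ) (hx σ) μ
  have hdeg : Divisor.degree (canonRep oo x μ) = μ := degree_canonRep oo x μ
  obtain ⟨f, hf0, hfI, P, hP, hE⟩ := A.exists_inv_reduced hst (by rw [hdeg]; exact hμ)
    (insert oo S)
  rw [Finset.disjoint_insert_right] at hP
  refine ⟨P, ?_, hP.1, hP.2, fun σ => ?_, ?_⟩
  · have h1 := congrArg Divisor.degree hE
    rw [map_add, degree_divf, add_zero, hdeg, degree_sum_single] at h1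
    exact_mod_cast h1.symm
  · rw [← smul_sum_single_eq_iff, ← hE, smul_add, hst σ, Inv.smul_divf A hfI]
  · rw [← hE, cls_add, cls_divf, add_zero, cls_canonRep]

/-- the class of a stable set of points is rational. -/
theorem smul_cls_of_stable (P : Finset (Place K F)) (hP : ∀ σ : G, ∀ v ∈ P, A.ρ σ • v ∈ P)
    (σ : G) : A.ρ σ • cls oo (∑ v ∈ P, Finsupp.single v (1 : ℤ)) =
      cls oo (∑ v ∈ P, Finsupp.single v (1 : ℤ)) := by
  rw [cls_smul, A.smul_oo, (A.smul_sum_single_eq_iff P σ).2 (hP σ)]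

/-- a rational section cutting out a stable reduced divisor in the trivial class. -/
theorem exists_inv_section_of_cls_eq_zero (P : Finset (Place K F)) (hP : oo ∉ P)
    (hst : ∀ σ : G, ∀ v ∈ P, A.ρ σ • v ∈ P)
    (h : cls oo (∑ v ∈ P, Finsupp.single v (1 : ℤ)) = 0) :
    ∃ t ∈ LSpace (Finsupp.single oo (P.card : ℤ)), t ≠ 0 ∧ A.Inv t ∧ oo.ord t = -(P.card : ℤ) ∧
      (∀ v ∈ P, v.ord t = 1) ∧ ∀ v, v ∉ P → v ≠ oo → v.ord t = 0 := by
  classical
  obtain ⟨t0, ht0L, ht0, hoo, hPord, hother⟩ := exists_section_of_cls_eq_zero oo P hP h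
  have hdiv : divf (K := K) t0 =
      (∑ v ∈ P, Finsupp.single v (1 : ℤ)) - Finsupp.single oo (P.card : ℤ) := by
    ext v
    rw [divf_apply, Finsupp.sub_apply, sum_single_apply]
    by_cases hv : v ∈ P
    · have hne : oo ≠ v := fun e => hP (e ▸ hv)
      rw [if_pos hv, Finsupp.single_eq_of_ne' hne, sub_zero, hPord v hv]
    · rw [if_neg hv]
      by_cases hvo : v = oo
      · subst hvo
        rw [Finsupp.single_eq_same, hoo, zero_sub]
      · rw [Finsupp.single_eq_of_ne' (Ne.symm hvo), sub_zero, hother v hv hvo]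
  have hstab : ∀ σ : G, A.ρ σ • divf (K := K) t0 = divf t0 := by
    intro σ
    rw [hdiv, smul_sub, (A.smul_sum_single_eq_iff P σ).2 (hst σ), SemilinearAut.smul_single,
      A.smul_oo]
  obtain ⟨c, hc, hcI⟩ := A.exists_inv_of_smul_divf ht0 hstab
  have hc' : algebraMap K F c ≠ 0 := by simpa using hc
  have hord : ∀ v : Place K F, v.ord (algebraMap K F c * t0) = v.ord t0 := fun v => by
    rw [v.ord_mul hc' ht0, ord_algebraMap, zero_add]
  refine ⟨algebraMap K F c * t0, ?_, mul_ne_zero hc' ht0, hcI, ?_, ?_, ?_⟩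
  · rw [← Algebra.smul_def]
    exact Submodule.smul_mem _ c ht0L
  · rw [hord, hoo]
  · intro v hv
    rw [hord, hPord v hv]
  · intro v hv hvo
    rw [hord, hother v hv hvo]

end QAction

end Fermat.Agent.S17.FF
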