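import Fermat.Agent.S17.FF.CurveDef
import Fermat.Agent.S17.FF.QMoving
import Fermat.Agent.S17.FF.Det

/-! # S17-FF (module GAL), file `CurveMov`: the fields `mov`, `sec_of_cls`, `zeros` of
`(curveOf A).Geom`. -/

set_option autoImplicit false
set_option linter.unusedSectionVars false

noncomputable section

namespace Fermat.Agent.S17.FF

open AlgebraicCurve Fermat.Agent.S24.Zeros

variable {F : Type} [Field F] [Algebra Qbar F] [IsFF Qbar F] {oo : Place Qbar F}
  (A : QAction GQ Qbar F oo)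

theorem CurveMov_card_map (Q : Multiset (curveOf A).Pts) :
    (Q.map Subtype.val).card = Q.card := Multiset.card_map _ _

theorem CurveMov_mem_map (Q : Multiset (curveOf A).Pts) (p : (curveOf A).Pts) :
    p.1 ∈ Q.map Subtype.val ↔ p ∈ Q := Multiset.mem_map_of_injective Subtype.val_injective

theorem curveOf_mov (μ : ℕ) (hμ : (curveOf A).n₀ ≤ μ) (x : (curveOf A).J)
    (hx : x ∈ (curveOf A).Gam) (Sg : Finset (curveOf A).Pts) :
    ∃ Q, (curveOf A).Stable Q ∧ Q.Nodup ∧ Q.card = μ ∧ (curveOf A).cls Q = x ∧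
      ∀ P ∈ Q, P ∉ Sg := by
  classical
  have hμ' : cBound Qbar F + 1 ≤ (μ : ℤ) := by
    have h1 := cBound_le_thr (F := F)
    have h2 : ((thr Qbar F : ℕ) : ℤ) ≤ μ := by exact_mod_cast hμ
    omega
  obtain ⟨P, hcard, hoo, hdisj, hst, hcls⟩ :=
    A.exists_inv_reduced_cls ((mem_curveOf_Gam A x).1 hx) hμ' (Sg.image Subtype.val)
  obtain ⟨Q, hQ⟩ : ∃ Q : Multiset (curveOf A).Pts, Q.map Subtype.val = P.val :=
    exists_map_val_eq oo (Z := P.val) hoo
  refine ⟨Q, ?_, ?_, ?_, ?_, ?_⟩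
  · rw [curveOf_stable_iff, hQ]
    intro σ
    have hinj : Function.Injective (fun v : Place Qbar F => A.ρ σ • v) := MulAction.injective _
    have himg : P.image (fun v => A.ρ σ • v) = P := by
      apply Finset.eq_of_subset_of_card_le
      · intro w hw
        obtain ⟨v, hv, rfl⟩ := Finset.mem_image.1 hw
        exact hst σ v hv
      · rw [Finset.card_image_of_injective _ hinj]
    have h1 := Finset.image_val_of_injOn (s := P) hinj.injOn
    rw [← h1, himg]
  · have h1 : (Q.map Subtype.val).Nodup := by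
      rw [hQ]
      exact P.nodup
    exact (nodup_map_val_iff oo Q).1 h1
  · rw [← CurveMov_card_map A Q, hQ]
    exact hcard
  · rw [curveOf_cls, hQ, divOf_finset_val]
    exact hcls
  · intro p hp hpS
    have h1 : p.1 ∈ P := by
      have h2 : p.1 ∈ Q.map Subtype.val := (CurveMov_mem_map A Q p).2 hp
      rw [hQ] at h2
      exact h2
    have h2 : p.1 ∈ Sg.image Subtype.val := Finset.mem_image_of_mem _ hpS
    exact Finset.disjoint_left.1 hdisj h1 h2

/-- elements of `ℚ̄` fixed by the Galois group are rational. -/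
theorem exists_rat_of_fixed {a : Qbar} (h : ∀ σ : GQ, σ a = a) :
    ∃ q : ℚ, algebraMap ℚ Qbar q = a := by
  have halg : Algebra.IsAlgebraic ℚ Qbar := AlgebraicClosure.isAlgebraic ℚ
  have hcl : IsAlgClosure ℚ Qbar := ⟨inferInstance, halg⟩
  have h2 : Normal ℚ Qbar := IsAlgClosure.normal ℚ Qbar
  have h3 : IsGalois ℚ Qbar := ⟨⟩
  exact (InfiniteGalois.mem_range_algebraMap_iff_fixed (k := ℚ) (K := Qbar) a).2 h

theorem curveOf_sec_of_cls (hA : ∀ (σ : GQ) (a : Qbar), SemilinearAut.baseAut (A.ρ σ) a = σ a)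
    (m : ℕ) (hm : (curveOf A).n₀ ≤ m) (Q : Multiset (curveOf A).Pts) (hst : (curveOf A).Stable Q)
    (hnd : Q.Nodup) (hcard : Q.card = m) (hcls : (curveOf A).cls Q = 0) :
    ∃ t : ℕ → ℚ, (∃ i < (curveOf A).ℓ m, t i ≠ 0) ∧
      ∀ P, (curveOf A).sec m (fun i => algebraMap ℚ Qbar (t i)) P = 0 ↔ P ∈ Q := by
  classical
  have hZnd : (Q.map Subtype.val).Nodup := (nodup_map_val_iff oo Q).2 hnd
  obtain ⟨P, hPval⟩ : ∃ P : Finset (Place Qbar F), P.val = Q.map Subtype.val := ⟨⟨_, hZnd⟩, rfl⟩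
  have hmemP : ∀ v, v ∈ P ↔ v ∈ Q.map Subtype.val := by
    intro v
    rw [← hPval]
    exact Iff.rfl
  have hPcard : P.card = m := by
    rw [Finset.card_def, hPval, CurveMov_card_map A Q, hcard]
  have hooP : oo ∉ P := by
    rw [hmemP]
    exact oo_notMem_map_val oo Q
  have hstP : ∀ σ : GQ, ∀ v ∈ P, A.ρ σ • v ∈ P := by
    intro σ v hv
    have h1 := (curveOf_stable_iff A Q).1 hst σ
    rw [hmemP] at hv ⊢
    have h2 : A.ρ σ • v ∈ (Q.map Subtype.val).map (fun v => A.ρ σ • v) :=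
      Multiset.mem_map_of_mem _ hv
    rw [h1] at h2
    exact h2
  have hclsP : cls oo (∑ v ∈ P, Finsupp.single v (1 : ℤ)) = 0 := by
    rw [← divOf_finset_val, hPval]
    exact hcls
  obtain ⟨t0, ht0L, ht0, hinv, hord, hordP, hordn⟩ :=
    A.exists_inv_section_of_cls_eq_zero P hooP hstP hclsP
  rw [hPcard] at ht0L
  obtain ⟨a, ha, -⟩ := A.exists_coord ht0L
  have hainv : ∀ i, A.InvK (a i) := (A.inv_iff_of_mem_LSpace a).1 (ha ▸ hinv)
  have hrat : ∀ i, ∃ q : ℚ, algebraMap ℚ Qbar q = a i := fun i =>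
    exists_rat_of_fixed (fun σ => by rw [← hA]; exact hainv i σ)
  choose r hr using hrat
  let t : ℕ → ℚ := fun i => if h : i < ell (Finsupp.single oo (m : ℤ)) then r ⟨i, h⟩ else 0
  have hsum : ∑ i ∈ Finset.range (ell (Finsupp.single oo (m : ℤ))),
      algebraMap Qbar F (algebraMap ℚ Qbar (t i)) * A.basis i = t0 := by
    rw [ha, Finset.sum_range]
    refine Finset.sum_congr rfl fun i _ => ?_
    have h1 : t i = r i := dif_pos i.2
    rw [h1, hr]
  refine ⟨t, ?_, ?_⟩
  · by_contra hcon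
    push Not at hcon
    apply ht0
    rw [← hsum]
    refine Finset.sum_eq_zero fun i hi => ?_
    rw [hcon i (Finset.mem_range.1 hi), map_zero, map_zero, zero_mul]
  · intro p
    rw [curveOf_sec, hsum, ← CurveMov_mem_map A Q p, ← hmemP]
    by_cases hp : p.1 ∈ P
    · have h1 := hordP p.1 hp
      have h2 : val p.1 t0 = 0 := (val_eq_zero_iff p.1 (by omega)).2 (Or.inr (by omega))
      exact ⟨fun _ => hp, fun _ => h2⟩
    · have h1 := hordn p.1 hp p.2
      refine ⟨fun h2 => ?_, fun h2 => absurd h2 hp⟩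
      rcases (val_eq_zero_iff p.1 (by omega)).1 h2 with h3 | h3
      · exact absurd h3 ht0
      · omega

theorem curveOf_zeros (m : ℕ) (hm : (curveOf A).n₀ < m) (t : ℕ → Qbar)
    (ht : t ((curveOf A).ℓ m - 1) ≠ 0) :
    ∃ Z : Multiset (curveOf A).Pts, Z.card = m ∧ (curveOf A).cls Z = 0 ∧
      ∀ P, P ∈ Z ↔ (curveOf A).sec m t P = 0 := by
  classical
  have hm' : cBound Qbar F + 1 ≤ (m : ℤ) := by
    have h1 := cBound_le_thr (F := F)
    have h2 : ((thr Qbar F : ℕ) : ℤ) < m := by exact_mod_cast hm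
    omega
  have hm0 : (0 : ℤ) < m := by
    have h2 : 0 < m := lt_of_le_of_lt (Nat.zero_le _) hm
    exact_mod_cast h2
  obtain ⟨f, hf⟩ : ∃ f : F, f = ∑ i ∈ Finset.range (ell (Finsupp.single oo (m : ℤ))),
      algebraMap Qbar F (t i) * A.basis i := ⟨_, rfl⟩
  have hord : oo.ord f = -(m : ℤ) := by
    rw [hf]
    exact A.isPoleBasis_basis.ord_sum_eq hm' t ht
  have hf0 : f ≠ 0 := by
    intro h
    rw [h, Place.ord_zero] at hord
    omega
  have hfA : f ∈ affRing oo := by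
    rw [hf]
    exact Subalgebra.sum_mem _ fun i _ =>
      Subalgebra.mul_mem _ (Subalgebra.algebraMap_mem _ _) (A.isPoleBasis_basis.mem i)
  obtain ⟨Z0, hoo, hdiv, hcard, hcls, hmem⟩ := exists_zero_multiset oo hfA hf0
  obtain ⟨Z, hZ⟩ : ∃ Z : Multiset (curveOf A).Pts, Z.map Subtype.val = Z0 :=
    exists_map_val_eq oo hoo
  refine ⟨Z, ?_, ?_, ?_⟩
  · have h1 : Z.card = Z0.card := by rw [← hZ, CurveMov_card_map A Z]
    rw [hord] at hcard
    omega
  · rw [curveOf_cls, hZ]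
    exact hcls
  · intro p
    rw [curveOf_sec, ← hf, ← hmem p.1 p.2, ← hZ, CurveMov_mem_map A Z p]

end Fermat.Agent.S17.FF
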