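import Fermat.Agent.S17.FF.QAction
import Fermat.Agent.S24.Degree
import Fermat.Prelude.Def_ModularCurve_ArithmeticGalois
import Fermat.Prelude.Def_ModularCurve_X0ModL

/-! # S17-FF (module GAL), file `Modular`: the function field of `X₀(N)` over `ℚ̄` with its
place `∞` and its Galois action is an instance of the general theory. -/

set_option autoImplicit false
set_option linter.unusedSectionVars false

noncomputable section

namespace Fermat.Agent.S17.FF

open AlgebraicCurve ModularCurve Fermat.Agent.S24.Zeros

section Modular_place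

variable {K : Type*} [Field K] {E : IntermediateField K (LaurentSeries K)}

theorem Modular_qp_order_mul {a b : LaurentSeries K} (ha : a ≠ 0) (hb : b ≠ 0) :
    (a * b).order = a.order + b.order := HahnSeries.order_mul ha hb

theorem Modular_qp_order_inv (a : LaurentSeries K) : (a⁻¹).order = -a.order := by
  rcases eq_or_ne a 0 with rfl | ha
  · simp
  · have h := Modular_qp_order_mul ha (inv_ne_zero ha)
    rw [mul_inv_cancel₀ ha, HahnSeries.order_one] at h
    omega

theorem Modular_qp_order_zpow (a : LaurentSeries K) (m : ℤ) : (a ^ m).order = m * a.order := by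
  rcases eq_or_ne a 0 with rfl | ha
  · rcases eq_or_ne m 0 with rfl | hm
    · simp
    · simp [zero_zpow m hm]
  have hnat : ∀ k : ℕ, (a ^ k).order = k * a.order := by
    intro k
    induction k with
    | zero => simp
    | succ k ih =>
      rw [pow_succ, Modular_qp_order_mul (pow_ne_zero k ha) ha, ih]
      push_cast
      ring
  obtain ⟨k, rfl | rfl⟩ := m.eq_nat_or_neg
  · rw [zpow_natCast, hnat]
  · rw [zpow_neg, zpow_natCast, Modular_qp_order_inv, hnat]
    ring

variable (E) in
/-- the valuation subring of `E` of the series of nonnegative order. -/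
def Modular_qSubring : ValuationSubring E where
  carrier := {f | 0 ≤ (f : LaurentSeries K).order}
  mul_mem' := by
    intro a b ha hb
    simp only [Set.mem_ofPred_eq] at *
    rcases eq_or_ne a 0 with rfl | ha0
    · simp
    rcases eq_or_ne b 0 with rfl | hb0
    · simp
    have ha0' : (a : LaurentSeries K) ≠ 0 := by simpa using ha0
    have hb0' : (b : LaurentSeries K) ≠ 0 := by simpa using hb0
    rw [MulMemClass.coe_mul, Modular_qp_order_mul ha0' hb0']
    omega
  one_mem' := by simp
  add_mem' := by
    intro a b ha hb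
    simp only [Set.mem_ofPred_eq] at *
    rcases eq_or_ne ((a : LaurentSeries K) + b) 0 with h | h
    · rw [AddMemClass.coe_add, h]; simp
    · have := HahnSeries.min_order_le_order_add h
      rw [AddMemClass.coe_add]
      omega
  zero_mem' := by simp
  neg_mem' := by
    intro a ha
    simp only [Set.mem_ofPred_eq] at *
    rw [NegMemClass.coe_neg, HahnSeries.order_neg]
    exact ha
  mem_or_inv_mem' := by
    intro a
    simp only [Set.mem_ofPred_eq]
    have : ((a⁻¹ : E) : LaurentSeries K).order = -(a : LaurentSeries K).order := by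
      rw [← Modular_qp_order_inv]; rfl
    rw [this]
    omega

theorem Modular_mem_qSubring (f : E) : f ∈ Modular_qSubring E ↔ 0 ≤ (f : LaurentSeries K).order := Iff.rfl

theorem Modular_qp_coe_inv (a : E) : ((a⁻¹ : E) : LaurentSeries K) = (a : LaurentSeries K)⁻¹ := rfl

theorem Modular_qp_isUnit_iff (a : Modular_qSubring E) (ha : a ≠ 0) :
    IsUnit a ↔ ((a : E) : LaurentSeries K).order = 0 := by
  have ha0 : (a : E) ≠ 0 := by simpa using ha
  have ha0' : ((a : E) : LaurentSeries K) ≠ 0 := by simpa using ha0
  constructor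
  · rintro ⟨u, rfl⟩
    have h1 : 0 ≤ (((u : Modular_qSubring E) : E) : LaurentSeries K).order := (u : Modular_qSubring E).2
    have h2 : 0 ≤ ((((u⁻¹ : (Modular_qSubring E)ˣ) : Modular_qSubring E) : E) : LaurentSeries K).order :=
      ((u⁻¹ : (Modular_qSubring E)ˣ) : Modular_qSubring E).2
    have h3 : (((u : Modular_qSubring E) : E) : LaurentSeries K) *
        ((((u⁻¹ : (Modular_qSubring E)ˣ) : Modular_qSubring E) : E) : LaurentSeries K) = 1 := by
      have := congrArg (fun x : Modular_qSubring E => ((x : E) : LaurentSeries K)) u.mul_inv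
      exact this
    have hb0 : ((((u⁻¹ : (Modular_qSubring E)ˣ) : Modular_qSubring E) : E) : LaurentSeries K) ≠ 0 :=
      right_ne_zero_of_mul_eq_one h3
    have h4 := Modular_qp_order_mul ha0' hb0
    rw [h3, HahnSeries.order_one] at h4
    omega
  · intro h
    have hinv : (a : E)⁻¹ ∈ Modular_qSubring E := by
      rw [Modular_mem_qSubring, Modular_qp_coe_inv, Modular_qp_order_inv, h]; simp
    refine IsUnit.of_mul_eq_one (⟨(a : E)⁻¹, hinv⟩ : Modular_qSubring E) ?_
    apply Subtype.ext
    simp [mul_inv_cancel₀ ha0]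

variable {t : E} {ht : (t : LaurentSeries K).order = 1}

variable (E t ht) in
/-- the uniformizer. -/
def Modular_qUnif : Modular_qSubring E := ⟨t, by
  rw [Modular_mem_qSubring, ht]; exact zero_le_one⟩

theorem Modular_qp_order_qUnif : (((Modular_qUnif E t ht : Modular_qSubring E) : E) : LaurentSeries K).order = 1 := by
  exact ht

theorem Modular_qUnif_ne_zero : (Modular_qUnif E t ht : Modular_qSubring E) ≠ 0 := by
  intro h
  have := Modular_qp_order_qUnif (ht := ht)
  rw [h] at this
  simp at this

theorem Modular_qUnif_irreducible : Irreducible (Modular_qUnif E t ht) := by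
  refine ⟨fun h => ?_, fun a b hab => ?_⟩
  · rw [Modular_qp_isUnit_iff _ Modular_qUnif_ne_zero, Modular_qp_order_qUnif] at h
    exact one_ne_zero h
  · have ha : a ≠ 0 := by
      rintro rfl
      exact Modular_qUnif_ne_zero (by rw [hab, zero_mul])
    have hb : b ≠ 0 := by
      rintro rfl
      exact Modular_qUnif_ne_zero (by rw [hab, mul_zero])
    have ha0' : ((a : E) : LaurentSeries K) ≠ 0 := by simpa using ha
    have hb0' : ((b : E) : LaurentSeries K) ≠ 0 := by simpa using hb
    have h1 := Modular_qp_order_mul ha0' hb0'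
    have h2 : ((a : E) : LaurentSeries K) * ((b : E) : LaurentSeries K) =
        (((Modular_qUnif E t ht : Modular_qSubring E) : E) : LaurentSeries K) := by
      rw [hab]; rfl
    rw [h2, Modular_qp_order_qUnif] at h1
    have h3 : 0 ≤ ((a : E) : LaurentSeries K).order := a.2
    have h4 : 0 ≤ ((b : E) : LaurentSeries K).order := b.2
    rw [Modular_qp_isUnit_iff a ha, Modular_qp_isUnit_iff b hb]
    omega

theorem Modular_qp_hasFactorization (t : E) (ht : (t : LaurentSeries K).order = 1) :
    IsDiscreteValuationRing.HasUnitMulPowIrreducibleFactorization (Modular_qSubring E) := by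
  refine ⟨Modular_qUnif E t ht, Modular_qUnif_irreducible, fun {x} hx => ?_⟩
  have hx0' : ((x : E) : LaurentSeries K) ≠ 0 := by simpa using hx
  have hx1 : 0 ≤ ((x : E) : LaurentSeries K).order := x.2
  obtain ⟨m, hm⟩ := Int.eq_ofNat_of_zero_le hx1
  refine ⟨m, ?_⟩
  have hp0 : (Modular_qUnif E t ht : Modular_qSubring E) ^ m ≠ 0 := pow_ne_zero _ Modular_qUnif_ne_zero
  have hpo : ((((Modular_qUnif E t ht : Modular_qSubring E) ^ m : Modular_qSubring E) : E) :
      LaurentSeries K).order = m := by
    have := Modular_qp_order_zpow (((Modular_qUnif E t ht : Modular_qSubring E) : E) : LaurentSeries K) (m : ℤ)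
    rw [Modular_qp_order_qUnif, zpow_natCast, mul_one] at this
    exact this
  have hp0' : ((((Modular_qUnif E t ht : Modular_qSubring E) ^ m : Modular_qSubring E) : E) :
      LaurentSeries K) ≠ 0 := by simpa using hp0
  -- the quotient
  have hq : (x : E) * (((Modular_qUnif E t ht : Modular_qSubring E) ^ m : Modular_qSubring E) : E)⁻¹ ∈
      Modular_qSubring E := by
    rw [Modular_mem_qSubring, MulMemClass.coe_mul, Modular_qp_coe_inv, Modular_qp_order_mul hx0' (inv_ne_zero hp0'),
      Modular_qp_order_inv, hpo, hm]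
    simp
  set u : Modular_qSubring E := ⟨_, hq⟩ with hu
  have hu0 : u ≠ 0 := by
    intro h
    have := congrArg (fun y : Modular_qSubring E => (y : E)) h
    simp only [hu, ZeroMemClass.coe_zero, mul_eq_zero, inv_eq_zero] at this
    rcases this with h | h
    · exact hx (by simpa using h)
    · exact hp0 (by exact_mod_cast Subtype.ext h)
  have huu : IsUnit u := by
    rw [Modular_qp_isUnit_iff u hu0]
    show ((x : E) * (((Modular_qUnif E t ht : Modular_qSubring E) ^ m : Modular_qSubring E) : E)⁻¹ : E).1.order
      = 0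
    rw [show ((x : E) * (((Modular_qUnif E t ht : Modular_qSubring E) ^ m : Modular_qSubring E) : E)⁻¹ : E).1
      = ((x : E) : LaurentSeries K) *
        ((((Modular_qUnif E t ht : Modular_qSubring E) ^ m : Modular_qSubring E) : E) : LaurentSeries K)⁻¹ from rfl,
      Modular_qp_order_mul hx0' (inv_ne_zero hp0'), Modular_qp_order_inv, hpo, hm]
    simp
  obtain ⟨w, hw⟩ := huu
  refine ⟨w, ?_⟩
  rw [hw]
  apply Subtype.ext
  have hp0F : (((Modular_qUnif E t ht : Modular_qSubring E) ^ m : Modular_qSubring E) : E) ≠ 0 := by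
    simpa using hp0
  show (((Modular_qUnif E t ht : Modular_qSubring E) ^ m : Modular_qSubring E) : E) *
    ((x : E) * (((Modular_qUnif E t ht : Modular_qSubring E) ^ m : Modular_qSubring E) : E)⁻¹) = x
  field_simp

variable (E t ht) in
/-- the `q`-adic place of `E`. -/
def Modular_qPlace : Place K E where
  toValuationSubring := Modular_qSubring E
  algebraMap_mem' a := by
    rw [Modular_mem_qSubring]
    show (algebraMap K (LaurentSeries K) a).order ≥ 0
    rw [algebraMap_laurentSeries_eq_single]
    exact (HahnSeries.order_C (r := a)).ge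
  ne_top' := by
    intro h
    have : t⁻¹ ∈ Modular_qSubring E := h ▸ ValuationSubring.mem_top _
    rw [Modular_mem_qSubring, Modular_qp_coe_inv, Modular_qp_order_inv, ht] at this
    omega
  isPrincipalIdealRing' :=
    (IsDiscreteValuationRing.ofHasUnitMulPowIrreducibleFactorization
      (Modular_qp_hasFactorization t ht)).toIsPrincipalIdealRing

theorem Modular_qPlace_ord (f : E) : (Modular_qPlace E t ht).ord f = (f : LaurentSeries K).order := by
  rcases eq_or_ne f 0 with rfl | hf
  · simp
  have hπ : Irreducible (Modular_qUnif E t ht : (Modular_qPlace E t ht).toValuationSubring) := Modular_qUnif_irreducible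
  obtain ⟨u, hu⟩ := (Modular_qPlace E t ht).exists_unit_mul_zpow hf hπ
  change (Modular_qSubring E)ˣ at u
  have hu1 : IsUnit (u : Modular_qSubring E) := u.isUnit
  rw [Modular_qp_isUnit_iff _ u.ne_zero] at hu1
  have h : (f : LaurentSeries K).order = ((((u : Modular_qSubring E) : E) *
      ((Modular_qUnif E t ht : Modular_qSubring E) : E) ^ ((Modular_qPlace E t ht).ord f) : E) :
        LaurentSeries K).order := congrArg (fun y : E => (y : LaurentSeries K).order) hu
  have hu0 : (((u : Modular_qSubring E) : E) : LaurentSeries K) ≠ 0 := by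
    have : (u : Modular_qSubring E) ≠ 0 := u.ne_zero
    simp
  have hπ0 : (((Modular_qUnif E t ht : Modular_qSubring E) : E) : LaurentSeries K) ≠ 0 := by
    have := Modular_qUnif_ne_zero (ht := ht)
    simpa using this
  have e : ((((u : Modular_qSubring E) : E) * ((Modular_qUnif E t ht : Modular_qSubring E) : E) ^
      ((Modular_qPlace E t ht).ord f) : E) : LaurentSeries K) =
      (((u : Modular_qSubring E) : E) : LaurentSeries K) *
        (((Modular_qUnif E t ht : Modular_qSubring E) : E) : LaurentSeries K) ^ ((Modular_qPlace E t ht).ord f) := by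
    rw [MulMemClass.coe_mul]
    congr 1
  rw [e, Modular_qp_order_mul hu0 (zpow_ne_zero _ hπ0), hu1, Modular_qp_order_zpow, Modular_qp_order_qUnif] at h
  omega


theorem Modular_order_jqModC : (jqModC K).order = -1 := by
  have hne : jqModC K ≠ 0 := jqModC_ne_zero_of_nontrivial K
  apply le_antisymm
  · apply HahnSeries.order_le_of_coeff_ne_zero
    rw [coeff_jqModC_neg_one]
    exact one_ne_zero
  · rw [HahnSeries.le_order_iff_forall hne]
    intro k hk
    exact coeff_jqModC_of_lt K hk

end Modular_place

/-- `ℚ̄`. -/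
abbrev Qb : Type := AlgebraicClosure ℚ

/-- the absolute Galois group. -/
abbrev GQ : Type := Qb ≃ₐ[ℚ] Qb

instance isFF_bar (N : ℕ) [NeZero N] : IsFF Qb (modularFunctionFieldBar N) :=
  ⟨⟨S24.jF N, S24.transcendental_jF N, S24.finiteDimensional_FF N⟩⟩

theorem Modular_coe_jF (N : ℕ) : ((S24.jF N : S24.FF N) : LaurentSeries Qb) = jqModC Qb := by
  show coeffEmb Qb jq = jqModC Qb
  have h1 : (jq : LaurentSeries ℚ) = jqModC ℚ := rfl
  rw [h1, coeffEmb, coeffMap_jqModC]

/-- the `q`-adic place. -/
theorem exists_ooBar (N : ℕ) [NeZero N] : ∃ oo : Place Qb (modularFunctionFieldBar N),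
    ∀ f : modularFunctionFieldBar N, oo.ord f = (f : LaurentSeries Qb).order := by
  have ht : (((S24.jF N)⁻¹ : modularFunctionFieldBar N) : LaurentSeries Qb).order = 1 := by
    rw [Modular_qp_coe_inv, Modular_qp_order_inv, Modular_coe_jF, Modular_order_jqModC]
    rfl
  exact ⟨Modular_qPlace (modularFunctionFieldBar N) _ ht, Modular_qPlace_ord⟩

/-- the cusp `∞`. -/
def ooBar (N : ℕ) [NeZero N] : Place Qb (modularFunctionFieldBar N) := (exists_ooBar N).choose

theorem ooBar_ord (N : ℕ) [NeZero N] (f : modularFunctionFieldBar N) :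
    (ooBar N).ord f = (f : LaurentSeries Qb).order := (exists_ooBar N).choose_spec f

/-- the rational structure of `X₀(N)`. -/
def barAction (N : ℕ) [NeZero N] : QAction GQ Qb (modularFunctionFieldBar N) (ooBar N) where
  ρ := arithmeticGalois (modularFunctionFieldFull N)
  φ := algebraMap (modularFunctionFieldBar N) (LaurentSeries Qb)
  φ_C := by
    intro a
    exact algebraMap_laurentSeries_eq_single Qb a
  order_φ := by
    intro f _
    exact (ooBar_ord N f).symm
  coeff_φ_smul := by
    intro σ f n
    rfl

variable (N : ℕ) [NeZero N]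

@[simp] theorem barAction_ρ (σ : GQ) :
    (barAction N).ρ σ = arithmeticGalois (modularFunctionFieldFull N) σ := rfl

@[simp] theorem baseAut_barAction (σ : GQ) (a : Qb) :
    SemilinearAut.baseAut ((barAction N).ρ σ) a = σ a := rfl

theorem barAction_smul_JZero (σ : GQ) (x : JZero N) : (barAction N).ρ σ • x = σ • x := rfl

theorem mem_fixedPoints_iff (x : JZero N) :
    x ∈ FixedPoints.addSubgroup GQ (JZero N) ↔ ∀ σ : GQ, (barAction N).ρ σ • x = x := by
  exact Iff.rfl

/-- rational elements of `ℚ̄`. -/
theorem invK_barAction_iff (a : Qb) :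
    (barAction N).InvK a ↔ a ∈ (algebraMap ℚ Qb).range := by
  have h1 : IsAlgClosure ℚ Qb := ⟨inferInstance, AlgebraicClosure.isAlgebraic ℚ⟩
  have h2 : IsGalois ℚ Qb := IsAlgClosure.isGalois ℚ Qb
  exact (InfiniteGalois.mem_range_algebraMap_iff_fixed a).symm

/-- Galois orbits in `ℚ̄` are finite. -/
theorem finite_orbit_Qb (a : Qb) :
    (Set.range fun σ : GQ => SemilinearAut.baseAut ((barAction N).ρ σ) a).Finite := by
  apply (Polynomial.rootSet_finite (minpoly ℚ a) Qb).subset
  rintro _ ⟨σ, rfl⟩
  have hint : IsIntegral ℚ a := (AlgebraicClosure.isAlgebraic ℚ).isIntegral.isIntegral a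
  rw [Polynomial.mem_rootSet]
  refine ⟨minpoly.ne_zero hint, ?_⟩
  show Polynomial.aeval (σ a) (minpoly ℚ a) = 0
  rw [Polynomial.aeval_algHom_apply, minpoly.aeval, map_zero]

end Fermat.Agent.S17.FF
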