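import Fermat.Agent.S17.FF.CurveA
import Fermat.Agent.S17.FF.CurveMov
import Fermat.Agent.S17.FF.CurveDet
import Fermat.Agent.S17.FF.Modular

/-! # S17-FF (module GAL), file `CurveGeom`: `(curveOf A).Geom`, and the modular curve. -/

set_option autoImplicit false
set_option linter.unusedSectionVars false

noncomputable section

namespace Fermat.Agent.S17.FF

open AlgebraicCurve ModularCurve Fermat.Agent.S24.Zeros

theorem curveOf_geom {F : Type} [Field F] [Algebra Qbar F] [IsFF Qbar F] {oo : Place Qbar F}
    (A : QAction S17.GQ Qbar F oo)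
    (hA : ∀ (σ : S17.GQ) (a : Qbar), SemilinearAut.baseAut (A.ρ σ) a = σ a) :
    (curveOf A).Geom where
  ev_zero := curveOf_ev_zero A
  ev_smul := curveOf_ev_smul A hA
  ell_eq := curveOf_ell_eq A
  ell_mono := curveOf_ell_mono A
  one_le_ell := curveOf_one_le_ell A
  d_ge := le_refl _
  d_pos := curveOf_d_pos A
  two_le_ell_d := curveOf_two_le_ell_d A
  sep := curveOf_sep A
  cls_zero := curveOf_cls_zero A
  cls_add := curveOf_cls_add A
  finite_orbit := curveOf_finite_orbit A hA
  finite_fiber := curveOf_finite_fiber A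
  mov := curveOf_mov A
  sec_of_cls := curveOf_sec_of_cls A hA
  zeros := curveOf_zeros A
  det_congr := curveOf_det_congr A
  resid_unique := curveOf_resid_unique A
  exists_indep := curveOf_exists_indep A
  cover := curveOf_cover A

/-- the arithmetic curve `X₀(N)`. -/
def modCurve (N : ℕ) [NeZero N] : ACurve := curveOf (barAction N)

theorem modCurve_geom (N : ℕ) [NeZero N] : (modCurve N).Geom :=
  curveOf_geom (barAction N) fun _ _ => rfl

theorem modCurve_J (N : ℕ) [NeZero N] : (modCurve N).J = JZero N := rfl

theorem modCurve_Gam (N : ℕ) [NeZero N] :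
    (modCurve N).Gam = FixedPoints.addSubgroup S17.GQ (JZero N) := rfl

end Fermat.Agent.S17.FF
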