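import Fermat.Agent.S17.FF.Semi
import Fermat.Agent.S17.FF.Count

/-! # S17-FF, file `DivOf`: multisets of places as effective divisors. -/

set_option autoImplicit false
set_option linter.unusedSectionVars false

noncomputable section

namespace Fermat.Agent.S17.FF

open AlgebraicCurve Fermat.Agent.S24.Zeros

variable {K F : Type*} [Field K] [Field F] [Algebra K F] [IsAlgClosed K] [CharZero K] [IsFF K F]

/-- the effective divisor attached to a multiset of places. -/
def divOf (Q : Multiset (Place K F)) : Divisor K F := (Q.map fun v => Finsupp.single v (1 : ℤ)).sum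

@[simp] theorem divOf_zero : divOf (0 : Multiset (Place K F)) = 0 := by
  simp [divOf]

@[simp] theorem divOf_cons (v : Place K F) (Q : Multiset (Place K F)) :
    divOf (v ::ₘ Q) = Finsupp.single v 1 + divOf Q := by
  simp [divOf]

@[simp] theorem divOf_singleton (v : Place K F) :
    divOf ({v} : Multiset (Place K F)) = Finsupp.single v 1 := by
  simp [divOf]

theorem divOf_add (Q Q' : Multiset (Place K F)) : divOf (Q + Q') = divOf Q + divOf Q' := by
  simp [divOf]

open Classical in
theorem divOf_apply (Q : Multiset (Place K F)) (v : Place K F) : divOf Q v = (Q.count v : ℤ) := by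
  induction Q using Multiset.induction_on with
  | empty => simp
  | cons a Q ih =>
    rw [divOf_cons, Finsupp.add_apply, ih, Multiset.count_cons, Finsupp.single_apply]
    by_cases h : a = v
    · rw [if_pos h, if_pos h.symm]; push_cast; ring
    · rw [if_neg h, if_neg (fun h' => h h'.symm)]; push_cast; ring

theorem divOf_nonneg (Q : Multiset (Place K F)) : 0 ≤ divOf Q := by
  classical
  rw [Finsupp.le_def]
  intro v
  rw [divOf_apply, Finsupp.zero_apply]
  exact Int.natCast_nonneg _

theorem degree_divOf (Q : Multiset (Place K F)) : Divisor.degree (divOf Q) = (Q.card : ℤ) := by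
  induction Q using Multiset.induction_on with
  | empty => simp
  | cons a Q ih =>
    rw [divOf_cons, map_add, ih, degree_single', Multiset.card_cons]; push_cast; ring

theorem divOf_injective : Function.Injective (divOf (K := K) (F := F)) := by
  classical
  intro Q Q' h
  refine Multiset.ext.2 fun v => ?_
  have := DFunLike.congr_fun h v
  rw [divOf_apply, divOf_apply] at this
  exact_mod_cast this

theorem divOf_apply_eq_zero {Q : Multiset (Place K F)} {v : Place K F} (h : v ∉ Q) :
    divOf Q v = 0 := by
  classical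
  rw [divOf_apply, Multiset.count_eq_zero_of_notMem h, Nat.cast_zero]

theorem divOf_apply_pos {Q : Multiset (Place K F)} {v : Place K F} (h : v ∈ Q) :
    0 < divOf Q v := by
  classical
  rw [divOf_apply]
  exact_mod_cast Multiset.count_pos.2 h

theorem divOf_apply_of_nodup {Q : Multiset (Place K F)} (hQ : Q.Nodup) {v : Place K F}
    (h : v ∈ Q) : divOf Q v = 1 := by
  classical
  rw [divOf_apply, Multiset.count_eq_one_of_mem hQ h, Nat.cast_one]

theorem divOf_finset_val (P : Finset (Place K F)) :
    divOf P.val = ∑ v ∈ P, Finsupp.single v (1 : ℤ) := by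
  rfl

theorem divOf_ofFn {r : ℕ} (P : Fin r → Place K F) :
    divOf (Multiset.ofList (List.ofFn P)) = ∑ j, Finsupp.single (P j) (1 : ℤ) := by
  unfold divOf
  rw [Multiset.map_coe, Multiset.sum_coe, List.map_ofFn, List.sum_ofFn]
  rfl

theorem divOf_coe_list (l : List (Place K F)) :
    divOf (l : Multiset (Place K F)) = ∑ j : Fin l.length, Finsupp.single (l.get j) (1 : ℤ) := by
  have h := divOf_ofFn (K := K) (F := F) (fun j : Fin l.length => l.get j)
  rw [List.ofFn_get] at h
  exact h

theorem exists_divOf_eq {D : Divisor K F} (h : 0 ≤ D) : ∃ Q : Multiset (Place K F), divOf Q = D := by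
  classical
  obtain ⟨G, rfl⟩ := LSpace_exists_cast h
  refine ⟨Finsupp.toMultiset G, ?_⟩
  ext v
  rw [divOf_apply, Finsupp.count_toMultiset, LSpace_cast_apply]

theorem smul_divOf (g : SemilinearAut K F) (Q : Multiset (Place K F)) :
    g • divOf Q = divOf (Q.map fun v => g • v) := by
  induction Q using Multiset.induction_on with
  | empty => simp
  | cons a Q ih =>
    rw [divOf_cons, smul_add, ih, Multiset.map_cons, divOf_cons, SemilinearAut.smul_single]

variable (oo : Place K F)

/-- multisets of places avoiding `∞` lift to the subtype. -/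
theorem exists_map_val_eq {Z : Multiset (Place K F)} (h : oo ∉ Z) :
    ∃ Q : Multiset {v : Place K F // v ≠ oo}, Q.map Subtype.val = Z := by
  refine ⟨Z.pmap Subtype.mk (fun v hv => ne_of_mem_of_not_mem hv h), ?_⟩
  rw [Multiset.map_pmap]
  exact (Multiset.pmap_eq_map _ (fun a => a) Z _).trans (Multiset.map_id' Z)

theorem oo_notMem_map_val (Q : Multiset {v : Place K F // v ≠ oo}) : oo ∉ Q.map Subtype.val := by
  intro h
  obtain ⟨v, -, hv⟩ := Multiset.mem_map.1 h
  exact v.2 hv

theorem nodup_map_val_iff (Q : Multiset {v : Place K F // v ≠ oo}) :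
    (Q.map Subtype.val).Nodup ↔ Q.Nodup := by
  exact Multiset.nodup_map_iff_of_injective Subtype.val_injective

/-- sections of `L(n∞)` vanishing on a reduced divisor. -/
theorem mem_LSpace_sub_divOf_iff {Q : Multiset (Place K F)} (hQ : Q.Nodup) (hoo : oo ∉ Q) (n : ℤ)
    (f : F) : f ∈ LSpace (Finsupp.single oo n - divOf Q) ↔
      f ∈ LSpace (Finsupp.single oo n) ∧ ∀ v ∈ Q, val v f = 0 := by
  by_cases hf0 : f = 0
  · subst hf0
    refine ⟨fun _ => ⟨Submodule.zero_mem _, fun v _ => ?_⟩, fun _ => Submodule.zero_mem _⟩
    have := val_algebraMap (F := F) v (0 : K)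
    rwa [map_zero] at this
  have hne : ∀ v ∈ Q, v ≠ oo := fun v hv h => hoo (h ▸ hv)
  have hs : ∀ v ∈ Q, (Finsupp.single oo n : Divisor K F) v = 0 := fun v hv =>
    Finsupp.single_eq_of_ne (hne v hv)
  rw [mem_LSpace, mem_LSpace]
  constructor
  · rintro (h | h)
    · exact absurd h hf0
    have h1 : ∀ v : Place K F, -(Finsupp.single oo n : Divisor K F) v ≤ v.ord f := by
      intro v
      have h2 := h v
      have h3 := Finsupp.le_def.1 (divOf_nonneg Q) v
      rw [Finsupp.sub_apply] at h2
      rw [Finsupp.zero_apply] at h3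
      linarith
    refine ⟨Or.inr h1, fun v hv => ?_⟩
    have h2 := h v
    rw [Finsupp.sub_apply, hs v hv, divOf_apply_of_nodup hQ hv] at h2
    rw [val_eq_zero_iff v (by linarith)]
    exact Or.inr (by linarith)
  · rintro ⟨h | h, hval⟩
    · exact absurd h hf0
    refine Or.inr fun v => ?_
    rw [Finsupp.sub_apply]
    by_cases hv : v ∈ Q
    · have h1 := h v
      rw [hs v hv] at h1 ⊢
      rw [divOf_apply_of_nodup hQ hv]
      have h2 := (val_eq_zero_iff v (by linarith)).1 (hval v hv)
      rcases h2 with h2 | h2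
      · exact absurd h2 hf0
      · omega
    · rw [divOf_apply_eq_zero hv, sub_zero]
      exact h v

/-- the zero divisor of a nonzero element of the affine ring. -/
theorem exists_zero_multiset {f : F} (hf : f ∈ affRing oo) (h0 : f ≠ 0) :
    ∃ Z : Multiset (Place K F), oo ∉ Z ∧ divOf Z = divf f - Finsupp.single oo (oo.ord f) ∧
      (Z.card : ℤ) = -oo.ord f ∧ cls oo (divOf Z) = 0 ∧ ∀ v, v ≠ oo → (v ∈ Z ↔ val v f = 0) := by
  have hD : (0 : Divisor K F) ≤ divf f - Finsupp.single oo (oo.ord f) := by
    rw [Finsupp.le_def]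
    intro v
    rw [Finsupp.zero_apply, Finsupp.sub_apply, divf_apply]
    by_cases hv : v = oo
    · subst hv
      rw [Finsupp.single_eq_same, sub_self]
    · rw [Finsupp.single_eq_of_ne hv, sub_zero]
      exact hf v hv
  obtain ⟨Z, hZ⟩ := exists_divOf_eq hD
  refine ⟨Z, ?_, hZ, ?_, ?_, ?_⟩
  · intro h
    have h1 := divOf_apply_pos h
    rw [hZ, Finsupp.sub_apply, divf_apply, Finsupp.single_eq_same, sub_self] at h1
    exact lt_irrefl _ h1
  · rw [← degree_divOf, hZ, map_sub, degree_divf, degree_single', zero_sub]
  · rw [hZ, cls_sub, cls_divf, cls_single_oo, sub_zero]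
  · intro v hv
    have h1 : divOf Z v = v.ord f := by
      rw [hZ, Finsupp.sub_apply, divf_apply, Finsupp.single_eq_of_ne hv, sub_zero]
    rw [val_eq_zero_iff v (hf v hv)]
    constructor
    · intro h
      exact Or.inr (h1 ▸ divOf_apply_pos h)
    · rintro (h | h)
      · exact absurd h h0
      · by_contra hn
        rw [← h1, divOf_apply_eq_zero hn] at h
        exact lt_irrefl _ h

end Fermat.Agent.S17.FF
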