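import Fermat.Agent.S17.FF.QPole
import Fermat.Agent.S17.FF.DivOf
import Fermat.Agent.S17.Glob.ACurve

/-! # S17-FF (module GAL), file `CurveDef`: the `ACurve` attached to a function field over `ℚ̄` with
a rational structure. -/

set_option autoImplicit false
set_option linter.unusedSectionVars false

noncomputable section

namespace Fermat.Agent.S17.FF

open AlgebraicCurve Fermat.Agent.S24.Zeros

section General

variable {G K F : Type*} [Group G] [Field K] [Field F] [Algebra K F] [IsAlgClosed K] [CharZero K]
  [IsFF K F] {oo : Place K F} (A : QAction G K F oo)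

namespace QAction

/-- the group of rational classes. -/
def fixedCls : AddSubgroup (Pic0 K F) where
  carrier := {x | ∀ σ : G, A.ρ σ • x = x}
  zero_mem' σ := smul_zero _
  add_mem' := by
    intro a b ha hb σ
    rw [smul_add, ha σ, hb σ]
  neg_mem' := by
    intro a ha σ
    rw [smul_neg, ha σ]

theorem mem_fixedCls {x : Pic0 K F} : x ∈ A.fixedCls ↔ ∀ σ : G, A.ρ σ • x = x := Iff.rfl

/-- the action on the finite places. -/
@[reducible] def ptsAction : MulAction G {v : Place K F // v ≠ oo} where
  smul σ v := ⟨A.ρ σ • v.1, smul_ne_oo _ (A.smul_oo σ) v.2⟩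
  one_smul v := Subtype.ext (by
    show A.ρ 1 • v.1 = v.1
    rw [map_one, one_smul])
  mul_smul σ τ v := Subtype.ext (by
    show A.ρ (σ * τ) • v.1 = A.ρ σ • (A.ρ τ • v.1)
    rw [map_mul, mul_smul])

end QAction

end General

variable {F : Type} [Field F] [Algebra Qbar F] [IsFF Qbar F] {oo : Place Qbar F}
  (A : QAction GQ Qbar F oo)

/-- the threshold. -/
def thr (K F : Type*) [Field K] [Field F] [Algebra K F] [IsAlgClosed K] [CharZero K] [IsFF K F] : ℕ :=
  (cBound K F).toNat + genus K F + 3

/-- the abstract arithmetic curve attached to `(F, ∞, A)`. -/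
def curveOf : ACurve where
  Pts := {v : Place Qbar F // v ≠ oo}
  act := A.ptsAction
  J := Pic0 Qbar F
  grp := inferInstance
  Gam := A.fixedCls
  ev i P := val P.1 (A.basis i)
  ℓ n := ell (Finsupp.single oo (n : ℤ))
  g := genus Qbar F
  n₀ := thr Qbar F
  d := thr Qbar F
  cls Q := cls oo (divOf (Q.map Subtype.val))

theorem curveOf_ev (i : ℕ) (P : (curveOf A).Pts) : (curveOf A).ev i P = val P.1 (A.basis i) := rfl

theorem curveOf_ev' (i : ℕ) (P : (curveOf A).Pts) :
    (curveOf A).ev i P = ptOfPlace oo P ⟨A.basis i, A.isPoleBasis_basis.mem i⟩ := rfl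

theorem curveOf_ℓ (n : ℕ) : (curveOf A).ℓ n = ell (Finsupp.single oo (n : ℤ)) := rfl

theorem curveOf_g : (curveOf A).g = genus Qbar F := rfl

theorem curveOf_n₀ : (curveOf A).n₀ = thr Qbar F := rfl

theorem curveOf_d : (curveOf A).d = thr Qbar F := rfl

theorem curveOf_cls (Q : Multiset (curveOf A).Pts) :
    (curveOf A).cls Q = cls oo (divOf (Q.map Subtype.val)) := rfl

theorem curveOf_smul_val (σ : GQ) (P : (curveOf A).Pts) : (σ • P).1 = A.ρ σ • P.1 := rfl

theorem mem_curveOf_Gam (x : Pic0 Qbar F) : x ∈ (curveOf A).Gam ↔ ∀ σ : GQ, A.ρ σ • x = x := Iff.rfl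

theorem cBound_le_thr : cBound Qbar F + genus Qbar F + 3 ≤ (thr Qbar F : ℤ) := by
  have := Int.self_le_toNat (cBound Qbar F)
  unfold thr
  push_cast
  omega

/-- a section in the sense of `ACurve` is the value of the corresponding function. -/
theorem curveOf_sec (m : ℕ) (t : ℕ → Qbar) (P : (curveOf A).Pts) :
    (curveOf A).sec m t P =
      val P.1 (∑ i ∈ Finset.range (ell (Finsupp.single oo (m : ℤ))),
        algebraMap Qbar F (t i) * A.basis i) := by
  have h1 : (∑ i ∈ Finset.range (ell (Finsupp.single oo (m : ℤ))),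
      algebraMap Qbar F (t i) * A.basis i) =
      ((∑ i ∈ Finset.range (ell (Finsupp.single oo (m : ℤ))),
        algebraMap Qbar (affRing oo) (t i) * ⟨A.basis i, A.isPoleBasis_basis.mem i⟩ :
          affRing oo) : F) := by
    rw [AddSubmonoidClass.coe_finsetSum]
    rfl
  rw [h1, ← ptOfPlace_apply oo P, map_sum]
  unfold ACurve.sec
  apply Finset.sum_congr rfl
  intro i _
  rw [map_mul, AlgHom.commutes, curveOf_ev']
  rfl

/-- the determinant in the sense of `ACurve`. -/
theorem curveOf_DL (l : List (curveOf A).Pts) :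
    (curveOf A).DL l =
      Matrix.det (Matrix.of fun i j : Fin l.length => val (l.get j).1 (A.basis i)) := rfl

theorem divOf_map_val_coe (l : List {v : Place Qbar F // v ≠ oo}) :
    divOf (((l : Multiset {v : Place Qbar F // v ≠ oo})).map Subtype.val) =
      ∑ j : Fin l.length, Finsupp.single (l.get j).1 (1 : ℤ) := by
  induction l with
  | nil => simp
  | cons a l ih =>
    rw [← Multiset.cons_coe, Multiset.map_cons, divOf_cons, ih]
    simp only [List.length_cons]
    rw [Fin.sum_univ_succ]
    rfl

/-- stability of a multiset of points in terms of places. -/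
theorem curveOf_stable_iff (Q : Multiset (curveOf A).Pts) :
    (curveOf A).Stable Q ↔
      ∀ σ : GQ, (Q.map Subtype.val).map (fun v => A.ρ σ • v) = Q.map Subtype.val := by
  unfold ACurve.Stable
  refine forall_congr' fun σ => ?_
  rw [Multiset.map_map]
  have h1 : Multiset.map ((fun v => A.ρ σ • v) ∘ Subtype.val) Q =
      (Q.map (fun P => σ • P)).map Subtype.val := by
    rw [Multiset.map_map]
    rfl
  rw [h1]
  exact (Multiset.map_injective Subtype.val_injective).eq_iff.symm

end Fermat.Agent.S17.FF
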