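import Fermat.Agent.S17.FF.RiemannCor

/-! # S17-FF, file `Aff`: the affine ring `A = ⋃ L(n ∞)` of functions regular off `∞`. -/

set_option autoImplicit false
set_option linter.unusedSectionVars false

noncomputable section

namespace Fermat.Agent.S17.FF

open AlgebraicCurve Fermat.Agent.S24.Zeros

variable {K F : Type*} [Field K] [Field F] [Algebra K F] [IsAlgClosed K] [CharZero K] [IsFF K F]
variable (oo : Place K F)

theorem mem_LSpace_single_iff (n : ℤ) (f : F) :
    f ∈ LSpace (Finsupp.single oo n) ↔ f = 0 ∨ (f ∈ affRing oo ∧ -n ≤ oo.ord f) := by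
  classical
  rw [mem_LSpace]
  refine or_congr Iff.rfl ⟨fun h => ⟨fun v hv => ?_, ?_⟩, fun h v => ?_⟩
  · have := h v
    rwa [Finsupp.single_apply, if_neg (Ne.symm hv), neg_zero] at this
  · have := h oo
    rwa [Finsupp.single_apply, if_pos rfl] at this
  · by_cases hv : v = oo
    · subst hv
      rw [Finsupp.single_apply, if_pos rfl]
      exact h.2
    · rw [Finsupp.single_apply, if_neg (Ne.symm hv), neg_zero]
      exact h.1 v hv

theorem mem_affRing_iff_exists (f : F) :
    f ∈ affRing oo ↔ ∃ n : ℕ, f ∈ LSpace (Finsupp.single oo (n : ℤ)) := by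
  constructor
  · intro hf
    refine ⟨(-oo.ord f).toNat, (mem_LSpace_single_iff oo _ f).2 (Or.inr ⟨hf, ?_⟩)⟩
    have := Int.self_le_toNat (-oo.ord f)
    omega
  · rintro ⟨n, hn⟩
    rcases (mem_LSpace_single_iff oo _ f).1 hn with rfl | h
    · exact zero_mem _
    · exact h.1

/-- a nonzero element of `A` has a nonnegative pole order at `∞`. -/
theorem ord_nonpos_of_mem_affRing {f : F} (hf : f ∈ affRing oo) : oo.ord f ≤ 0 := by
  classical
  have h1 : Finsupp.single oo (oo.ord f) ≤ divf (K := K) f := by
    intro v
    by_cases hv : v = oo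
    · subst hv
      rw [Finsupp.single_apply, if_pos rfl, divf_apply]
    · rw [Finsupp.single_apply, if_neg (Ne.symm hv), divf_apply]
      exact hf v hv
  have h2 := degree_mono h1
  rwa [degree_single', degree_divf] at h2

/-- an element of `A` without pole at `∞` is constant. -/
theorem exists_const_of_mem_affRing {f : F} (hf : f ∈ affRing oo) (h : oo.ord f = 0) :
    ∃ c : K, f = algebraMap K F c := by
  refine exists_const_of_ord_nonneg fun v => ?_
  by_cases hv : v = oo
  · subst hv
    exact h.ge
  · exact hf v hv

theorem exists_nonconstant : ∃ x ∈ affRing oo, oo.ord x < 0 := by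
  by_contra hcon
  push Not at hcon
  set D : Divisor K F := Finsupp.single oo ((genus K F : ℤ) + 1) with hD
  have h1 : (2 : ℤ) ≤ ell D := by
    have := riemann_le D
    rw [hD, degree_single'] at this
    rw [hD]
    linarith
  have h2 : LSpace D ≤ LSpace (0 : Divisor K F) := by
    intro f hf
    rcases (mem_LSpace_single_iff oo _ f).1 hf with rfl | ⟨hfA, -⟩
    · exact zero_mem _
    · exact mem_LSpace_zero.2 (exists_const_of_mem_affRing oo hfA
        (le_antisymm (ord_nonpos_of_mem_affRing oo hfA) (hcon f hfA)))
  have h3 : ell D ≤ ell (0 : Divisor K F) := Submodule.finrank_mono h2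
  rw [ell_zero] at h3
  omega

/-- `A` is the integral closure of `K[x]` for every nonconstant `x ∈ A`. -/
theorem mem_affRing_iff_isIntegral {x : F} (hx : x ∈ affRing oo) (h : oo.ord x < 0) (f : F) :
    f ∈ affRing oo ↔ IsIntegral (Algebra.adjoin K {x}) f := by
  have hxt : Transcendental K x := transcendental_of_ord_ne_zero h.ne
  have := finiteDimensional_adjoin hxt
  have := isDedekindDomain_intClosure hxt
  have := isFractionRing_intClosure (K := K) x
  constructor
  · intro hf
    have key : ∀ w : IsDedekindDomain.HeightOneSpectrum (intClosure K x),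
        w.valuation F f ≤ 1 := by
      intro w
      have hne : Place.ofHeightOneSpectrum (K := K) w ≠ oo := by
        intro heq
        have hxm : x ∈ (Place.ofHeightOneSpectrum (K := K) w).toValuationSubring :=
          algebraMap_mem_ofHeightOneSpectrum w
            (⟨x, isIntegral_algebraMap (x := genPoly K x)⟩ : intClosure K x)
        rw [heq, mem_iff_ord_nonneg'] at hxm
        omega
      have h0 := hf _ hne
      rw [← adicValuation_ofHeightOneSpectrum (K := K), adicValuation_le_one_iff_mem,
        mem_iff_ord_nonneg']
      exact h0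
    obtain ⟨b, hb⟩ := IsDedekindDomain.HeightOneSpectrum.mem_integers_of_valuation_le_one F f key
    rw [← hb]
    exact b.2
  · intro hf v hv
    have := intClosure_mem v (hx v hv) ⟨f, hf⟩
    exact (mem_iff_ord_nonneg' v f).1 this

/-- the identification of `A` with the integral closure of `K[x]`. -/
def aff_equivIntClosure {x : F} (hx : x ∈ affRing oo) (h : oo.ord x < 0) :
    affRing oo ≃ₐ[K] intClosure K x where
  toFun a := ⟨a.1, (mem_affRing_iff_isIntegral oo hx h a.1).1 a.2⟩
  invFun b := ⟨b.1, (mem_affRing_iff_isIntegral oo hx h b.1).2 b.2⟩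
  left_inv _ := rfl
  right_inv _ := rfl
  map_mul' _ _ := rfl
  map_add' _ _ := rfl
  commutes' _ := rfl

theorem isDedekindDomain_affRing : IsDedekindDomain (affRing oo) := by
  obtain ⟨x, hx, h⟩ := exists_nonconstant oo
  have hxt : Transcendental K x := transcendental_of_ord_ne_zero h.ne
  have := finiteDimensional_adjoin hxt
  have := isDedekindDomain_intClosure hxt
  let e : affRing oo ≃+* intClosure K x := (aff_equivIntClosure oo hx h).toRingEquiv
  have h1 : IsNoetherianRing (affRing oo) := isNoetherianRing_of_ringEquiv _ e.symm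
  have h2 : Ring.DimensionLEOne (affRing oo) := Ring.DimensionLEOne.of_ringEquiv e
  have h3 : IsIntegrallyClosed (affRing oo) := IsIntegrallyClosed.of_equiv e.symm
  exact { h1, h2, h3 with }

theorem isFractionRing_affRing : IsFractionRing (affRing oo) F := by
  obtain ⟨x, hx, h⟩ := exists_nonconstant oo
  have hxt : Transcendental K x := transcendental_of_ord_ne_zero h.ne
  have := finiteDimensional_adjoin hxt
  have := isFractionRing_intClosure (K := K) x
  refine IsFractionRing.of_field _ _ fun z => ?_
  obtain ⟨a, b, -, rfl⟩ := IsFractionRing.div_surjective (A := intClosure K x) z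
  exact ⟨(aff_equivIntClosure oo hx h).symm a, (aff_equivIntClosure oo hx h).symm b, rfl⟩

theorem finiteType_affRing : Algebra.FiniteType K (affRing oo) := by
  obtain ⟨x, hx, h⟩ := exists_nonconstant oo
  have hxt : Transcendental K x := transcendental_of_ord_ne_zero h.ne
  have := finiteDimensional_adjoin hxt
  have := finiteType_intClosure hxt
  exact Algebra.FiniteType.equiv inferInstance (aff_equivIntClosure oo hx h).symm

end Fermat.Agent.S17.FF
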