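import Fermat.Agent.S17.FF.AffPts
import Fermat.Agent.S17.FF.Local

/-! # S17-FF, file `Center`: the two charts `A = affRing ∞` and `A₀ = chartAlg K x⁻¹`
(export (f): ingredients of the center lemma). -/

set_option autoImplicit false
set_option linter.unusedSectionVars false

noncomputable section

namespace Fermat.Agent.S17.FF

open AlgebraicCurve Fermat.Agent.S24.Zeros

variable {K F : Type*} [Field K] [Field F] [Algebra K F] [IsAlgClosed K] [CharZero K] [IsFF K F]
variable (oo : Place K F) {x : F}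

theorem affRing_eq_chartAlg (hx : x ∈ affRing oo) (h : oo.ord x < 0) :
    affRing oo = chartAlg K x := by
  ext f
  rw [mem_affRing_iff_isIntegral oo hx h f, mem_chartAlg]

omit [IsAlgClosed K] [CharZero K] [IsFF K F] in
theorem Center_exists_monic {y f : F} (hf : IsIntegral (Algebra.adjoin K {y}) f) :
    ∃ (n : ℕ) (a : Fin n → Polynomial K),
      f ^ n + ∑ i : Fin n, Polynomial.aeval y (a i) * f ^ (i : ℕ) = 0 := by
  obtain ⟨p, hpm, hp⟩ := hf
  have hex : ∀ i : ℕ, ∃ a : Polynomial K, Polynomial.aeval y a = ((p.coeff i : Algebra.adjoin K {y}) : F) := by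
    intro i
    have h0 : ∀ z : F, z ∈ Algebra.adjoin K {y} → ∃ a : Polynomial K, Polynomial.aeval y a = z := by
      intro z hz
      rw [Algebra.adjoin_singleton_eq_range_aeval] at hz
      exact hz
    exact h0 _ (p.coeff i).2
  choose a ha using hex
  refine ⟨p.natDegree, fun i => a i, ?_⟩
  rw [Polynomial.eval₂_eq_sum_range, Finset.sum_range_succ, hpm.coeff_natDegree, map_one,
    one_mul, add_comm] at hp
  rw [← hp]
  congr 1
  rw [Fin.sum_univ_eq_sum_range (fun i => Polynomial.aeval y (a i) * f ^ i) p.natDegree]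
  refine Finset.sum_congr rfl fun i _ => ?_
  rw [ha]
  rfl

/-- elements of `A` are integral over `K[x]`, in polynomial form. -/
theorem exists_monic_of_mem_affRing (hx : x ∈ affRing oo) (h : oo.ord x < 0) {f : F}
    (hf : f ∈ affRing oo) :
    ∃ (n : ℕ) (a : Fin n → Polynomial K),
      f ^ n + ∑ i : Fin n, Polynomial.aeval x (a i) * f ^ (i : ℕ) = 0 := by
  exact Center_exists_monic ((mem_affRing_iff_isIntegral oo hx h f).1 hf)

/-- elements of `A₀` are integral over `K[1/x]`, in polynomial form. -/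
theorem exists_monic_of_mem_chartAlg_inv {f : F} (hf : f ∈ chartAlg K x⁻¹) :
    ∃ (n : ℕ) (a : Fin n → Polynomial K),
      f ^ n + ∑ i : Fin n, Polynomial.aeval x⁻¹ (a i) * f ^ (i : ℕ) = 0 := by
  exact Center_exists_monic (mem_chartAlg.1 hf)

/-- `A₀ ⊆ A[1/x]`. -/
theorem exists_pow_mul_mem_affRing (hx : x ∈ affRing oo) (h : oo.ord x < 0) {f : F}
    (hf : f ∈ chartAlg K x⁻¹) : ∃ k : ℕ, x ^ k * f ∈ affRing oo := by
  by_cases hf0 : f = 0
  · exact ⟨0, by rw [hf0, mul_zero]; exact Subalgebra.zero_mem _⟩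
  have hx0 : x ≠ 0 := by
    rintro rfl
    rw [Place.ord_zero] at h
    exact lt_irrefl _ h
  have hfin := finite_support_ord' (K := K) f
  refine ⟨∑ v ∈ hfin.toFinset, (v.ord f).natAbs, fun v hv => ?_⟩
  have hxv : 0 ≤ v.ord x := hx v hv
  have hpow : v.ord (x ^ (∑ v ∈ hfin.toFinset, (v.ord f).natAbs)) =
      ((∑ v ∈ hfin.toFinset, (v.ord f).natAbs : ℕ) : ℤ) * v.ord x := by
    rw [← zpow_natCast, Place.ord_zpow]
  rw [v.ord_mul (pow_ne_zero _ hx0) hf0, hpow]
  rcases hxv.eq_or_lt with h0 | hpos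
  · have h1 : 0 ≤ v.ord x⁻¹ := by rw [Place.ord_inv, ← h0, neg_zero]
    have h2 := ord_nonneg_of_mem_chartAlg h1 hf
    rw [← h0, mul_zero, zero_add]
    exact h2
  · by_cases hvf : v.ord f = 0
    · rw [hvf, add_zero]
      exact mul_nonneg (Int.natCast_nonneg _) hxv
    · have hmem : v ∈ hfin.toFinset := by
        rw [Set.Finite.mem_toFinset]; exact hvf
      have h3 : (v.ord f).natAbs ≤ ∑ v ∈ hfin.toFinset, (v.ord f).natAbs :=
        Finset.single_le_sum (f := fun v : Place K F => (v.ord f).natAbs)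
          (fun _ _ => Nat.zero_le _) hmem
      have h4 : ((v.ord f).natAbs : ℤ) ≤ ((∑ v ∈ hfin.toFinset, (v.ord f).natAbs : ℕ) : ℤ) := by
        exact_mod_cast h3
      have h5 : -(v.ord f) ≤ ((v.ord f).natAbs : ℤ) := by
        rw [Int.natCast_natAbs]; exact neg_le_abs _
      have h6 : ((∑ v ∈ hfin.toFinset, (v.ord f).natAbs : ℕ) : ℤ) * 1 ≤
          ((∑ v ∈ hfin.toFinset, (v.ord f).natAbs : ℕ) : ℤ) * v.ord x :=
        mul_le_mul_of_nonneg_left (by omega) (Int.natCast_nonneg _)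
      rw [mul_one] at h6
      generalize ((∑ v ∈ hfin.toFinset, (v.ord f).natAbs : ℕ) : ℤ) * v.ord x = T at h6 ⊢
      omega

/-- `∞` is the only place where `1/x` vanishes. -/
theorem eq_oo_of_ord_neg (hx : x ∈ affRing oo) {c : Place K F} (hc : c.ord x < 0) : c = oo := by
  by_contra hne
  exact absurd (hx c hne) (not_le.2 hc)

/-- every `h ∈ O_∞` is `a / b` with `a, b ∈ A₀`, `b(∞) ≠ 0`. -/
theorem ord_oo_nonneg_iff_exists_div (h : oo.ord x < 0) (f : F) :
    0 ≤ oo.ord f ↔ ∃ a ∈ chartAlg K x⁻¹, ∃ b ∈ chartAlg K x⁻¹, val oo b ≠ 0 ∧ f = a / b := by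
  have h1 : 0 ≤ oo.ord x⁻¹ := by rw [Place.ord_inv]; omega
  have htr : Transcendental K x⁻¹ :=
    transcendental_of_ord_ne_zero (v := oo) (by rw [Place.ord_inv]; omega)
  rw [ord_nonneg_iff_exists_div_chartAlg oo htr h1 f]
  constructor
  · rintro ⟨a, ha, b, hb, hb0, hbo, rfl⟩
    refine ⟨a, ha, b, hb, ?_, rfl⟩
    rw [Ne, val_eq_zero_iff oo (le_of_eq hbo.symm)]
    rintro (h2 | h2)
    · exact hb0 h2
    · omega
  · rintro ⟨a, ha, b, hb, hb0, rfl⟩
    have hbn : 0 ≤ oo.ord b := ord_nonneg_of_mem_chartAlg h1 hb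
    rw [Ne, val_eq_zero_iff oo hbn, not_or] at hb0
    exact ⟨a, ha, b, hb, hb0.1, by omega, rfl⟩

/-- a `K`-algebra hom `A₀ → K` killing `1/x` is the evaluation at `∞`. -/
theorem hom_eq_val_oo (hx : x ∈ affRing oo) (h : oo.ord x < 0) (ψ : chartAlg K x⁻¹ →ₐ[K] K)
    (hψ : ψ ⟨x⁻¹, self_mem_chartAlg x⁻¹⟩ = 0) (f : chartAlg K x⁻¹) : ψ f = val oo (f : F) := by
  have htr : Transcendental K x⁻¹ :=
    transcendental_of_ord_ne_zero (v := oo) (by rw [Place.ord_inv]; omega)
  have hx0 : x ≠ 0 := by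
    rintro rfl
    rw [Place.ord_zero] at h
    exact lt_irrefl _ h
  obtain ⟨c, hc, hcψ⟩ := exists_place_of_hom htr ψ
  have h1 := hcψ ⟨x⁻¹, self_mem_chartAlg x⁻¹⟩
  rw [hψ] at h1
  have h2 := (val_eq_zero_iff c hc).1 h1.symm
  have h3 : c.ord x < 0 := by
    rcases h2 with h2 | h2
    · exact absurd (inv_eq_zero.1 h2) hx0
    · rw [Place.ord_inv] at h2; omega
  have h4 : c = oo := eq_oo_of_ord_neg oo hx h3
  rw [hcψ f, h4]

end Fermat.Agent.S17.FF
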