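import Fermat.Agent.S17.FF.Local
import Fermat.Agent.S17.Alg.Chart

/-! # S17-FF, file `ChartFF`: the local ring of a place as a `LocalChart` (export (a)). -/

set_option autoImplicit false
set_option linter.unusedSectionVars false

noncomputable section

namespace Fermat.Agent.S17.FF

open AlgebraicCurve Fermat.Agent.S24.Zeros

variable {K F : Type*} [Field K] [Field F] [Algebra K F] [IsAlgClosed K] [CharZero K] [IsFF K F]

/-- evaluation at a place as a `K`-algebra hom. -/
def evAlg (c : Place K F) : c.toValuationSubring →ₐ[K] K :=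
  { ev c with commutes' := fun a => ev_algebraMap c a }

@[simp] theorem evAlg_apply (c : Place K F) (f : c.toValuationSubring) : evAlg c f = ev c f := rfl

theorem evAlg_eq_val (c : Place K F) (f : c.toValuationSubring) : evAlg c f = val c (f : F) := by
  rw [val_of_mem c f.2]
  rfl

/-- `f - f(c)` is zero or has positive order. -/
theorem ChartFF_sub_ev (c : Place K F) (f : c.toValuationSubring) :
    (f : F) - algebraMap K F (ev c f) = 0 ∨ 0 < c.ord ((f : F) - algebraMap K F (ev c f)) := by
  have h : ev c (f - algebraMap K c.toValuationSubring (ev c f)) = 0 := by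
    rw [map_sub, ev_algebraMap, sub_self]
  rw [ev_eq_zero_iff, Subtype.ext_iff] at h
  exact h

theorem ChartFF_τ_ne_zero (c : Place K F) {τ : F} (hτ : c.ord τ = 1) : τ ≠ 0 := by
  rintro rfl
  rw [Place.ord_zero] at hτ
  exact zero_ne_one hτ

theorem shift_mem (c : Place K F) (τ : c.toValuationSubring) (hτ : c.ord (τ : F) = 1)
    (f : c.toValuationSubring) :
    ((f : F) - algebraMap K F (ev c f)) / (τ : F) ∈ c.toValuationSubring := by
  have hτ0 := ChartFF_τ_ne_zero c hτ
  rcases ChartFF_sub_ev c f with h | h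
  · rw [h, zero_div]
    exact zero_mem _
  · have h0 : (f : F) - algebraMap K F (ev c f) ≠ 0 := by
      intro h0
      rw [h0, Place.ord_zero] at h
      exact lt_irrefl _ h
    apply mem_of_ord_nonneg
    rw [div_eq_mul_inv, c.ord_mul h0 (inv_ne_zero hτ0), c.ord_inv, hτ]
    omega

theorem exists_gens (c : Place K F) : ∃ gens : Finset c.toValuationSubring,
    ∀ S : Subalgebra K c.toValuationSubring, (∀ y ∈ gens, y ∈ S) →
      (∀ u ∈ S, ∀ u', u * u' = 1 → u' ∈ S) → S = ⊤ := by
  classical
  obtain ⟨B, ⟨s, hs⟩, hB, hloc⟩ := exists_fg_localization c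
  have hsB : ∀ y ∈ s, y ∈ B := fun y hy => hs ▸ Algebra.subset_adjoin hy
  have hmem : ∀ y ∈ B, y ∈ c.toValuationSubring := fun y hy => mem_of_ord_nonneg c (hB y hy)
  refine ⟨s.attach.image fun y => ⟨y.1, hmem y.1 (hsB y.1 y.2)⟩, fun S hS hinv => ?_⟩
  -- the image of `S` in `F`
  let ι : c.toValuationSubring →ₐ[K] F :=
    { c.toValuationSubring.subtype with commutes' := fun _ => rfl }
  have hι : ∀ x : c.toValuationSubring, ι x = (x : F) := fun _ => rfl
  have hBS : B ≤ S.map ι := by
    rw [← hs]
    refine Algebra.adjoin_le fun y hy => ?_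
    refine ⟨⟨y, hmem y (hsB y hy)⟩, hS _ ?_, rfl⟩
    exact Finset.mem_image.2 ⟨⟨y, hy⟩, Finset.mem_attach _ _, rfl⟩
  rw [eq_top_iff]
  rintro f -
  obtain ⟨a, ha, b, hb, hb0, hbord, hf⟩ := hloc (f : F) (ord_nonneg_of_mem c f.2)
  obtain ⟨a', ha', haa⟩ := hBS ha
  obtain ⟨b', hb', hbb⟩ := hBS hb
  replace haa : (a' : F) = a := haa
  replace hbb : (b' : F) = b := hbb
  have hbinv : b⁻¹ ∈ c.toValuationSubring := by
    apply mem_of_ord_nonneg
    rw [c.ord_inv, hbord, neg_zero]
  have h1 : b' * (⟨b⁻¹, hbinv⟩ : c.toValuationSubring) = 1 := by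
    apply Subtype.ext
    change (b' : F) * b⁻¹ = 1
    rw [hbb, mul_inv_cancel₀ hb0]
  have h2 := hinv b' hb' _ h1
  have h3 : f = a' * (⟨b⁻¹, hbinv⟩ : c.toValuationSubring) := by
    apply Subtype.ext
    change (f : F) = (a' : F) * b⁻¹
    rw [haa, hf, div_eq_mul_inv]
  rw [h3]
  exact S.mul_mem ha' h2

/-- (a) the local chart at `c` with uniformiser `τ`. -/
def chart (c : Place K F) (τ : c.toValuationSubring) (hτ : c.ord (τ : F) = 1) :
    LocalChart K c.toValuationSubring where
  ev := evAlg c
  τ := τ
  ev_τ := by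
    rw [evAlg_apply, ev_eq_zero_iff]
    exact Or.inr (by rw [hτ]; exact one_pos)
  shift f := ⟨((f : F) - algebraMap K F (ev c f)) / (τ : F), shift_mem c τ hτ f⟩
  eq_shift := by
    intro f
    have hτ0 := ChartFF_τ_ne_zero c hτ
    apply Subtype.ext
    change (f : F) = algebraMap K F (ev c f) +
      (τ : F) * (((f : F) - algebraMap K F (ev c f)) / (τ : F))
    field_simp
    ring
  isUnit_of_ev_ne_zero := by
    intro f hf
    by_contra hu
    have hm : f ∈ IsLocalRing.maximalIdeal c.toValuationSubring := hu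
    rw [mem_maximalIdeal_iff, ← ev_eq_zero_iff] at hm
    exact hf hm
  gens := (exists_gens c).choose
  closure_gens := (exists_gens c).choose_spec

variable (c : Place K F) (τ : c.toValuationSubring) (hτ : c.ord (τ : F) = 1)

@[simp] theorem chart_ev (f : c.toValuationSubring) : (chart c τ hτ).ev f = ev c f := rfl

@[simp] theorem chart_τ : (chart c τ hτ).τ = τ := rfl

theorem coe_chart_shift (f : c.toValuationSubring) :
    (((chart c τ hτ).shift f : c.toValuationSubring) : F) =
      ((f : F) - algebraMap K F (ev c f)) / (τ : F) := rfl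

/-- if `f(c) = 0` then `shift f = f / τ`. -/
theorem ChartFF_shift_of_ev_eq_zero {f : c.toValuationSubring} (h : ev c f = 0) :
    (((chart c τ hτ).shift f : c.toValuationSubring) : F) = (f : F) / (τ : F) := by
  rw [coe_chart_shift, h, map_zero, sub_zero]

/-- (a) order of vanishing in terms of Taylor coefficients. -/
theorem le_ord_iff_taylor {f : c.toValuationSubring} (hf : f ≠ 0) (n : ℕ) :
    (n : ℤ) ≤ c.ord (f : F) ↔ ∀ k < n, (chart c τ hτ).taylor k f = 0 := by
  have hτ0 := ChartFF_τ_ne_zero c hτ
  induction n generalizing f with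
  | zero =>
    simp only [Nat.cast_zero, not_lt_zero, IsEmpty.forall_iff, implies_true, iff_true]
    exact ord_nonneg_of_mem c f.2
  | succ n ih =>
    have hfF : (f : F) ≠ 0 := by simpa using hf
    constructor
    · intro h k hk
      have hev : ev c f = 0 := by
        rw [ev_eq_zero_iff]
        right
        push_cast at h
        omega
      have hsh := ChartFF_shift_of_ev_eq_zero c τ hτ hev
      have hsh0 : (chart c τ hτ).shift f ≠ 0 := by
        intro h0
        rw [h0] at hsh
        exact div_ne_zero hfF hτ0 hsh.symm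
      cases k with
      | zero => exact hev
      | succ k =>
        rw [LocalChart.taylor_succ]
        refine (ih hsh0).1 ?_ k (by omega)
        rw [hsh, div_eq_mul_inv, c.ord_mul hfF (inv_ne_zero hτ0), c.ord_inv, hτ]
        push_cast at h
        omega
    · intro h
      have hev : ev c f = 0 := h 0 (Nat.succ_pos n)
      have hsh := ChartFF_shift_of_ev_eq_zero c τ hτ hev
      have hsh0 : (chart c τ hτ).shift f ≠ 0 := by
        intro h0
        rw [h0] at hsh
        exact div_ne_zero hfF hτ0 hsh.symm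
      have h1 := (ih hsh0).2 fun k hk => by
        rw [← LocalChart.taylor_succ]
        exact h (k + 1) (by omega)
      rw [hsh, div_eq_mul_inv, c.ord_mul hfF (inv_ne_zero hτ0), c.ord_inv, hτ] at h1
      push_cast
      omega

theorem taylor_ne_zero_of_ord_eq {f : c.toValuationSubring} (hf : f ≠ 0) {n : ℕ}
    (h : c.ord (f : F) = n) : (chart c τ hτ).taylor n f ≠ 0 := by
  intro h0
  have h1 : ∀ k < n, (chart c τ hτ).taylor k f = 0 := (le_ord_iff_taylor c τ hτ hf n).1 h.ge
  have h2 := (le_ord_iff_taylor c τ hτ hf (n + 1)).2 fun k hk => by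
    rcases Nat.lt_succ_iff_lt_or_eq.1 hk with hk | rfl
    · exact h1 k hk
    · exact h0
  rw [h] at h2
  push_cast at h2
  omega

end Fermat.Agent.S17.FF
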