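import Fermat.Agent.S17.FF.QPole
import Fermat.Agent.S17.FF.Sep

/-! # S17-FF (module GAL), file `Orbit`: coordinates of points; finite orbits. -/

set_option autoImplicit false
set_option linter.unusedSectionVars false

noncomputable section

namespace Fermat.Agent.S17.FF

open AlgebraicCurve Fermat.Agent.S24.Zeros

section

variable {K F : Type*} [Field K] [Field F] [Algebra K F] [IsAlgClosed K] [CharZero K] [IsFF K F]
  {oo : Place K F} {e : ℕ → F}

theorem Orbit_val_zero (v : Place K F) : val v (0 : F) = 0 := by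
  have h := val_algebraMap (F := F) v (0 : K)
  rwa [map_zero] at h

/-- evaluation at a finite place is linear on finite sums of elements of the affine ring. -/
theorem val_sum_of_mem_affRing {v : Place K F} (hv : v ≠ oo) {ι : Type*} (s : Finset ι)
    (a : ι → K) (f : ι → F) (hf : ∀ i ∈ s, f i ∈ affRing oo) :
    val v (∑ i ∈ s, algebraMap K F (a i) * f i) = ∑ i ∈ s, a i * val v (f i) := by
  classical
  induction s using Finset.induction_on with
  | empty =>
    simp only [Finset.sum_empty]
    exact Orbit_val_zero v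
  | insert i s hi ih =>
    rw [Finset.sum_insert hi, Finset.sum_insert hi]
    have h1 : algebraMap K F (a i) * f i ∈ affRing oo :=
      mul_mem ((affRing oo).algebraMap_mem _) (hf i (Finset.mem_insert_self _ _))
    have h2 : ∑ j ∈ s, algebraMap K F (a j) * f j ∈ affRing oo :=
      sum_mem fun j hj => mul_mem ((affRing oo).algebraMap_mem _)
        (hf j (Finset.mem_insert_of_mem hj))
    rw [val_add v (h1 v hv) (h2 v hv), ih (fun j hj => hf j (Finset.mem_insert_of_mem hj)),
      val_mul v (by rw [ord_algebraMap]) (hf i (Finset.mem_insert_self _ _) v hv),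
      val_algebraMap]

/-- a finite place is determined by its coordinates `e i (v)`, `i < ℓ(d ∞)`. -/
theorem IsPoleBasis.eq_of_val_eq (he : IsPoleBasis oo e) {d : ℤ} (hd : cBound K F + 2 ≤ d)
    {v w : Place K F} (hv : v ≠ oo) (hw : w ≠ oo)
    (h : ∀ i, i < ell (Finsupp.single oo d) → val v (e i) = val w (e i)) : v = w := by
  by_contra hne
  obtain ⟨f, hf, h0, h1⟩ := exists_sep oo hd hv hw hne
  rw [he.span_eq' d] at hf
  have key : f ∈ affRing oo ∧ val v f = val w f := by
    clear h0 h1
    induction hf using Submodule.span_induction with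
    | mem x hx =>
      obtain ⟨i, hi, rfl⟩ := hx
      exact ⟨he.mem i, h i hi⟩
    | zero => exact ⟨zero_mem _, by rw [Orbit_val_zero, Orbit_val_zero]⟩
    | add x y _ _ hx hy =>
      exact ⟨add_mem hx.1 hy.1, by
        rw [val_add v (hx.1 v hv) (hy.1 v hv), val_add w (hx.1 w hw) (hy.1 w hw), hx.2, hy.2]⟩
    | smul c x _ hx =>
      refine ⟨(affRing oo).smul_mem hx.1 c, ?_⟩
      rw [Algebra.smul_def, val_mul v (by rw [ord_algebraMap]) (hx.1 v hv),
        val_mul w (by rw [ord_algebraMap]) (hx.1 w hw), val_algebraMap, val_algebraMap, hx.2]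
  exact h1 (key.2 ▸ h0)

end

variable {G K F : Type*} [Group G] [Field K] [Field F] [Algebra K F] [IsAlgClosed K] [CharZero K]
  [IsFF K F] {oo : Place K F} (A : QAction G K F oo)

namespace QAction

/-- if the orbits on `K` are finite, so are the orbits on places. -/
theorem finite_orbit_place
    (hK : ∀ a : K, (Set.range fun σ : G => SemilinearAut.baseAut (A.ρ σ) a).Finite)
    (v : Place K F) : (Set.range fun σ : G => A.ρ σ • v).Finite := by
  by_cases hv : v = oo
  · subst hv
    refine (Set.finite_singleton v).subset ?_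
    rintro _ ⟨σ, rfl⟩
    exact A.smul_oo σ
  · set N := ell (Finsupp.single oo (cBound K F + 2)) with hN
    let Φ : Place K F → (Fin N → K) := fun w i => val w (A.basis i)
    have hinj : Set.InjOn Φ (Set.range fun σ : G => A.ρ σ • v) := by
      rintro _ ⟨σ, rfl⟩ _ ⟨τ, rfl⟩ hστ
      refine A.isPoleBasis_basis.eq_of_val_eq le_rfl (smul_ne_oo _ (A.smul_oo σ) hv)
        (smul_ne_oo _ (A.smul_oo τ) hv) fun i hi => ?_
      exact congrFun hστ ⟨i, hi⟩
    refine Set.Finite.of_finite_image ?_ hinj
    refine (Set.Finite.pi' fun i : Fin N => hK (val v (A.basis i))).subset ?_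
    rintro _ ⟨_, ⟨σ, rfl⟩, rfl⟩ i
    exact ⟨σ, (A.val_basis_smul σ v i).symm⟩

/-- the smallest stable finite set containing a given finite set of places. -/
theorem exists_stable_finset
    (hK : ∀ a : K, (Set.range fun σ : G => SemilinearAut.baseAut (A.ρ σ) a).Finite)
    (S : Finset (Place K F)) :
    ∃ T : Finset (Place K F), S ⊆ T ∧ (∀ σ : G, ∀ v ∈ T, A.ρ σ • v ∈ T) ∧
      ∀ v ∈ T, ∃ σ : G, ∃ w ∈ S, v = A.ρ σ • w := by
  classical
  refine ⟨S.biUnion fun v => (A.finite_orbit_place hK v).toFinset, ?_, ?_, ?_⟩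
  · intro v hv
    rw [Finset.mem_biUnion]
    refine ⟨v, hv, ?_⟩
    rw [Set.Finite.mem_toFinset]
    exact ⟨1, by simp⟩
  · intro σ v hv
    rw [Finset.mem_biUnion] at hv ⊢
    obtain ⟨w, hw, hvw⟩ := hv
    rw [Set.Finite.mem_toFinset] at hvw
    obtain ⟨τ, rfl⟩ := hvw
    refine ⟨w, hw, ?_⟩
    rw [Set.Finite.mem_toFinset]
    exact ⟨σ * τ, by simp only [map_mul, mul_smul]⟩
  · intro v hv
    rw [Finset.mem_biUnion] at hv
    obtain ⟨w, hw, hvw⟩ := hv
    rw [Set.Finite.mem_toFinset] at hvw
    obtain ⟨τ, rfl⟩ := hvw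
    exact ⟨τ, w, hw, rfl⟩

theorem Orbit_smul_eq_self {v : Place K F} (σ : G)
    (h : ∀ i, i < ell (Finsupp.single oo (cBound K F + 2)) →
      SemilinearAut.baseAut (A.ρ σ) (val v (A.basis i)) = val v (A.basis i)) :
    A.ρ σ • v = v := by
  by_cases hv : v = oo
  · subst hv
    exact A.smul_oo σ
  · refine A.isPoleBasis_basis.eq_of_val_eq le_rfl (smul_ne_oo _ (A.smul_oo σ) hv) hv
      fun i hi => ?_
    rw [A.val_basis_smul σ v i, h i hi]

/-- a place all of whose coordinates are rational is fixed. -/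
theorem smul_eq_self_of_invK {v : Place K F} (h : ∀ i, A.InvK (val v (A.basis i))) (σ : G) :
    A.ρ σ • v = v :=
  A.Orbit_smul_eq_self σ fun i _ => h i σ

/-- the stabiliser of a place contains the common stabiliser of finitely many elements of `K`. -/
theorem exists_finset_stabilizer (v : Place K F) : ∃ s : Finset K, ∀ σ : G,
    (∀ a ∈ s, SemilinearAut.baseAut (A.ρ σ) a = a) → A.ρ σ • v = v := by
  classical
  refine ⟨(Finset.range (ell (Finsupp.single oo (cBound K F + 2)))).image
    fun i => val v (A.basis i), fun σ hσ => A.Orbit_smul_eq_self σ fun i hi => ?_⟩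
  exact hσ _ (Finset.mem_image_of_mem _ (Finset.mem_range.2 hi))

/-- the same for divisors and classes. -/
theorem exists_finset_stabilizer_cls (x : Pic0 K F) : ∃ s : Finset K, ∀ σ : G,
    (∀ a ∈ s, SemilinearAut.baseAut (A.ρ σ) a = a) → A.ρ σ • x = x := by
  classical
  obtain ⟨D, _, rfl⟩ := cls_surjective oo x
  choose s hs using A.exists_finset_stabilizer
  refine ⟨D.support.biUnion s, fun σ hσ => ?_⟩
  have hD : A.ρ σ • D = D := by
    rw [SemilinearAut.divisor_smul_def]
    conv_rhs => rw [← Finsupp.mapDomain_id (v := D)]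
    refine Finsupp.mapDomain_congr fun v hv => ?_
    exact hs v σ fun a ha => hσ a (Finset.mem_biUnion.2 ⟨v, hv, ha⟩)
  rw [cls_smul, A.smul_oo σ, hD]

end QAction

end Fermat.Agent.S17.FF
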