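import Fermat.Agent.S17.FF.CurveDef
import Fermat.Agent.S17.FF.Orbit

/-! # S17-FF (module GAL), file `CurveA`: the elementary fields of `(curveOf A).Geom`. -/

set_option autoImplicit false
set_option linter.unusedSectionVars false

noncomputable section

namespace Fermat.Agent.S17.FF

open AlgebraicCurve Fermat.Agent.S24.Zeros

variable {F : Type} [Field F] [Algebra Qbar F] [IsFF Qbar F] {oo : Place Qbar F}
  (A : QAction GQ Qbar F oo)

theorem curveOf_ev_zero (P : (curveOf A).Pts) : (curveOf A).ev 0 P = 1 := by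
  rw [curveOf_ev, A.isPoleBasis_basis.zero, ← map_one (algebraMap Qbar F), val_algebraMap]

theorem curveOf_ev_smul (hA : ∀ (σ : GQ) (a : Qbar), SemilinearAut.baseAut (A.ρ σ) a = σ a)
    (σ : GQ) (i : ℕ) (P : (curveOf A).Pts) :
    (curveOf A).ev i (σ • P) = σ ((curveOf A).ev i P) := by
  rw [curveOf_ev, curveOf_ev, curveOf_smul_val, A.val_basis_smul, hA]

theorem curveOf_ell_eq (n : ℕ) (hn : (curveOf A).n₀ ≤ n) :
    (curveOf A).ℓ n + (curveOf A).g = n + 1 := by
  rw [curveOf_ℓ, curveOf_g]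
  rw [curveOf_n₀] at hn
  have h1 := cBound_le_thr (F := F)
  have h2 : cBound Qbar F ≤ Divisor.degree (Finsupp.single oo (n : ℤ)) := by
    rw [degree_single']
    have : (thr Qbar F : ℤ) ≤ n := by exact_mod_cast hn
    omega
  have h3 := riemann_eq h2
  rw [degree_single'] at h3
  omega

theorem curveOf_ell_mono : Monotone (curveOf A).ℓ := by
  intro a b hab
  rw [curveOf_ℓ, curveOf_ℓ]
  exact ell_mono (Finsupp.single_mono (by exact_mod_cast hab))

theorem curveOf_one_le_ell (n : ℕ) : 1 ≤ (curveOf A).ℓ n := by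
  rw [curveOf_ℓ]
  calc 1 = ell (0 : Divisor Qbar F) := ell_zero.symm
    _ ≤ _ := ell_mono (by
      rw [← Finsupp.single_zero oo]
      exact Finsupp.single_mono (by positivity))

theorem curveOf_d_pos : 0 < (curveOf A).d := by
  rw [curveOf_d]
  unfold thr
  omega

theorem curveOf_two_le_ell_d : 2 ≤ (curveOf A).ℓ (curveOf A).d := by
  have h := curveOf_ell_eq A (curveOf A).d le_rfl
  rw [curveOf_g, curveOf_d] at h
  rw [curveOf_d]
  have h2 : thr Qbar F = (cBound Qbar F).toNat + genus Qbar F + 3 := rfl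
  omega

theorem curveOf_sep (P P' : (curveOf A).Pts) (h : P ≠ P') :
    ∃ i < (curveOf A).ℓ (curveOf A).d, (curveOf A).ev i P ≠ (curveOf A).ev i P' := by
  by_contra H
  push_neg at H
  apply h
  have h1 := cBound_le_thr (F := F)
  exact Subtype.ext (A.isPoleBasis_basis.eq_of_val_eq (d := (thr Qbar F : ℤ)) (by omega) P.2 P'.2
    (fun i hi => H i hi))

theorem curveOf_cls_zero : (curveOf A).cls 0 = 0 := by
  show cls oo (divOf (Multiset.map Subtype.val (0 : Multiset {v : Place Qbar F // v ≠ oo}))) = 0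
  rw [Multiset.map_zero, divOf_zero, cls_zero]

theorem CurveA_cls_add (Q Q' : Multiset {v : Place Qbar F // v ≠ oo}) :
    cls oo (divOf ((Q + Q').map Subtype.val)) =
      cls oo (divOf (Q.map Subtype.val)) + cls oo (divOf (Q'.map Subtype.val)) := by
  rw [Multiset.map_add, divOf_add, cls_add]

theorem curveOf_cls_add (Q Q' : Multiset (curveOf A).Pts) :
    (curveOf A).cls (Q + Q') = (curveOf A).cls Q + (curveOf A).cls Q' := by
  exact CurveA_cls_add Q Q'

theorem CurveA_finite_orbit_Qbar (a : Qbar) : (Set.range fun σ : GQ => σ a).Finite := by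
  refine Set.Finite.subset (Polynomial.rootSet_finite (minpoly ℚ a) Qbar) ?_
  rintro _ ⟨σ, rfl⟩
  rw [Polynomial.mem_rootSet]
  have halg : Algebra.IsAlgebraic ℚ Qbar := AlgebraicClosure.isAlgebraic ℚ
  refine ⟨minpoly.ne_zero (Algebra.IsAlgebraic.isAlgebraic a).isIntegral, ?_⟩
  show Polynomial.aeval ((σ : Qbar →ₐ[ℚ] Qbar) a) _ = 0
  rw [Polynomial.aeval_algHom_apply, minpoly.aeval, map_zero]

theorem curveOf_finite_orbit (hA : ∀ (σ : GQ) (a : Qbar), SemilinearAut.baseAut (A.ρ σ) a = σ a)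
    (P : (curveOf A).Pts) : (MulAction.orbit GQ P).Finite := by
  have hK : ∀ a : Qbar, (Set.range fun σ : GQ => SemilinearAut.baseAut (A.ρ σ) a).Finite := by
    intro a
    simp only [hA]
    exact CurveA_finite_orbit_Qbar a
  have h1 := A.finite_orbit_place hK P.1
  have h2 : ((fun Q : (curveOf A).Pts => Q.1) '' MulAction.orbit GQ P) ⊆ Set.range fun σ : GQ => A.ρ σ • P.1 := by
    rintro _ ⟨_, ⟨σ, rfl⟩, rfl⟩
    exact ⟨σ, rfl⟩
  exact Set.Finite.of_finite_image (h1.subset h2) Subtype.val_injective.injOn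

theorem curveOf_finite_fiber (c : Qbar) : {P | (curveOf A).ev 1 P = c}.Finite := by
  have hb := A.isPoleBasis_basis
  have hne : A.basis 1 - algebraMap Qbar F c ≠ 0 := by
    intro h0
    rw [sub_eq_zero] at h0
    have h1 := hb.strictMono (show (0 : ℕ) < 1 by norm_num)
    simp only at h1
    rw [hb.zero, h0, ord_algebraMap, ← map_one (algebraMap Qbar F), ord_algebraMap] at h1
    exact lt_irrefl _ h1
  have hfin := finite_zeros' (K := Qbar) (A.basis 1 - algebraMap Qbar F c)
  refine Set.Finite.subset (hfin.preimage Subtype.val_injective.injOn) ?_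
  intro P hP
  have hP' : val P.1 (A.basis 1) = c := hP
  rw [val_eq_iff P.1 (hb.mem 1 P.1 P.2)] at hP'
  rcases hP' with h | h
  · exact absurd (sub_eq_zero.mpr h) hne
  · exact h

end Fermat.Agent.S17.FF
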