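import Fermat.Agent.S17.FF.CurveDef
import Fermat.Agent.S17.FF.Moving
import Fermat.Agent.S17.FF.Det

/-! # S17-FF (module GAL), file `CurveExtra`: non-rational complements to `(curveOf A).Geom`
(for S17-WMW / S17-LOC). -/

set_option autoImplicit false
set_option linter.unusedSectionVars false

noncomputable section

namespace Fermat.Agent.S17.FF

open AlgebraicCurve Fermat.Agent.S24.Zeros

variable {F : Type} [Field F] [Algebra Qbar F] [IsFF Qbar F] {oo : Place Qbar F}
  (A : QAction GQ Qbar F oo)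

/-- concrete form of `curveOf_mov'`. -/
theorem CurveExtra_mov (oo : Place Qbar F) (μ : ℕ) (hμ : thr Qbar F ≤ μ) (x : Pic0 Qbar F)
    (Sg : Finset {v : Place Qbar F // v ≠ oo}) :
    ∃ Q : Multiset {v : Place Qbar F // v ≠ oo}, Q.Nodup ∧ Q.card = μ ∧
      cls oo (divOf (Q.map Subtype.val)) = x ∧ ∀ P ∈ Q, P ∉ Sg := by
  classical
  have hμ' : cBound Qbar F + 1 ≤ (μ : ℤ) := by
    have h1 := cBound_le_thr (F := F)
    have h2 : (thr Qbar F : ℤ) ≤ μ := by exact_mod_cast hμ
    have h3 : (0 : ℤ) ≤ genus Qbar F := Int.natCast_nonneg _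
    omega
  obtain ⟨P, hcard, hoo, hdisj, hcls⟩ := exists_reduced_cls oo x hμ' (Sg.image Subtype.val)
  obtain ⟨Q, hQ⟩ := exists_map_val_eq oo (Z := P.val) hoo
  refine ⟨Q, ?_, ?_, ?_, ?_⟩
  · rw [← nodup_map_val_iff, hQ]
    exact P.nodup
  · rw [← Multiset.card_map Subtype.val, hQ]
    exact hcard
  · rw [hQ, divOf_finset_val]
    exact hcls
  · intro p hp hpS
    have h1 : p.1 ∈ P := by
      have h2 : p.1 ∈ Q.map Subtype.val := Multiset.mem_map_of_mem _ hp
      rw [hQ] at h2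
      exact h2
    exact Finset.disjoint_left.1 hdisj h1 (Finset.mem_image_of_mem _ hpS)

/-- concrete form of `curveOf_sec_of_cls'`. -/
theorem CurveExtra_sec_of_cls (m : ℕ) (Q : Multiset {v : Place Qbar F // v ≠ oo}) (hnd : Q.Nodup)
    (hc : Q.card = m) (h0 : cls oo (divOf (Q.map Subtype.val)) = 0) :
    ∃ t : ℕ → Qbar, (∃ i < ell (Finsupp.single oo (m : ℤ)), t i ≠ 0) ∧
      ∀ P : {v : Place Qbar F // v ≠ oo},
        val P.1 (∑ i ∈ Finset.range (ell (Finsupp.single oo (m : ℤ))),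
          algebraMap Qbar F (t i) * A.basis i) = 0 ↔ P ∈ Q := by
  classical
  set P : Finset (Place Qbar F) := (Q.map Subtype.val).toFinset with hP
  have hnd' : (Q.map Subtype.val).Nodup := (nodup_map_val_iff oo Q).2 hnd
  have hPval : P.val = Q.map Subtype.val := by
    rw [hP, Multiset.toFinset_val, Multiset.dedup_eq_self.2 hnd']
  have hooP : oo ∉ P := by
    rw [hP, Multiset.mem_toFinset]
    exact oo_notMem_map_val oo Q
  have hcard : P.card = m := by
    rw [Finset.card_def, hPval, Multiset.card_map, hc]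
  have h0' : cls oo (∑ v ∈ P, Finsupp.single v (1 : ℤ)) = 0 := by
    rw [← divOf_finset_val, hPval]
    exact h0
  obtain ⟨f, hfL, hf0, -, hfP, hfn⟩ := exists_section_of_cls_eq_zero oo P hooP h0'
  rw [hcard] at hfL
  obtain ⟨t, ht⟩ := (A.isPoleBasis_basis.mem_LSpace_iff _ f).1 hfL
  refine ⟨t, ?_, ?_⟩
  · by_contra hcon
    push Not at hcon
    apply hf0
    rw [ht, A.isPoleBasis_basis.sum_eq_zero_iff]
    exact hcon
  · intro p
    rw [← ht]
    have hmem : p ∈ Q ↔ p.1 ∈ P := by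
      rw [hP, Multiset.mem_toFinset, Multiset.mem_map_of_injective Subtype.val_injective]
    rw [hmem]
    by_cases hp : p.1 ∈ P
    · have h1 := hfP _ hp
      rw [val_eq_zero_iff p.1 (by rw [h1]; exact zero_le_one)]
      exact ⟨fun _ => hp, fun _ => Or.inr (by rw [h1]; exact zero_lt_one)⟩
    · have h1 := hfn _ hp p.2
      rw [val_eq_zero_iff p.1 (by rw [h1])]
      refine ⟨?_, fun h => absurd h hp⟩
      rintro (h | h)
      · exact absurd h hf0
      · rw [h1] at h
        exact absurd h (lt_irrefl _)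

/-- concrete form of `curveOf_cls_eq_zero_of_sec`. -/
theorem CurveExtra_cls_eq_zero_of_sec (m : ℕ) (t : ℕ → Qbar)
    (ht : ∃ i < ell (Finsupp.single oo (m : ℤ)), t i ≠ 0)
    (Q : Multiset {v : Place Qbar F // v ≠ oo}) (hnd : Q.Nodup) (hc : Q.card = m)
    (hz : ∀ P ∈ Q, val P.1 (∑ i ∈ Finset.range (ell (Finsupp.single oo (m : ℤ))),
      algebraMap Qbar F (t i) * A.basis i) = 0) :
    cls oo (divOf (Q.map Subtype.val)) = 0 := by
  classical
  set f : F := ∑ i ∈ Finset.range (ell (Finsupp.single oo (m : ℤ))),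
    algebraMap Qbar F (t i) * A.basis i with hf
  have hf0 : f ≠ 0 := by
    intro h0
    obtain ⟨i, hi, hti⟩ := ht
    exact hti ((A.isPoleBasis_basis.sum_eq_zero_iff _ t).1 h0 i hi)
  have hnd' : (Q.map Subtype.val).Nodup := (nodup_map_val_iff oo Q).2 hnd
  have hfL : f ∈ LSpace (Finsupp.single oo (m : ℤ) - divOf (Q.map Subtype.val)) := by
    rw [mem_LSpace_sub_divOf_iff oo hnd' (oo_notMem_map_val oo Q)]
    refine ⟨(A.isPoleBasis_basis.mem_LSpace_iff _ f).2 ⟨t, hf⟩, fun v hv => ?_⟩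
    obtain ⟨p, hp, rfl⟩ := Multiset.mem_map.1 hv
    exact hz p hp
  rw [mem_LSpace_of_ne_zero hf0] at hfL
  obtain ⟨Z, hZ⟩ := exists_divOf_eq hfL
  have hdeg : (Z.card : ℤ) = 0 := by
    rw [← degree_divOf, hZ, map_add, map_sub, degree_divf, degree_single', degree_divOf,
      Multiset.card_map, hc]
    ring
  have hZ0 : Z = 0 := Multiset.card_eq_zero.1 (by exact_mod_cast hdeg)
  rw [hZ0, divOf_zero] at hZ
  have hdiv : divOf (Q.map Subtype.val) = divf f + Finsupp.single oo (m : ℤ) := by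
    have h1 : divf f + (Finsupp.single oo (m : ℤ) - divOf (Q.map Subtype.val)) =
        divf f + Finsupp.single oo (m : ℤ) - divOf (Q.map Subtype.val) := by abel
    rw [h1] at hZ
    exact (sub_eq_zero.1 hZ.symm).symm
  rw [hdiv, cls_add, cls_divf, cls_single_oo, add_zero]

/-- concrete form of `curveOf_smul_cls`. -/
theorem CurveExtra_smul_cls (σ : GQ) (Q : Multiset {v : Place Qbar F // v ≠ oo}) :
    A.ρ σ • cls oo (divOf (Q.map Subtype.val)) =
      cls oo (divOf ((Q.map Subtype.val).map fun v => A.ρ σ • v)) := by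
  rw [cls_smul, A.smul_oo, smul_divOf]

/-- non-rational moving lemma. -/
theorem curveOf_mov' (μ : ℕ) (hμ : (curveOf A).n₀ ≤ μ) (x : (curveOf A).J)
    (Sg : Finset (curveOf A).Pts) :
    ∃ Q : Multiset (curveOf A).Pts, Q.Nodup ∧ Q.card = μ ∧ (curveOf A).cls Q = x ∧
      ∀ P ∈ Q, P ∉ Sg := by
  exact CurveExtra_mov oo μ hμ x Sg

/-- a reduced divisor in the trivial class is the zero set of a section. -/
theorem curveOf_sec_of_cls' (m : ℕ) (Q : Multiset (curveOf A).Pts) (hnd : Q.Nodup)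
    (hc : Q.card = m) (h0 : (curveOf A).cls Q = 0) :
    ∃ t : ℕ → Qbar, (∃ i < (curveOf A).ℓ m, t i ≠ 0) ∧
      ∀ P, (curveOf A).sec m t P = 0 ↔ P ∈ Q := by
  obtain ⟨t, ht, h⟩ := CurveExtra_sec_of_cls A m Q hnd hc h0
  refine ⟨t, ht, fun P => ?_⟩
  rw [curveOf_sec]
  exact h P

/-- if a nonzero section of `L(m∞)` vanishes on a reduced multiset of size `m`, its class is `0`. -/
theorem curveOf_cls_eq_zero_of_sec (m : ℕ) (t : ℕ → Qbar) (ht : ∃ i < (curveOf A).ℓ m, t i ≠ 0)
    (Q : Multiset (curveOf A).Pts) (hnd : Q.Nodup) (hc : Q.card = m)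
    (hz : ∀ P ∈ Q, (curveOf A).sec m t P = 0) : (curveOf A).cls Q = 0 := by
  refine CurveExtra_cls_eq_zero_of_sec A m t ht Q hnd hc fun P hP => ?_
  exact (curveOf_sec A m t P).symm.trans (hz P hP)

/-- Galois equivariance of the class map. -/
theorem curveOf_smul_cls (σ : GQ) (Q : Multiset (curveOf A).Pts) :
    (A.ρ σ • (show Pic0 Qbar F from (curveOf A).cls Q) : Pic0 Qbar F) =
      (curveOf A).cls (Q.map fun P => σ • P) := by
  refine (CurveExtra_smul_cls A σ Q).trans ?_
  refine congrArg (fun Z => cls oo (divOf Z)) ?_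
  exact (Multiset.map_map (fun v => A.ρ σ • v) Subtype.val
    (show Multiset {v : Place Qbar F // v ≠ oo} from Q)).trans
    (Multiset.map_map Subtype.val (fun P : (curveOf A).Pts => σ • P) Q).symm

/-- the class of a stable multiset is rational. -/
theorem curveOf_cls_mem_Gam (Q : Multiset (curveOf A).Pts) (hQ : (curveOf A).Stable Q) :
    (curveOf A).cls Q ∈ (curveOf A).Gam := by
  refine (mem_curveOf_Gam A _).2 fun σ => ?_
  have h := curveOf_smul_cls A σ Q
  rw [hQ σ] at h
  exact h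

/-- every class is the class of a multiset of points. -/
theorem curveOf_exists_cls_eq (x : (curveOf A).J) :
    ∃ Q : Multiset (curveOf A).Pts, (curveOf A).cls Q = x := by
  obtain ⟨Q, -, -, hQ, -⟩ := curveOf_mov' A (curveOf A).n₀ le_rfl x ∅
  exact ⟨Q, hQ⟩

end Fermat.Agent.S17.FF
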