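import Fermat.Agent.S24.ZerosCore
import Fermat.Agent.S24.FormalEmb

/-!
# S17-FF: function fields of one variable over an algebraically closed field of characteristic 0

Definitions: `IsFF K F`, the divisor `divf f` of a function, the Riemann-Roch space `LSpace D`,
its dimension `ell D`, the evaluation `ev v : O_v → K`, the affine ring `affRing oo`.
-/

set_option autoImplicit false
set_option linter.unusedSectionVars false

noncomputable section

namespace Fermat.Agent.S17.FF

open AlgebraicCurve Fermat.Agent.S24.Zeros

/-- `F / K` is a function field of one variable. -/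
class IsFF (K F : Type*) [Field K] [Field F] [Algebra K F] : Prop where
  out : ∃ x : F, Transcendental K x ∧ FiniteDimensional (IntermediateField.adjoin K {x}) F

variable {K F : Type*} [Field K] [Field F] [Algebra K F]

/-- The Riemann-Roch space `L(D) = {f : div f + D ≥ 0} ∪ {0}`. -/
def LSpace (D : Divisor K F) : Submodule K F where
  carrier := {f | f = 0 ∨ ∀ v : Place K F, -D v ≤ v.ord f}
  zero_mem' := Or.inl rfl
  add_mem' := by
    rintro f g hf hg
    by_cases hfg : f + g = 0
    · exact Or.inl hfg
    rcases hf with rfl | hf
    · simpa using hg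
    rcases hg with rfl | hg
    · simpa using Or.inr hf
    exact Or.inr fun v => le_trans (le_min (hf v) (hg v)) (min_ord_le_ord_add v hfg)
  smul_mem' := by
    rintro c f hf
    rcases hf with rfl | hf
    · exact Or.inl (smul_zero c)
    by_cases hc : c = 0
    · exact Or.inl (by rw [hc, zero_smul])
    by_cases hf0 : f = 0
    · exact Or.inl (by rw [hf0, smul_zero])
    refine Or.inr fun v => ?_
    have hc' : algebraMap K F c ≠ 0 := by simpa using hc
    rw [Algebra.smul_def, v.ord_mul hc' hf0, ord_algebraMap, zero_add]
    exact hf v

theorem mem_LSpace {D : Divisor K F} {f : F} :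
    f ∈ LSpace D ↔ f = 0 ∨ ∀ v : Place K F, -D v ≤ v.ord f := Iff.rfl

/-- `ℓ(D) = dim L(D)`. -/
def ell (D : Divisor K F) : ℕ := Module.finrank K (LSpace D)

/-- Functions regular outside the place `oo`. -/
def affRing (oo : Place K F) : Subalgebra K F where
  carrier := {f | ∀ v : Place K F, v ≠ oo → 0 ≤ v.ord f}
  mul_mem' := by
    intro f g hf hg v hv
    by_cases hf0 : f = 0
    · simp [hf0]
    by_cases hg0 : g = 0
    · simp [hg0]
    rw [v.ord_mul hf0 hg0]
    exact add_nonneg (hf v hv) (hg v hv)
  add_mem' := by
    intro f g hf hg v hv
    by_cases hfg : f + g = 0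
    · simp [hfg]
    exact le_trans (le_min (hf v hv) (hg v hv)) (min_ord_le_ord_add v hfg)
  algebraMap_mem' c v _ := by rw [ord_algebraMap]

theorem mem_affRing {oo : Place K F} {f : F} :
    f ∈ affRing oo ↔ ∀ v : Place K F, v ≠ oo → 0 ≤ v.ord f := Iff.rfl

section FF

variable [IsAlgClosed K] [CharZero K] [h : IsFF K F]

theorem finite_support_ord' (f : F) : (Function.support fun v : Place K F => v.ord f).Finite := by
  obtain ⟨x, _, hfin⟩ := h.out
  exact finite_support_ord hfin f

/-- The divisor of a function (`divf 0 = 0`). -/
def divf (f : F) : Divisor K F :=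
  Finsupp.ofSupportFinite (fun v : Place K F => v.ord f) (finite_support_ord' f)

@[simp] theorem divf_apply (f : F) (v : Place K F) : divf (K := K) f v = v.ord f := rfl

theorem residue_bijective (v : Place K F) : Function.Bijective (algebraMap K v.ResidueField) := by
  obtain ⟨x, hx, hfin⟩ := h.out
  exact residueField_bijective hx hfin v

/-- Evaluation at a place, `O_v → K`. -/
def ev (v : Place K F) : v.toValuationSubring →+* K :=
  ((RingEquiv.ofBijective (algebraMap K v.ResidueField) (residue_bijective v)).symm :
    v.ResidueField →+* K).comp (IsLocalRing.residue v.toValuationSubring)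

theorem algebraMap_ev (v : Place K F) (a : v.toValuationSubring) :
    algebraMap K v.ResidueField (ev v a) = IsLocalRing.residue v.toValuationSubring a :=
  (RingEquiv.ofBijective (algebraMap K v.ResidueField) (residue_bijective v)).apply_symm_apply _

/-- The value of a function at a place (junk value `0` at a pole). -/
def val (v : Place K F) (f : F) : K :=
  open Classical in if hf : f ∈ v.toValuationSubring then ev v ⟨f, hf⟩ else 0

end FF

end Fermat.Agent.S17.FF
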