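import Fermat.Agent.S17.FF.QAction

/-! # S17-FF (module GAL), file `Echelon`: a stable finite dimensional space of functions has a
basis of rational functions (reduced echelon form of the expansions; no Hilbert 90 needed). -/

set_option autoImplicit false
set_option linter.unusedSectionVars false

noncomputable section

namespace Fermat.Agent.S17.FF

open AlgebraicCurve Fermat.Agent.S24.Zeros

section LinAlg

variable {K : Type*} [Field K]

/-- the set of orders of the nonzero elements of a space of Laurent series. -/
def orderSet (V : Submodule K (LaurentSeries K)) : Set ℤ :=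
  {n | ∃ f ∈ V, f ≠ 0 ∧ f.order = n}

theorem linearIndependent_of_order_injective {ι : Type*} (f : ι → LaurentSeries K)
    (h0 : ∀ i, f i ≠ 0) (h : Function.Injective fun i => (f i).order) : LinearIndependent K f := by
  classical
  rw [linearIndependent_iff']
  intro s c hsum
  by_contra hne
  push Not at hne
  obtain ⟨i0, hi0, hc0⟩ := hne
  set t := s.filter (fun i => c i ≠ 0) with ht
  have htne : t.Nonempty := ⟨i0, by simp [ht, hi0, hc0]⟩
  obtain ⟨j, hj, hmin⟩ := Finset.exists_min_image t (fun i => (f i).order) htne
  have hjs : j ∈ s := (Finset.mem_filter.1 hj).1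
  have hcj : c j ≠ 0 := (Finset.mem_filter.1 hj).2
  have hco := congrArg (fun x : LaurentSeries K => x.coeff (f j).order) hsum
  simp only [HahnSeries.coeff_zero] at hco
  rw [HahnSeries.coeff_sum] at hco
  rw [Finset.sum_eq_single j] at hco
  · rw [HahnSeries.coeff_smul, smul_eq_mul] at hco
    rcases mul_eq_zero.1 hco with h1 | h1
    · exact hcj h1
    · exact h0 j (HahnSeries.coeff_order_eq_zero.1 h1)
  · intro i his hij
    rw [HahnSeries.coeff_smul, smul_eq_mul]
    by_cases hci : c i = 0
    · simp [hci]
    · have hit : i ∈ t := Finset.mem_filter.2 ⟨his, hci⟩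
      have hle := hmin i hit
      have hlt : (f j).order < (f i).order := lt_of_le_of_ne hle (fun he => hij (h he.symm))
      rw [HahnSeries.coeff_eq_zero_of_lt_order hlt, mul_zero]
  · intro hjs'
    exact absurd hjs hjs'

theorem Echelon_card_le (V : Submodule K (LaurentSeries K)) [FiniteDimensional K V]
    (t : Finset ℤ) (ht : (t : Set ℤ) ⊆ orderSet V) : t.card ≤ Module.finrank K V := by
  classical
  choose! g hgV hg0 hgo using fun n (hn : n ∈ orderSet V) => hn
  have hli : LinearIndependent K (fun n : t => (⟨g n, hgV n (ht n.2)⟩ : V)) := by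
    have h1 : LinearIndependent K (fun n : t => g n) := by
      apply linearIndependent_of_order_injective
      · intro n; exact hg0 n (ht n.2)
      · intro n m hnm
        simp only at hnm
        rw [hgo n (ht n.2), hgo m (ht m.2)] at hnm
        exact Subtype.ext hnm
    exact LinearIndependent.of_comp V.subtype h1
  have := hli.fintype_card_le_finrank
  simpa using this

theorem finite_orderSet (V : Submodule K (LaurentSeries K)) [FiniteDimensional K V] :
    (orderSet V).Finite := by
  by_contra hinf
  obtain ⟨t, ht, hcard⟩ := Set.Infinite.exists_subset_card_eq hinf (Module.finrank K V + 1)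
  have := Echelon_card_le V t ht
  omega

theorem eq_zero_of_coeff_orderSet {V : Submodule K (LaurentSeries K)} {f : LaurentSeries K}
    (hf : f ∈ V) (h : ∀ n ∈ orderSet V, f.coeff n = 0) : f = 0 := by
  by_contra hne
  exact hne (HahnSeries.coeff_order_eq_zero.1 (h _ ⟨f, hf, hne, rfl⟩))

/-- the coefficient map. -/
def Echelon_coeffMap (V : Submodule K (LaurentSeries K)) : V →ₗ[K] (orderSet V → K) where
  toFun f n := (f : LaurentSeries K).coeff n
  map_add' f g := by ext n; simp
  map_smul' c f := by ext n; simp

theorem Echelon_coeffMap_injective (V : Submodule K (LaurentSeries K)) :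
    Function.Injective (Echelon_coeffMap V) := by
  rw [← LinearMap.ker_eq_bot, LinearMap.ker_eq_bot']
  intro f hf
  apply Subtype.ext
  apply eq_zero_of_coeff_orderSet f.2
  intro n hn
  exact congrFun hf ⟨n, hn⟩

theorem ncard_orderSet (V : Submodule K (LaurentSeries K)) [FiniteDimensional K V] :
    (orderSet V).ncard = Module.finrank K V := by
  classical
  have hfin := finite_orderSet V
  apply le_antisymm
  · have := Echelon_card_le V hfin.toFinset (by simp)
    rwa [← Set.ncard_eq_toFinset_card _ hfin] at this
  · have : Fintype (orderSet V) := hfin.fintype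
    have := LinearMap.finrank_le_finrank_of_injective (Echelon_coeffMap_injective V)
    rw [Module.finrank_fintype_fun_eq_card] at this
    rwa [Set.ncard_eq_toFinset_card', Set.toFinset_card]

/-- the reduced echelon basis, indexed by the set of orders. -/
theorem exists_echelon (V : Submodule K (LaurentSeries K)) [FiniteDimensional K V] :
    ∃ b : orderSet V → LaurentSeries K, (∀ n, b n ∈ V) ∧
      (∀ n m : orderSet V, (b n).coeff m = if n = m then 1 else 0) ∧
      LinearIndependent K b ∧ Submodule.span K (Set.range b) = V := by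
  classical
  have hfin := finite_orderSet V
  have : Fintype (orderSet V) := hfin.fintype
  have hrk : Module.finrank K V = Module.finrank K (orderSet V → K) := by
    rw [Module.finrank_fintype_fun_eq_card, ← ncard_orderSet V, Set.ncard_eq_toFinset_card',
      Set.toFinset_card]
  have hinj := Echelon_coeffMap_injective V
  have hsurj := (LinearMap.injective_iff_surjective_of_finrank_eq_finrank hrk).1 hinj
  let e : V ≃ₗ[K] (orderSet V → K) := LinearEquiv.ofBijective (Echelon_coeffMap V) ⟨hinj, hsurj⟩
  let B : Module.Basis (orderSet V) K V := (Pi.basisFun K (orderSet V)).map e.symm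
  refine ⟨fun n => (B n : LaurentSeries K), fun n => (B n).2, ?_, ?_, ?_⟩
  · intro n m
    have h1 : e (B n) = Pi.single n 1 := by
      simp [B]
    have h2 := congrFun h1 m
    have h3 : e (B n) m = ((B n : V) : LaurentSeries K).coeff m := rfl
    rw [h3] at h2
    rw [h2, Pi.single_apply]
    by_cases hnm : n = m
    · simp [hnm]
    · simp [hnm, Ne.symm hnm]
  · have := B.linearIndependent.map' V.subtype (Submodule.ker_subtype V)
    exact this
  · have h1 : Set.range (fun n => (B n : LaurentSeries K)) = V.subtype '' Set.range B := by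
      rw [← Set.range_comp]; rfl
    rw [h1, Submodule.span_image, B.span_eq, Submodule.map_top, Submodule.range_subtype]

end LinAlg

variable {G K F : Type*} [Group G] [Field K] [Field F] [Algebra K F] [IsAlgClosed K] [CharZero K]
  [IsFF K F] {oo : Place K F} (A : QAction G K F oo)

namespace QAction

/-- the expansion as a `K`-linear map. -/
def Echelon_φL : F →ₗ[K] LaurentSeries K where
  toFun := A.φ
  map_add' := map_add A.φ
  map_smul' a x := by
    rw [Algebra.smul_def, map_mul, A.φ_C, HahnSeries.C_mul_eq_smul, RingHom.id_apply]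

theorem Echelon_φL_injective : Function.Injective (Echelon_φL A) := A.φ.injective

/-- a stable finite dimensional subspace has a basis of rational functions. -/
theorem exists_inv_basis (V : Submodule K F) [FiniteDimensional K V]
    (hV : ∀ σ : G, ∀ f ∈ V, A.ρ σ • f ∈ V) :
    ∃ b : Fin (Module.finrank K V) → F, (∀ i, b i ∈ V) ∧ (∀ i, A.Inv (b i)) ∧
      LinearIndependent K b ∧ Submodule.span K (Set.range b) = V := by
  classical
  set V' : Submodule K (LaurentSeries K) := V.map (Echelon_φL A) with hV'
  obtain ⟨b', hb'V, hb'c, hb'li, hb'sp⟩ := exists_echelon V'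
  have hex : ∀ n, ∃ x ∈ V, Echelon_φL A x = b' n := fun n => (Submodule.mem_map.1 (hb'V n))
  choose c hcV hcb using hex
  have hfin := finite_orderSet V'
  have : Fintype (orderSet V') := hfin.fintype
  have hcard : Fintype.card (orderSet V') = Module.finrank K V := by
    have h1 := ncard_orderSet V'
    rw [Set.ncard_eq_toFinset_card', Set.toFinset_card] at h1
    rw [h1]
    exact (LinearEquiv.finrank_eq
      (Submodule.equivMapOfInjective (Echelon_φL A) (Echelon_φL_injective A) V)).symm
  let e : Fin (Module.finrank K V) ≃ orderSet V' := (Fintype.equivFinOfCardEq hcard).symm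
  have hcomp : (Echelon_φL A) ∘ c = b' := funext hcb
  have hli : LinearIndependent K c := by
    apply LinearIndependent.of_comp (Echelon_φL A)
    rw [hcomp]; exact hb'li
  have hsp : Submodule.span K (Set.range c) = V := by
    apply Submodule.map_injective_of_injective (Echelon_φL_injective A)
    rw [Submodule.map_span, ← Set.range_comp, hcomp, hb'sp]
  refine ⟨c ∘ e, fun i => hcV _, ?_, ?_, ?_⟩
  · intro i σ
    simp only [Function.comp]
    set n := e i
    apply A.φ.injective
    have hmem : A.φ (A.ρ σ • c n) - A.φ (c n) ∈ V' :=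
      V'.sub_mem (Submodule.mem_map_of_mem (f := Echelon_φL A) (hV σ _ (hcV n)))
        (Submodule.mem_map_of_mem (f := Echelon_φL A) (hcV n))
    have h0 := eq_zero_of_coeff_orderSet hmem (by
      intro m hm
      have hc : A.φ (c n) = b' n := hcb n
      rw [HahnSeries.coeff_sub, A.coeff_φ_smul, hc, hb'c n ⟨m, hm⟩]
      split_ifs <;> simp)
    exact sub_eq_zero.1 h0
  · exact hli.comp e e.injective
  · rw [Set.range_comp, e.surjective.range_eq, Set.image_univ, hsp]

/-- rational functions of a stable space avoid finitely many proper subspaces. -/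
theorem exists_inv_notMem (V : Submodule K F) [FiniteDimensional K V]
    (hV : ∀ σ : G, ∀ f ∈ V, A.ρ σ • f ∈ V) {ι : Type*} (s : Finset ι) (W : ι → Submodule K F)
    (hW : ∀ i ∈ s, ¬ V ≤ W i) : ∃ f ∈ V, A.Inv f ∧ ∀ i ∈ s, f ∉ W i := by
  classical
  obtain ⟨b, hbV, hbinv, -, hbsp⟩ := exists_inv_basis A V hV
  let T : (Fin (Module.finrank K V) → ℚ) → F := fun a => ∑ j, ((a j : ℚ) : K) • b j
  have hTadd : ∀ a a', T (a + a') = T a + T a' := by
    intro a a'
    simp only [T, Pi.add_apply, Rat.cast_add, add_smul, Finset.sum_add_distrib]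
  have hTsmul : ∀ (r : ℚ) a, T (r • a) = (r : K) • T a := by
    intro r a
    simp only [T, Pi.smul_apply, smul_eq_mul, Rat.cast_mul, mul_smul, Finset.smul_sum]
  let P : ι → Subspace ℚ (Fin (Module.finrank K V) → ℚ) := fun i =>
    { carrier := {a | T a ∈ W i}
      add_mem' := by
        intro a a' ha ha'
        simp only [Set.mem_ofPred_eq] at *
        rw [hTadd]; exact (W i).add_mem ha ha'
      zero_mem' := by
        simp only [Set.mem_ofPred_eq]
        have : T 0 = 0 := by simp [T]
        rw [this]; exact (W i).zero_mem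
      smul_mem' := by
        intro r a ha
        simp only [Set.mem_ofPred_eq] at *
        rw [hTsmul]; exact (W i).smul_mem _ ha }
  have htop : (⊤ : Subspace ℚ (Fin (Module.finrank K V) → ℚ)) ∉ s.image P := by
    intro hmem
    obtain ⟨i, his, hi⟩ := Finset.mem_image.1 hmem
    apply hW i his
    rw [← hbsp, Submodule.span_le]
    rintro _ ⟨j, rfl⟩
    have h1 : (Pi.single j 1 : Fin (Module.finrank K V) → ℚ) ∈ P i := by rw [hi]; trivial
    have h2 : T (Pi.single j 1) = b j := by
      simp only [T]
      rw [Finset.sum_eq_single j]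
      · simp
      · intro k _ hk
        simp [hk]
      · intro h; exact absurd (Finset.mem_univ j) h
    have h3 : T (Pi.single j 1) ∈ W i := h1
    rwa [h2] at h3
  have hne := Subspace.biUnion_ne_univ_of_top_notMem htop
  rw [Ne, Set.eq_univ_iff_forall] at hne
  push Not at hne
  obtain ⟨a, ha⟩ := hne
  simp only [Set.mem_iUnion, not_exists] at ha
  refine ⟨T a, ?_, ?_, ?_⟩
  · exact V.sum_mem fun j _ => V.smul_mem _ (hbV j)
  · apply Inv.sum
    intro j _
    rw [Algebra.smul_def]
    exact Inv.mul A ((inv_algebraMap_iff A _).2 (invK_ratCast A _)) (hbinv j)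
  · intro i his hmem
    exact ha (P i) (Finset.mem_image_of_mem P his) hmem

theorem smul_mem_LSpace {D : Divisor K F} (hD : ∀ σ : G, A.ρ σ • D = D) (σ : G) {f : F}
    (hf : f ∈ LSpace D) : A.ρ σ • f ∈ LSpace D := by
  have := (smul_mem_LSpace_iff (A.ρ σ) D f).2 hf
  rwa [hD σ] at this

/-- rational version of `exists_mem_LSpace_forall_ord_eq`. -/
theorem exists_inv_mem_LSpace_forall_ord_eq {D : Divisor K F} (hD : ∀ σ : G, A.ρ σ • D = D)
    (h : cBound K F + 1 ≤ Divisor.degree D) (S : Finset (Place K F)) :
    ∃ f ∈ LSpace D, A.Inv f ∧ f ≠ 0 ∧ ∀ v ∈ S, v.ord f = -D v := by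
  classical
  let W : Option (Place K F) → Submodule K F := fun o =>
    match o with
    | none => ⊥
    | some v => LSpace (D - Finsupp.single v 1)
  have hW : ∀ o ∈ insert none (S.image some), ¬ LSpace D ≤ W o := by
    intro o _ hle
    cases o with
    | none =>
      obtain ⟨f, hf, hf0, -⟩ := exists_mem_LSpace_ord_eq h oo
      exact hf0 ((Submodule.mem_bot K).1 (hle hf))
    | some v =>
      obtain ⟨f, hf, hf0, hord⟩ := exists_mem_LSpace_ord_eq h v
      have h1 : f ∈ LSpace (D - Finsupp.single v 1) := hle hf
      rcases mem_LSpace.1 h1 with h2 | h2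
      · exact hf0 h2
      · have h3 := h2 v
        rw [hord] at h3
        simp at h3
  obtain ⟨f, hfV, hfinv, hfW⟩ := exists_inv_notMem A (LSpace D)
    (fun σ f hf => smul_mem_LSpace A hD σ hf) _ W hW
  have hf0 : f ≠ 0 := by
    intro h0
    apply hfW none (Finset.mem_insert_self _ _)
    rw [h0]; exact Submodule.zero_mem _
  refine ⟨f, hfV, hfinv, hf0, ?_⟩
  intro v hv
  have hnot : f ∉ LSpace (D - Finsupp.single v 1) :=
    hfW (some v) (Finset.mem_insert_of_mem (Finset.mem_image_of_mem _ hv))
  have hall : ∀ w : Place K F, -D w ≤ w.ord f := by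
    rcases mem_LSpace.1 hfV with h2 | h2
    · exact absurd h2 hf0
    · exact h2
  by_contra hne
  apply hnot
  rw [mem_LSpace]
  right
  intro w
  by_cases hwv : w = v
  · subst hwv
    have := hall w
    have hlt : -D w < w.ord f := lt_of_le_of_ne this (Ne.symm hne)
    simp only [Finsupp.coe_sub, Pi.sub_apply, Finsupp.single_eq_same]
    omega
  · have := hall w
    simp only [Finsupp.coe_sub, Pi.sub_apply]
    rw [Finsupp.single_eq_of_ne (by exact hwv)]
    simpa using this

/-- the coordinates of a rational function in a basis of rational functions are rational. -/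
theorem invK_of_sum_eq {ι : Type*} {b : ι → F} (hb : LinearIndependent K b)
    (hinv : ∀ i, A.Inv (b i)) (a : ι →₀ K) (h : A.Inv (a.sum fun i c => algebraMap K F c * b i))
    (i : ι) : A.InvK (a i) := by
  classical
  intro σ
  have h1 : A.ρ σ • (∑ j ∈ a.support, algebraMap K F (a j) * b j) =
      ∑ j ∈ a.support, algebraMap K F (a j) * b j := h σ
  rw [Finset.smul_sum] at h1
  have h2 : ∑ j ∈ a.support, (SemilinearAut.baseAut (A.ρ σ) (a j) - a j) • b j = 0 := by
    simp only [Algebra.smul_def, map_sub, sub_mul, Finset.sum_sub_distrib]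
    rw [sub_eq_zero, ← h1]
    apply Finset.sum_congr rfl
    intro j _
    rw [smul_mul', SemilinearAut.smul_algebraMap, hinv j σ]
  have h3 := linearIndependent_iff'.1 hb a.support _ h2
  by_cases hi : i ∈ a.support
  · exact sub_eq_zero.1 (h3 i hi)
  · rw [Finsupp.notMem_support_iff.1 hi, map_zero]

end QAction

end Fermat.Agent.S17.FF
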