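import Fermat.Agent.S17.FF.Basic

/-! # S17-FF, file `LSpace`: finite dimensionality and elementary estimates for `L(D)`. -/

set_option autoImplicit false
set_option linter.unusedSectionVars false

noncomputable section

namespace Fermat.Agent.S17.FF

open AlgebraicCurve Fermat.Agent.S24.Zeros

variable {K F : Type*} [Field K] [Field F] [Algebra K F] [IsAlgClosed K] [CharZero K] [IsFF K F]

theorem mem_LSpace_of_ne_zero {D : Divisor K F} {f : F} (hf : f ≠ 0) :
    f ∈ LSpace D ↔ 0 ≤ divf f + D := by
  rw [mem_LSpace, Finsupp.le_def]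
  constructor
  · rintro (h | h) v
    · exact absurd h hf
    · have := h v
      rw [Finsupp.add_apply, divf_apply, Finsupp.zero_apply]
      omega
  · intro h
    refine Or.inr fun v => ?_
    have := h v
    rw [Finsupp.add_apply, divf_apply, Finsupp.zero_apply] at this
    omega

theorem LSpace_mono {D E : Divisor K F} (h : D ≤ E) : LSpace D ≤ LSpace E := by
  rintro f (hf | hf)
  · exact Or.inl hf
  · refine Or.inr fun v => ?_
    have h1 := hf v
    have h2 := Finsupp.le_def.1 h v
    omega

theorem LSpace_eq_bot_of_degree_neg {D : Divisor K F} (h : Divisor.degree D < 0) :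
    LSpace D = ⊥ := by
  rw [eq_bot_iff]
  intro f hf
  rw [Submodule.mem_bot]
  by_contra hf0
  have h1 := degree_mono ((mem_LSpace_of_ne_zero hf0).1 hf)
  rw [map_zero, map_add, degree_divf, zero_add] at h1
  omega

theorem mem_LSpace_zero {f : F} : f ∈ LSpace (0 : Divisor K F) ↔ ∃ c : K, f = algebraMap K F c := by
  constructor
  · rintro (rfl | h)
    · exact ⟨0, (map_zero _).symm⟩
    · exact exists_const_of_ord_nonneg fun v => by simpa using h v
  · rintro ⟨c, rfl⟩
    refine Or.inr fun v => ?_
    rw [ord_algebraMap]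
    simp

theorem LSpace_ord_mul_zpow_nonneg (D : Divisor K F) (v : Place K F) {π : F} (hπ : v.ord π = 1)
    {f : F} (hf : f ∈ LSpace (D + Finsupp.single v 1)) : 0 ≤ v.ord (f * π ^ (D v + 1)) := by
  have hπ0 : π ≠ 0 := by
    rintro rfl
    simp at hπ
  rcases hf with rfl | hf
  · simp
  by_cases hf0 : f = 0
  · simp [hf0]
  rw [v.ord_mul hf0 (zpow_ne_zero _ hπ0), v.ord_zpow, hπ, mul_one]
  have := hf v
  rw [Finsupp.add_apply, Finsupp.single_eq_same] at this
  omega

/-- the "leading coefficient at `v`" functional on `L(D + v)`, with kernel `L(D)`. -/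
theorem exists_functional (D : Divisor K F) (v : Place K F) :
    ∃ φ : LSpace (D + Finsupp.single v 1) →ₗ[K] K, ∀ f, φ f = 0 ↔ (f : F) ∈ LSpace D := by
  obtain ⟨π, hπ⟩ := exists_uniformizer v
  have hπ0 : π ≠ 0 := by
    rintro rfl
    simp at hπ
  refine ⟨{ toFun := fun f => val v ((f : F) * π ^ (D v + 1))
            map_add' := ?_
            map_smul' := ?_ }, ?_⟩
  · intro f g
    rw [Submodule.coe_add, add_mul]
    exact val_add v (LSpace_ord_mul_zpow_nonneg D v hπ f.2) (LSpace_ord_mul_zpow_nonneg D v hπ g.2)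
  · intro c f
    rw [Submodule.coe_smul, Algebra.smul_def, mul_assoc,
      val_mul v (by rw [ord_algebraMap]) (LSpace_ord_mul_zpow_nonneg D v hπ f.2), val_algebraMap]
    rfl
  · intro f
    change val v ((f : F) * π ^ (D v + 1)) = 0 ↔ _
    rw [val_eq_zero_iff v (LSpace_ord_mul_zpow_nonneg D v hπ f.2)]
    by_cases hf0 : (f : F) = 0
    · simp [hf0]
    have hf := f.2
    rw [v.ord_mul hf0 (zpow_ne_zero _ hπ0), v.ord_zpow, hπ, mul_one, mem_LSpace]
    constructor
    · rintro (h | h)
      · exact absurd h (mul_ne_zero hf0 (zpow_ne_zero _ hπ0))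
      · refine Or.inr fun w => ?_
        by_cases hw : w = v
        · subst hw
          omega
        · rcases hf with hf | hf
          · exact absurd hf hf0
          have := hf w
          rwa [Finsupp.add_apply, Finsupp.single_eq_of_ne hw, add_zero] at this
    · rintro (h | h)
      · exact absurd h hf0
      · have := h v
        right
        omega

theorem LSpace_add_single_le (D : Divisor K F) (v : Place K F) :
    ∃ f₀ : F, LSpace (D + Finsupp.single v 1) ≤ LSpace D ⊔ Submodule.span K {f₀} := by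
  obtain ⟨φ, hφ⟩ := exists_functional D v
  by_cases h : ∃ f₀, φ f₀ ≠ 0
  · obtain ⟨f₀, hf₀⟩ := h
    refine ⟨f₀, fun f hf => ?_⟩
    have h1 : φ (⟨f, hf⟩ - (φ ⟨f, hf⟩ / φ f₀) • f₀) = 0 := by
      rw [map_sub, map_smul, smul_eq_mul, div_mul_cancel₀ _ hf₀, sub_self]
    have h2 := (hφ _).1 h1
    have h3 : f = (f - (φ ⟨f, hf⟩ / φ f₀) • (f₀ : F)) + (φ ⟨f, hf⟩ / φ f₀) • (f₀ : F) := by ring
    rw [h3]
    exact Submodule.add_mem_sup h2 (Submodule.smul_mem _ _ (Submodule.mem_span_singleton_self _))
  · have h' : ∀ f₀, φ f₀ = 0 := fun f₀ => by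
      by_contra hne
      exact h ⟨f₀, hne⟩
    exact ⟨0, fun f hf => Submodule.mem_sup_left ((hφ ⟨f, hf⟩).1 (h' _))⟩

/-- The divisor attached to an effective divisor with natural number coefficients. -/
def LSpace_cast : (Place K F →₀ ℕ) →+ Divisor K F :=
  Finsupp.mapRange.addMonoidHom (Nat.castAddMonoidHom ℤ)

theorem LSpace_cast_apply (G : Place K F →₀ ℕ) (v : Place K F) :
    LSpace_cast G v = (G v : ℤ) := rfl

theorem LSpace_cast_single (v : Place K F) (n : ℕ) :
    LSpace_cast (Finsupp.single v n) = Finsupp.single v (n : ℤ) := by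
  unfold LSpace_cast
  simp

theorem LSpace_exists_cast {G : Divisor K F} (h : 0 ≤ G) :
    ∃ G' : Place K F →₀ ℕ, LSpace_cast G' = G := by
  refine ⟨G.mapRange Int.toNat rfl, ?_⟩
  ext v
  rw [LSpace_cast_apply, Finsupp.mapRange_apply]
  exact Int.toNat_of_nonneg (Finsupp.le_def.1 h v)

theorem LSpace_le_cast (D : Divisor K F) : D ≤ LSpace_cast (D.mapRange Int.toNat rfl) := by
  rw [Finsupp.le_def]
  intro v
  rw [LSpace_cast_apply, Finsupp.mapRange_apply]
  exact Int.self_le_toNat _

theorem LSpace_finiteDimensional_add_single (D : Divisor K F) (v : Place K F)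
    (h : FiniteDimensional K (LSpace D)) :
    FiniteDimensional K (LSpace (D + Finsupp.single v 1)) := by
  obtain ⟨f₀, hf₀⟩ := LSpace_add_single_le D v
  exact Submodule.finiteDimensional_of_le hf₀

theorem LSpace_finiteDimensional_add_cast (G : Place K F →₀ ℕ) :
    ∀ D : Divisor K F, FiniteDimensional K (LSpace D) →
      FiniteDimensional K (LSpace (D + LSpace_cast G)) := by
  induction G using Finsupp.induction_linear with
  | zero =>
    intro D h
    rwa [map_zero, add_zero]
  | add f g hf hg =>
    intro D h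
    rw [map_add, ← add_assoc]
    exact hg _ (hf _ h)
  | single v n =>
    intro D h
    rw [LSpace_cast_single]
    induction n with
    | zero =>
      rw [Nat.cast_zero, Finsupp.single_zero, add_zero]
      exact h
    | succ n ih =>
      rw [Nat.cast_succ, Finsupp.single_add, ← add_assoc]
      exact LSpace_finiteDimensional_add_single _ _ ih

theorem LSpace_zero_eq : LSpace (0 : Divisor K F) = Submodule.span K {(1 : F)} := by
  ext f
  rw [mem_LSpace_zero, Submodule.mem_span_singleton]
  constructor
  · rintro ⟨c, rfl⟩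
    exact ⟨c, by rw [Algebra.smul_def, mul_one]⟩
  · rintro ⟨c, rfl⟩
    exact ⟨c, by rw [Algebra.smul_def, mul_one]⟩

instance finiteDimensional_LSpace (D : Divisor K F) : FiniteDimensional K (LSpace D) := by
  have h0 : FiniteDimensional K (LSpace (0 : Divisor K F)) := by
    rw [LSpace_zero_eq]
    infer_instance
  have h1 := LSpace_finiteDimensional_add_cast (D.mapRange Int.toNat rfl) 0 h0
  rw [zero_add] at h1
  exact Submodule.finiteDimensional_of_le (LSpace_mono (LSpace_le_cast D))

theorem ell_mono {D E : Divisor K F} (h : D ≤ E) : ell D ≤ ell E :=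
  Submodule.finrank_mono (LSpace_mono h)

theorem ell_add_single_le (D : Divisor K F) (v : Place K F) :
    ell (D + Finsupp.single v 1) ≤ ell D + 1 := by
  obtain ⟨f₀, hf₀⟩ := LSpace_add_single_le D v
  calc ell (D + Finsupp.single v 1)
      ≤ Module.finrank K ↥(LSpace D ⊔ Submodule.span K {f₀}) := Submodule.finrank_mono hf₀
    _ ≤ Module.finrank K (LSpace D) + Module.finrank K (Submodule.span K {f₀}) :=
        Submodule.finrank_add_le_finrank_add_finrank _ _
    _ ≤ ell D + 1 := by
        refine Nat.add_le_add_left ?_ _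
        exact (finrank_span_le_card ({f₀} : Set F)).trans (by simp)

theorem ell_zero : ell (0 : Divisor K F) = 1 := by
  unfold ell
  rw [LSpace_zero_eq]
  exact finrank_span_singleton one_ne_zero

theorem ell_eq_zero_of_degree_neg {D : Divisor K F} (h : Divisor.degree D < 0) : ell D = 0 := by
  unfold ell
  rw [LSpace_eq_bot_of_degree_neg h]
  exact finrank_bot K F

theorem ell_pos_iff {D : Divisor K F} : 0 < ell D ↔ ∃ f ∈ LSpace D, f ≠ 0 := by
  unfold ell
  rw [Module.finrank_pos_iff_exists_ne_zero]
  constructor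
  · rintro ⟨x, hx⟩
    exact ⟨x, x.2, fun h => hx (Subtype.ext h)⟩
  · rintro ⟨f, hf, hf0⟩
    exact ⟨⟨f, hf⟩, fun h => hf0 (congrArg Subtype.val h)⟩

theorem LSpace_ell_add_cast_le (G : Place K F →₀ ℕ) :
    ∀ D : Divisor K F, (ell (D + LSpace_cast G) : ℤ) ≤ ell D + Divisor.degree (LSpace_cast G) := by
  induction G using Finsupp.induction_linear with
  | zero =>
    intro D
    simp
  | add f g hf hg =>
    intro D
    rw [map_add, ← add_assoc, map_add]
    have h1 := hg (D + LSpace_cast f)
    have h2 := hf D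
    omega
  | single v n =>
    intro D
    rw [LSpace_cast_single, degree_single']
    induction n with
    | zero => simp
    | succ n ih =>
      rw [Nat.cast_succ, Finsupp.single_add, ← add_assoc]
      have := ell_add_single_le (D + Finsupp.single v (n : ℤ)) v
      omega

/-- `deg D - ℓ(D)` is monotone. -/
theorem ell_le_ell_add_degree {D E : Divisor K F} (h : D ≤ E) :
    (ell E : ℤ) ≤ ell D + (Divisor.degree E - Divisor.degree D) := by
  obtain ⟨G, hG⟩ := LSpace_exists_cast (sub_nonneg.2 h)
  have h1 := LSpace_ell_add_cast_le G D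
  rw [hG, add_sub_cancel, map_sub] at h1
  exact h1

/-- multiplication by a nonzero function, as a `K`-linear equivalence. -/
def LSpace_mulEquiv (f : F) (hf : f ≠ 0) : F ≃ₗ[K] F :=
  LinearEquiv.ofLinearMap (LinearMap.mulLeft K f) (LinearMap.mulLeft K f⁻¹)
    (LinearMap.ext fun x => by simp [hf]) (LinearMap.ext fun x => by simp [hf])

theorem LSpace_mulEquiv_apply (f : F) (hf : f ≠ 0) (x : F) :
    LSpace_mulEquiv (K := K) f hf x = f * x := rfl

theorem LSpace_mul_mem_iff (D : Divisor K F) {f : F} (hf : f ≠ 0) (g : F) :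
    f * g ∈ LSpace D ↔ g ∈ LSpace (D + divf f) := by
  by_cases hg : g = 0
  · simp [hg]
  rw [mem_LSpace_of_ne_zero (mul_ne_zero hf hg), mem_LSpace_of_ne_zero hg, divf_mul hf hg]
  have : divf f + divf g + D = divf g + (D + divf f) := by abel
  rw [this]

theorem ell_add_divf (D : Divisor K F) {f : F} (hf : f ≠ 0) : ell (D + divf f) = ell D := by
  unfold ell
  have hmap : (LSpace (D + divf f)).map
      ((LSpace_mulEquiv (K := K) f hf : F ≃ₗ[K] F) : F →ₗ[K] F) = LSpace D := by
    ext x
    rw [Submodule.mem_map]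
    constructor
    · rintro ⟨g, hg, rfl⟩
      exact (LSpace_mul_mem_iff D hf g).2 hg
    · intro hx
      refine ⟨f⁻¹ * x, (LSpace_mul_mem_iff D hf _).1 ?_, ?_⟩
      · rwa [mul_inv_cancel_left₀ hf]
      · exact mul_inv_cancel_left₀ hf x
  rw [← hmap, LinearEquiv.finrank_map_eq]

theorem ell_le_degree_add_one {D : Divisor K F} (h : 0 ≤ Divisor.degree D) :
    (ell D : ℤ) ≤ Divisor.degree D + 1 := by
  by_cases h0 : 0 < ell D
  · obtain ⟨f, hf, hf0⟩ := ell_pos_iff.1 h0
    have h1 : (0 : Divisor K F) ≤ D + divf f := by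
      rw [add_comm]
      exact (mem_LSpace_of_ne_zero hf0).1 hf
    have h2 := ell_le_ell_add_degree h1
    rw [ell_add_divf D hf0, ell_zero, map_add, degree_divf, map_zero] at h2
    omega
  · omega

end Fermat.Agent.S17.FF
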