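import Fermat.Agent.S17.FF.Ramified

/-! # S17-FF, file `Pencil`: the generic member of a pencil is reduced outside the base locus. -/

set_option autoImplicit false
set_option linter.unusedSectionVars false

noncomputable section

namespace Fermat.Agent.S17.FF

open AlgebraicCurve Fermat.Agent.S24.Zeros

variable {K F : Type*} [Field K] [Field F] [Algebra K F] [IsAlgClosed K] [CharZero K] [IsFF K F]

/-- the local analysis of a member of the pencil. -/
theorem Pencil_key (s t : F) (h : Transcendental K (s / t)) (lam : K) (v : Place K F)
    (hv : min (v.ord s) (v.ord t) < v.ord (s + algebraMap K F lam * t)) :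
    0 ≤ v.ord (s / t) ∧ lam = -val v (s / t) ∧ min (v.ord s) (v.ord t) = v.ord t ∧
      v.ord (s + algebraMap K F lam * t) =
        v.ord t + v.ord (s / t - algebraMap K F (val v (s / t))) := by
  have ht : t ≠ 0 := by
    rintro rfl
    apply h
    rw [div_zero]
    exact isAlgebraic_zero
  have hs : s ≠ 0 := by
    rintro rfl
    apply h
    rw [zero_div]
    exact isAlgebraic_zero
  set φ : F := s / t with hφ
  have hφ0 : φ ≠ 0 := div_ne_zero hs ht
  have hφl : φ + algebraMap K F lam ≠ 0 := by
    intro h0
    apply h
    have : φ = algebraMap K F (-lam) := by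
      rw [map_neg]
      exact eq_neg_of_add_eq_zero_left h0
    rw [this]
    exact isAlgebraic_algebraMap _
  have hst : s + algebraMap K F lam * t = t * (φ + algebraMap K F lam) := by
    rw [hφ]
    field_simp
  have hordφ : v.ord φ = v.ord s - v.ord t := by
    rw [hφ, div_eq_mul_inv, v.ord_mul hs (inv_ne_zero ht), v.ord_inv]
    ring
  have hord : v.ord (s + algebraMap K F lam * t) = v.ord t + v.ord (φ + algebraMap K F lam) := by
    rw [hst, v.ord_mul ht hφl]
  by_cases hneg : v.ord φ < 0
  · exfalso
    have h1 : v.ord (φ + algebraMap K F lam) = v.ord φ :=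
      ord_add_eq_of_lt v (by rw [ord_algebraMap]; exact hneg) hφ0
    rw [hord, h1, hordφ] at hv
    have h2 : min (v.ord s) (v.ord t) = v.ord s := min_eq_left (by omega)
    rw [h2] at hv
    omega
  · rw [not_lt] at hneg
    have h2 : min (v.ord s) (v.ord t) = v.ord t := min_eq_right (by omega)
    have h3 : 0 < v.ord (φ + algebraMap K F lam) := by
      rw [hord, h2] at hv
      omega
    have h4 : val v φ = -lam := by
      rw [val_eq_iff v hneg]
      right
      rw [map_neg, sub_neg_eq_add]
      exact h3
    refine ⟨hneg, by rw [h4, neg_neg], h2, ?_⟩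
    rw [hord, h4, map_neg, sub_neg_eq_add]

/-- for all but finitely many `lam` the function `s + lam t` vanishes at most simply beyond the
base locus of the pencil. -/
theorem finite_bad_pencil (s t : F) (h : Transcendental K (s / t)) :
    {lam : K | ∃ v : Place K F,
      min (v.ord s) (v.ord t) + 1 < v.ord (s + algebraMap K F lam * t)}.Finite := by
  refine ((finite_ramified h).image fun v => -val v (s / t)).subset ?_
  rintro lam ⟨v, hv⟩
  obtain ⟨h1, h2, h3, h4⟩ := Pencil_key s t h lam v (by omega)
  refine ⟨v, ⟨h1, ?_⟩, h2.symm⟩
  rw [h3, h4] at hv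
  omega

/-- for all but finitely many `lam` the function `s + lam t` does not vanish beyond the base locus
at the places of a given finite set. -/
theorem finite_bad_pencil_at (s t : F) (h : Transcendental K (s / t)) (S : Finset (Place K F)) :
    {lam : K | ∃ v ∈ S, min (v.ord s) (v.ord t) < v.ord (s + algebraMap K F lam * t)}.Finite := by
  refine (S.finite_toSet.image fun v => -val v (s / t)).subset ?_
  rintro lam ⟨v, hvS, hv⟩
  obtain ⟨-, h2, -, -⟩ := Pencil_key s t h lam v hv
  exact ⟨v, hvS, h2.symm⟩

end Fermat.Agent.S17.FF
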