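import Fermat.Agent.S17.FF.PoleBasis

/-! # S17-FF, file `PoleReduced`: reduced echelon form of a pole basis with respect to an expansion at `∞`. -/

set_option autoImplicit false
set_option linter.unusedSectionVars false

noncomputable section

namespace Fermat.Agent.S17.FF

open AlgebraicCurve Fermat.Agent.S24.Zeros

variable {K F : Type*} [Field K] [Field F] [Algebra K F] [IsAlgClosed K] [CharZero K] [IsFF K F]
variable {oo : Place K F} {e : ℕ → F}

variable {φ : F →+* LaurentSeries K}

/-- an element of `A` whose expansion has zero coefficient at all the pole orders is `0`. -/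
theorem IsPoleBasis.eq_zero_of_coeff (he : IsPoleBasis oo e)
    (hφ : ∀ f : F, f ≠ 0 → (φ f).order = oo.ord f) {f : F} (hf : f ∈ affRing oo)
    (h : ∀ j, (φ f).coeff (oo.ord (e j)) = 0) : f = 0 := by
  by_contra hf0
  obtain ⟨i, hi⟩ := he.surj f hf hf0
  have h1 := h i
  rw [← hi, ← hφ f hf0, HahnSeries.coeff_order_eq_zero] at h1
  exact hf0 ((map_eq_zero φ).1 h1)

/-- the order is characterised by the coefficients. -/
theorem PoleReduced_ord_eq (hφ : ∀ f : F, f ≠ 0 → (φ f).order = oo.ord f) {f : F} {o : ℤ}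
    (h1 : (φ f).coeff o ≠ 0) (h2 : ∀ x < o, (φ f).coeff x = 0) : f ≠ 0 ∧ oo.ord f = o := by
  have hf0 : f ≠ 0 := by
    rintro rfl
    simp at h1
  refine ⟨hf0, ?_⟩
  rw [← hφ f hf0]
  apply le_antisymm (HahnSeries.order_le_of_coeff_ne_zero h1)
  by_contra hlt
  push Not at hlt
  have := h2 _ hlt
  rw [HahnSeries.coeff_order_eq_zero] at this
  exact hf0 ((map_eq_zero φ).1 this)

theorem PoleReduced_coeff_mul (hC : ∀ a : K, φ (algebraMap K F a) = HahnSeries.C a) (a : K) (f : F)
    (x : ℤ) : (φ (algebraMap K F a * f)).coeff x = a * (φ f).coeff x := by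
  rw [map_mul, hC, HahnSeries.C_mul_eq_smul, HahnSeries.coeff_smul, smul_eq_mul]

/-- the reduced echelon basis. -/
theorem exists_reduced_isPoleBasis (oo : Place K F) (φ : F →+* LaurentSeries K)
    (hC : ∀ a : K, φ (algebraMap K F a) = HahnSeries.C a)
    (hφ : ∀ f : F, f ≠ 0 → (φ f).order = oo.ord f) :
    ∃ e : ℕ → F, IsPoleBasis oo e ∧
      ∀ i j, (φ (e i)).coeff (oo.ord (e j)) = if i = j then 1 else 0 := by
  obtain ⟨e, he⟩ := exists_isPoleBasis oo
  have hlt : ∀ {i j : ℕ}, i < j → oo.ord (e j) < oo.ord (e i) := fun h => by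
    have := he.strictMono h
    simpa using this
  -- the monic basis
  have hc : ∀ j, (φ (e j)).coeff (oo.ord (e j)) ≠ 0 := fun j => by
    rw [← hφ _ (he.ne_zero j), Ne, HahnSeries.coeff_order_eq_zero, map_eq_zero]
    exact he.ne_zero j
  have hlow : ∀ j x, x < oo.ord (e j) → (φ (e j)).coeff x = 0 := fun j x hx => by
    apply HahnSeries.coeff_eq_zero_of_lt_order
    rwa [hφ _ (he.ne_zero j)]
  set g : ℕ → F := fun j => algebraMap K F ((φ (e j)).coeff (oo.ord (e j)))⁻¹ * e j with hg
  have hgmem : ∀ j, g j ∈ affRing oo := fun j =>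
    mul_mem ((affRing oo).algebraMap_mem _) (he.mem j)
  have hg1 : ∀ j, (φ (g j)).coeff (oo.ord (e j)) = 1 := fun j => by
    rw [hg, PoleReduced_coeff_mul hC, inv_mul_cancel₀ (hc j)]
  have hglow : ∀ j x, x < oo.ord (e j) → (φ (g j)).coeff x = 0 := fun j x hx => by
    rw [hg, PoleReduced_coeff_mul hC, hlow j x hx, mul_zero]
  -- elimination
  have key : ∀ i n, n ≤ i → ∃ f, f ∈ affRing oo ∧ (φ f).coeff (oo.ord (e i)) = 1 ∧
      (∀ x < oo.ord (e i), (φ f).coeff x = 0) ∧
      ∀ j, i - n ≤ j → j < i → (φ f).coeff (oo.ord (e j)) = 0 := by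
    intro i n
    induction n with
    | zero =>
        intro _
        exact ⟨g i, hgmem i, hg1 i, hglow i, fun j h1 h2 => by omega⟩
    | succ n ih =>
        intro hn
        obtain ⟨f, hfm, hf1, hflow, hf0⟩ := ih (by omega)
        set m := i - (n + 1) with hm
        have hmi : m < i := by omega
        refine ⟨f - algebraMap K F ((φ f).coeff (oo.ord (e m))) * g m,
          sub_mem hfm (mul_mem ((affRing oo).algebraMap_mem _) (hgmem m)), ?_, ?_, ?_⟩
        · rw [map_sub, HahnSeries.coeff_sub, PoleReduced_coeff_mul hC, hf1,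
            hglow m _ (hlt hmi), mul_zero, sub_zero]
        · intro x hx
          rw [map_sub, HahnSeries.coeff_sub, PoleReduced_coeff_mul hC, hflow x hx,
            hglow m _ (hx.trans (hlt hmi)), mul_zero, sub_zero]
        · intro j hj1 hj2
          rw [map_sub, HahnSeries.coeff_sub, PoleReduced_coeff_mul hC]
          rcases Nat.eq_or_lt_of_le hj1 with h | h
          · rw [← h, hg1, mul_one, sub_self]
          · rw [hf0 j (by omega) hj2, hglow m _ (hlt h), mul_zero, sub_zero]
  choose e' he'm he'1 he'low he'0 using fun i => key i i le_rfl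
  have hord : ∀ i, e' i ≠ 0 ∧ oo.ord (e' i) = oo.ord (e i) := fun i =>
    PoleReduced_ord_eq hφ (by rw [he'1 i]; exact one_ne_zero) (he'low i)
  have hcoef : ∀ i j, (φ (e' i)).coeff (oo.ord (e j)) = if i = j then 1 else 0 := by
    intro i j
    rcases lt_trichotomy i j with h | h | h
    · rw [if_neg h.ne, he'low i _ (hlt h)]
    · rw [if_pos h, ← h, he'1]
    · rw [if_neg h.ne', he'0 i j (by omega) h]
  refine ⟨e', ⟨?_, he'm, fun i => (hord i).1, ?_, ?_⟩, ?_⟩
  · have h0 : e' 0 - 1 = 0 := by
      refine he.eq_zero_of_coeff hφ (sub_mem (he'm 0) (one_mem _)) (fun j => ?_)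
      have h1 : (φ (e 0)).coeff (oo.ord (e j)) = if 0 = j then 1 else 0 := by
        rcases Nat.eq_zero_or_pos j with h | h
        · subst h
          have := hg1 0
          rw [if_pos rfl]
          have h2 : oo.ord (e 0) = 0 := by rw [he.zero]; simp
          rw [h2, he.zero, map_one, HahnSeries.coeff_one, if_pos rfl]
        · rw [if_neg h.ne, hlow 0 _ (hlt h)]
      rw [map_sub, HahnSeries.coeff_sub, hcoef, ← he.zero, h1, sub_self]
    exact sub_eq_zero.1 h0
  · have : (fun i => -oo.ord (e' i)) = fun i => -oo.ord (e i) := by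
      funext i; rw [(hord i).2]
    rw [this]; exact he.strictMono
  · intro f hf hf0
    obtain ⟨i, hi⟩ := he.surj f hf hf0
    exact ⟨i, by rw [hi, (hord i).2]⟩
  · intro i j
    rw [(hord j).2, hcoef]

/-- the reduced echelon basis is unique. -/
theorem reduced_isPoleBasis_unique (hφ : ∀ f : F, f ≠ 0 → (φ f).order = oo.ord f)
    {e e' : ℕ → F} (he : IsPoleBasis oo e) (he' : IsPoleBasis oo e')
    (h : ∀ i j, (φ (e i)).coeff (oo.ord (e j)) = if i = j then 1 else 0)
    (h' : ∀ i j, (φ (e' i)).coeff (oo.ord (e' j)) = if i = j then 1 else 0) : e = e' := by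
  have hrange : Set.range (fun i => -oo.ord (e i)) = Set.range (fun i => -oo.ord (e' i)) := by
    ext x
    constructor
    · rintro ⟨i, rfl⟩
      obtain ⟨j, hj⟩ := he'.surj (e i) (he.mem i) (he.ne_zero i)
      exact ⟨j, by simp only [hj]⟩
    · rintro ⟨i, rfl⟩
      obtain ⟨j, hj⟩ := he.surj (e' i) (he'.mem i) (he'.ne_zero i)
      exact ⟨j, by simp only [hj]⟩
  have hfun := (StrictMono.range_inj he.strictMono he'.strictMono).1 hrange
  have hord : ∀ i, oo.ord (e i) = oo.ord (e' i) := fun i => by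
    have := congrFun hfun i
    simpa using this
  funext i
  have h0 : e i - e' i = 0 := by
    refine he.eq_zero_of_coeff hφ (sub_mem (he.mem i) (he'.mem i)) (fun j => ?_)
    rw [map_sub, HahnSeries.coeff_sub, h, hord j, h', sub_self]
  exact sub_eq_zero.1 h0

end Fermat.Agent.S17.FF
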