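import Fermat.Agent.S17.FF.Semi

/-! # S17-FF (module GAL), file `QAction`: a group acting semilinearly on a function field,
compatibly with an expansion at the place `∞` ("rational structure"). -/

set_option autoImplicit false
set_option linter.unusedSectionVars false

noncomputable section

namespace Fermat.Agent.S17.FF

open AlgebraicCurve Fermat.Agent.S24.Zeros

/-- a group `G` acting semilinearly on `F / K`, and an expansion `φ : F → K((q))` at the place `∞`
such that `G` acts on expansions coefficientwise. -/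
structure QAction (G K F : Type*) [Group G] [Field K] [Field F] [Algebra K F]
    (oo : Place K F) where
  ρ : G →* SemilinearAut K F
  φ : F →+* LaurentSeries K
  φ_C : ∀ a : K, φ (algebraMap K F a) = HahnSeries.C a
  order_φ : ∀ f : F, f ≠ 0 → (φ f).order = oo.ord f
  coeff_φ_smul : ∀ (σ : G) (f : F) (n : ℤ),
    (φ (ρ σ • f)).coeff n = SemilinearAut.baseAut (ρ σ) ((φ f).coeff n)

variable {G K F : Type*} [Group G] [Field K] [Field F] [Algebra K F] [IsAlgClosed K] [CharZero K]
  [IsFF K F] {oo : Place K F} (A : QAction G K F oo)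

namespace QAction

/-- `f` is rational (= invariant). -/
def Inv (f : F) : Prop := ∀ σ : G, A.ρ σ • f = f

/-- `a ∈ K` is rational. -/
def InvK (a : K) : Prop := ∀ σ : G, SemilinearAut.baseAut (A.ρ σ) a = a

theorem φ_injective : Function.Injective A.φ := A.φ.injective

theorem ord_oo_smul (σ : G) (f : F) : oo.ord (A.ρ σ • f) = oo.ord f := by
  by_cases hf : f = 0
  · rw [hf, smul_zero]
  have hf' : A.ρ σ • f ≠ 0 := fun h => hf ((smul_eq_zero_iff' _ f).1 h)
  have h0 : A.φ f ≠ 0 := fun h => hf (A.φ_injective (by rw [h, map_zero]))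
  have h0' : A.φ (A.ρ σ • f) ≠ 0 := fun h => hf' (A.φ_injective (by rw [h, map_zero]))
  rw [← A.order_φ _ hf', ← A.order_φ _ hf]
  have hsupp : (A.φ (A.ρ σ • f)).support = (A.φ f).support := by
    ext n
    rw [HahnSeries.mem_support, HahnSeries.mem_support, A.coeff_φ_smul, Ne, Ne,
      map_eq_zero_iff _ (SemilinearAut.baseAut (A.ρ σ)).injective]
  rw [HahnSeries.order_of_ne h0', HahnSeries.order_of_ne h0]
  congr 1

/-- `∞` is a rational point. -/
theorem smul_oo (σ : G) : A.ρ σ • oo = oo := by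
  refine place_ext_ord fun f => ?_
  rw [ord_smul_eq, ← map_inv, A.ord_oo_smul]

theorem inv_iff_coeff (f : F) : A.Inv f ↔ ∀ n, A.InvK ((A.φ f).coeff n) := by
  constructor
  · intro h n σ
    rw [← A.coeff_φ_smul, h σ]
  · intro h σ
    apply A.φ_injective
    ext n
    rw [A.coeff_φ_smul, h n σ]

theorem invK_ratCast (q : ℚ) : A.InvK (q : K) := by
  intro σ
  exact map_ratCast _ q

theorem invK_zero : A.InvK 0 := by
  intro σ
  exact map_zero _

theorem invK_one : A.InvK 1 := by
  intro σ
  exact map_one _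

theorem InvK.add {a b : K} (ha : A.InvK a) (hb : A.InvK b) : A.InvK (a + b) := by
  intro σ
  rw [map_add, ha σ, hb σ]

theorem InvK.mul {a b : K} (ha : A.InvK a) (hb : A.InvK b) : A.InvK (a * b) := by
  intro σ
  rw [map_mul, ha σ, hb σ]

theorem InvK.neg {a : K} (ha : A.InvK a) : A.InvK (-a) := by
  intro σ
  rw [map_neg, ha σ]

theorem InvK.inv {a : K} (ha : A.InvK a) : A.InvK a⁻¹ := by
  intro σ
  rw [map_inv₀, ha σ]

theorem inv_algebraMap_iff (a : K) : A.Inv (algebraMap K F a) ↔ A.InvK a := by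
  constructor
  · intro h σ
    have h1 := h σ
    rw [SemilinearAut.smul_algebraMap] at h1
    exact (algebraMap K F).injective h1
  · intro h σ
    rw [SemilinearAut.smul_algebraMap, h σ]

theorem inv_zero : A.Inv 0 := by
  intro σ
  exact smul_zero _

theorem inv_one : A.Inv 1 := by
  intro σ
  exact smul_one _

theorem Inv.add {f g : F} (hf : A.Inv f) (hg : A.Inv g) : A.Inv (f + g) := by
  intro σ
  rw [smul_add, hf σ, hg σ]

theorem Inv.mul {f g : F} (hf : A.Inv f) (hg : A.Inv g) : A.Inv (f * g) := by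
  intro σ
  rw [smul_mul', hf σ, hg σ]

theorem Inv.neg {f : F} (hf : A.Inv f) : A.Inv (-f) := by
  intro σ
  rw [smul_neg, hf σ]

theorem Inv.sub {f g : F} (hf : A.Inv f) (hg : A.Inv g) : A.Inv (f - g) := by
  intro σ
  rw [smul_sub, hf σ, hg σ]

theorem Inv.inv {f : F} (hf : A.Inv f) : A.Inv f⁻¹ := by
  intro σ
  rw [smul_inv'', hf σ]

theorem Inv.sum {ι : Type*} (s : Finset ι) {f : ι → F} (hf : ∀ i ∈ s, A.Inv (f i)) :
    A.Inv (∑ i ∈ s, f i) := by
  intro σ
  rw [Finset.smul_sum]
  exact Finset.sum_congr rfl fun i hi => hf i hi σ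

/-- the value of a rational function at a conjugate point. -/
theorem Inv.val_smul {f : F} (hf : A.Inv f) (σ : G) (v : Place K F) :
    val (A.ρ σ • v) f = SemilinearAut.baseAut (A.ρ σ) (val v f) := by
  have h := FF.val_smul (A.ρ σ) v f
  rwa [hf σ] at h

theorem Inv.ord_smul {f : F} (hf : A.Inv f) (σ : G) (v : Place K F) :
    (A.ρ σ • v).ord f = v.ord f := by
  have h := SemilinearAut.ord_smul (A.ρ σ) v f
  rwa [hf σ] at h

theorem Inv.smul_divf {f : F} (hf : A.Inv f) (σ : G) : A.ρ σ • divf (K := K) f = divf f := by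
  rw [← divf_smul, hf σ]

/-- a function with a rational divisor is rational up to a constant
(normalise the leading coefficient). -/
theorem exists_inv_of_smul_divf {f : F} (hf : f ≠ 0)
    (h : ∀ σ : G, A.ρ σ • divf (K := K) f = divf f) :
    ∃ c : K, c ≠ 0 ∧ A.Inv (algebraMap K F c * f) := by
  have h0 : A.φ f ≠ 0 := fun h => hf (A.φ_injective (by rw [h, map_zero]))
  have hlc : (A.φ f).coeff (oo.ord f) ≠ 0 := by
    rw [← A.order_φ f hf]
    exact fun h => h0 (HahnSeries.coeff_order_eq_zero.1 h)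
  set c : K := ((A.φ f).coeff (oo.ord f))⁻¹ with hc
  have hc0 : c ≠ 0 := inv_ne_zero hlc
  have hcF : algebraMap K F c ≠ 0 := by simpa using hc0
  refine ⟨c, hc0, fun σ => ?_⟩
  set g : F := algebraMap K F c * f with hg
  have hg0 : g ≠ 0 := mul_ne_zero hcF hf
  have hdg : divf (K := K) g = divf f := by
    rw [hg, divf_mul hcF hf, divf_algebraMap, zero_add]
  have hcoeff : (A.φ g).coeff (oo.ord f) = 1 := by
    rw [hg, map_mul, A.φ_C, HahnSeries.C_mul_eq_smul, HahnSeries.coeff_smul, smul_eq_mul, hc,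
      inv_mul_cancel₀ hlc]
  have hσg0 : A.ρ σ • g ≠ 0 := fun h => hg0 ((smul_eq_zero_iff' _ g).1 h)
  have hdσ : divf (K := K) (A.ρ σ • g) = divf g := by
    rw [divf_smul, hdg, h σ]
  obtain ⟨a, ha⟩ := exists_const_of_ord_nonneg (K := K) (f := (A.ρ σ • g) * g⁻¹) (fun v => by
    rw [v.ord_mul hσg0 (inv_ne_zero hg0), v.ord_inv, ← divf_apply, ← divf_apply, hdσ,
      add_neg_cancel])
  have ha' : A.ρ σ • g = algebraMap K F a * g := by
    rw [← ha, mul_assoc, inv_mul_cancel₀ hg0, mul_one]
  have h1 : (A.φ (A.ρ σ • g)).coeff (oo.ord f) = 1 := by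
    rw [A.coeff_φ_smul, hcoeff, map_one]
  rw [ha', map_mul, A.φ_C, HahnSeries.C_mul_eq_smul, HahnSeries.coeff_smul, smul_eq_mul, hcoeff,
    mul_one] at h1
  rw [ha', h1, map_one, one_mul]

end QAction

end Fermat.Agent.S17.FF
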