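import Fermat.Agent.S17.FF.Echelon
import Fermat.Agent.S17.FF.PoleReduced

/-! # S17-FF (module GAL), file `QPole`: a pole basis of the affine ring consisting of rational
functions. -/

set_option autoImplicit false
set_option linter.unusedSectionVars false

noncomputable section

namespace Fermat.Agent.S17.FF

open AlgebraicCurve Fermat.Agent.S24.Zeros

variable {G K F : Type*} [Group G] [Field K] [Field F] [Algebra K F] [IsAlgClosed K] [CharZero K]
  [IsFF K F] {oo : Place K F} (A : QAction G K F oo)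

namespace QAction

theorem isPoleBasis_smul {e : ℕ → F} (he : IsPoleBasis oo e) (σ : G) :
    IsPoleBasis oo fun i => A.ρ σ • e i := by
  refine ⟨?_, ?_, ?_, ?_, ?_⟩
  · show A.ρ σ • e 0 = 1
    rw [he.zero, smul_one]
  · intro i
    exact (smul_mem_affRing_iff (A.ρ σ) (A.smul_oo σ) (e i)).2 (he.mem i)
  · intro i h
    exact he.ne_zero i ((smul_eq_zero_iff' (A.ρ σ) (e i)).1 h)
  · intro i j hij
    show -oo.ord (A.ρ σ • e i) < -oo.ord (A.ρ σ • e j)
    rw [A.ord_oo_smul, A.ord_oo_smul]
    exact he.strictMono hij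
  · intro f hf hf0
    have h1 : A.ρ σ⁻¹ • f ∈ affRing oo :=
      (smul_mem_affRing_iff (A.ρ σ⁻¹) (A.smul_oo σ⁻¹) f).2 hf
    have h2 : A.ρ σ⁻¹ • f ≠ 0 := fun h => hf0 ((smul_eq_zero_iff' (A.ρ σ⁻¹) f).1 h)
    obtain ⟨i, hi⟩ := he.surj _ h1 h2
    refine ⟨i, ?_⟩
    show oo.ord f = oo.ord (A.ρ σ • e i)
    rw [A.ord_oo_smul, ← hi, A.ord_oo_smul]

/-- the reduced pole basis consists of rational functions. -/
theorem exists_inv_isPoleBasis : ∃ e : ℕ → F, IsPoleBasis oo e ∧ (∀ i, A.Inv (e i)) ∧
    ∀ i j, (A.φ (e i)).coeff (oo.ord (e j)) = if i = j then 1 else 0 := by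
  obtain ⟨e, he, hred⟩ := exists_reduced_isPoleBasis oo A.φ A.φ_C A.order_φ
  refine ⟨e, he, fun i σ => ?_, hred⟩
  have h1 : IsPoleBasis oo fun i => A.ρ σ • e i := A.isPoleBasis_smul he σ
  have h2 : ∀ i j, (A.φ (A.ρ σ • e i)).coeff (oo.ord (A.ρ σ • e j)) = if i = j then 1 else 0 := by
    intro i j
    rw [A.coeff_φ_smul, A.ord_oo_smul, hred, apply_ite (SemilinearAut.baseAut (A.ρ σ)), map_one,
      map_zero]
  have h3 := reduced_isPoleBasis_unique A.order_φ h1 he h2 hred
  exact congrFun h3 i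

/-- a rational pole basis (fixed once and for all). -/
def basis : ℕ → F := A.exists_inv_isPoleBasis.choose

theorem isPoleBasis_basis : IsPoleBasis oo A.basis := A.exists_inv_isPoleBasis.choose_spec.1

theorem inv_basis (i : ℕ) : A.Inv (A.basis i) := A.exists_inv_isPoleBasis.choose_spec.2.1 i

theorem val_basis_smul (σ : G) (v : Place K F) (i : ℕ) :
    val (A.ρ σ • v) (A.basis i) = SemilinearAut.baseAut (A.ρ σ) (val v (A.basis i)) :=
  (A.inv_basis i).val_smul A σ v

theorem QPole_span_eq (n : ℤ) : LSpace (Finsupp.single oo n) =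
    Submodule.span K (Set.range fun i : Fin (ell (Finsupp.single oo n)) => A.basis i) := by
  rw [A.isPoleBasis_basis.span_eq' n]
  congr 1
  ext x
  constructor
  · rintro ⟨i, hi, rfl⟩
    exact ⟨⟨i, hi⟩, rfl⟩
  · rintro ⟨i, rfl⟩
    exact ⟨i, i.2, rfl⟩

/-- rational sections of `L(n ∞)` are the combinations of the `e i` with rational coefficients. -/
theorem inv_iff_of_mem_LSpace {n : ℤ} (a : Fin (ell (Finsupp.single oo n)) → K) :
    A.Inv (∑ i, algebraMap K F (a i) * A.basis i) ↔ ∀ i, A.InvK (a i) := by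
  constructor
  · intro h i
    have hli : LinearIndependent K (fun i : Fin (ell (Finsupp.single oo n)) => A.basis i) :=
      A.isPoleBasis_basis.linearIndependent.comp _ Fin.val_injective
    have h2 := A.invK_of_sum_eq hli (fun i => A.inv_basis i) (Finsupp.equivFunOnFinite.symm a)
      (by
        rw [Finsupp.sum_fintype _ _ (fun i => by rw [map_zero, zero_mul])]
        simpa using h) i
    simpa using h2
  · intro h
    exact Inv.sum A _ fun i _ => Inv.mul A ((A.inv_algebraMap_iff _).2 (h i)) (A.inv_basis i)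

/-- coordinates in `L(n ∞)`. -/
theorem exists_coord {n : ℤ} {f : F} (hf : f ∈ LSpace (Finsupp.single oo n)) :
    ∃! a : Fin (ell (Finsupp.single oo n)) → K, f = ∑ i, algebraMap K F (a i) * A.basis i := by
  have hli : LinearIndependent K (fun i : Fin (ell (Finsupp.single oo n)) => A.basis i) :=
    A.isPoleBasis_basis.linearIndependent.comp _ Fin.val_injective
  rw [A.QPole_span_eq n, Submodule.mem_span_range_iff_exists_fun] at hf
  obtain ⟨a, ha⟩ := hf
  refine ⟨a, ?_, ?_⟩
  · rw [← ha]
    exact Finset.sum_congr rfl fun i _ => Algebra.smul_def _ _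
  · intro b hb
    have h1 : ∑ i, (b i - a i) • A.basis i = 0 := by
      simp only [sub_smul, Finset.sum_sub_distrib]
      rw [ha, hb, sub_eq_zero]
      exact Finset.sum_congr rfl fun i _ => Algebra.smul_def _ _
    have h2 := Fintype.linearIndependent_iff.1 hli _ h1
    funext i
    exact sub_eq_zero.1 (h2 i)

theorem sum_mem_LSpace {n : ℤ} (a : Fin (ell (Finsupp.single oo n)) → K) :
    ∑ i, algebraMap K F (a i) * A.basis i ∈ LSpace (Finsupp.single oo n) := by
  rw [A.QPole_span_eq n, Submodule.mem_span_range_iff_exists_fun]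
  exact ⟨a, Finset.sum_congr rfl fun i _ => Algebra.smul_def _ _⟩

end QAction

end Fermat.Agent.S17.FF
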