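import Fermat.Agent.S17.FF.Local

/-! # S17-FF, file `Ramified`: a nonconstant function has only finitely many ramification points. -/

set_option autoImplicit false
set_option linter.unusedSectionVars false

noncomputable section

namespace Fermat.Agent.S17.FF

open AlgebraicCurve Fermat.Agent.S24.Zeros

section abstract

open IsDedekindDomain

attribute [local instance] FractionRing.liftAlgebra FractionRing.isScalarTower_liftAlgebra

/-- only finitely many primes of `B` are ramified over `A` (via the different). -/
theorem Ramified_abstract (A B : Type*) [CommRing A] [CommRing B] [Algebra A B]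
    [IsDedekindDomain A] [IsDedekindDomain B] [Module.IsTorsionFree A B] [Module.Finite A B]
    [CharZero A] :
    {w : HeightOneSpectrum B | ∃ p : Ideal A, p.IsMaximal ∧ p ≠ ⊥ ∧
      w.asIdeal ^ 2 ∣ p.map (algebraMap A B)}.Finite := by
  have : CharZero (FractionRing A) :=
    charZero_of_injective_algebraMap (IsFractionRing.injective A (FractionRing A))
  have : Algebra.IsAlgebraic (FractionRing A) (FractionRing B) := inferInstance
  have : Algebra.IsSeparable (FractionRing A) (FractionRing B) := inferInstance
  refine (Ideal.finite_factors (differentIdeal_ne_bot (A := A) (B := B))).subset ?_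
  rintro w ⟨p, hp, hp0, hw⟩
  have := pow_sub_one_dvd_differentIdeal A w.asIdeal 2 hp0 hw
  simpa using this

end abstract

variable {K F : Type*} [Field K] [Field F] [Algebra K F] [IsAlgClosed K] [CharZero K] [IsFF K F]

/-- `φ - c` as an element of `K[φ]`. -/
def RamifiedGen (K : Type*) {F : Type*} [Field K] [Field F] [Algebra K F] (φ : F) (c : K) :
    polyRing K φ := genPoly K φ - algebraMap K (polyRing K φ) c

theorem Ramified_span_isMaximal {φ : F} (hφ : Transcendental K φ) (c : K) :
    (Ideal.span {RamifiedGen K φ c}).IsMaximal := by
  have := isPrincipalIdealRing_polyRing hφ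
  apply PrincipalIdealRing.isMaximal_of_irreducible
  have he : (Polynomial.algEquivOfTranscendental K φ hφ) (Polynomial.X - Polynomial.C c) =
      RamifiedGen K φ c := by
    ext
    simp [RamifiedGen, genPoly]
  rw [← he]
  exact (MulEquiv.irreducible_iff (Polynomial.algEquivOfTranscendental K φ hφ).toMulEquiv).2
    (Polynomial.irreducible_X_sub_C c)

theorem Ramified_gen_ne_zero {φ : F} (hφ : Transcendental K φ) (c : K) :
    RamifiedGen K φ c ≠ 0 := by
  intro h
  have h0 : φ - algebraMap K F c = 0 := congrArg Subtype.val h
  apply hφ
  rw [sub_eq_zero.mp h0]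
  exact isAlgebraic_algebraMap c

/-- a nonconstant function has only finitely many ramification points. -/
theorem finite_ramified {φ : F} (hφ : Transcendental K φ) :
    {v : Place K F | 0 ≤ v.ord φ ∧ 2 ≤ v.ord (φ - algebraMap K F (val v φ))}.Finite := by
  have hfin : FiniteDimensional (IntermediateField.adjoin K {φ}) F := finiteDimensional_adjoin hφ
  have := isDedekindDomain_polyRing hφ
  have := isDedekindDomain_intClosure hφ
  have := isFractionRing_intClosure (K := K) φ
  have := finite_intClosure hφ
  have : CharZero (polyRing K φ) :=
    charZero_of_injective_algebraMap (algebraMap K (polyRing K φ)).injective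
  have hfinset := Ramified_abstract (polyRing K φ) (intClosure K φ)
  refine (hfinset.image (Place.ofHeightOneSpectrum (K := K) (F := F))).subset ?_
  rintro v ⟨h0, h2⟩
  obtain ⟨w, hw⟩ := exists_heightOneSpectrum v (intClosure_mem v h0)
  set c := val v φ with hc
  have hne : algebraMap (polyRing K φ) (intClosure K φ) (RamifiedGen K φ c) ≠ 0 := by
    intro h
    apply Ramified_gen_ne_zero hφ c
    have h1 : ((algebraMap (polyRing K φ) (intClosure K φ) (RamifiedGen K φ c) :
      intClosure K φ) : F) = 0 := by rw [h]; rfl
    exact Subtype.ext h1
  refine ⟨w, ⟨Ideal.span {RamifiedGen K φ c}, Ramified_span_isMaximal hφ c, ?_, ?_⟩, hw⟩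
  · rw [ne_eq, Ideal.span_singleton_eq_bot]
    exact Ramified_gen_ne_zero hφ c
  · rw [Ideal.map_span, Set.image_singleton]
    apply pow_dvd_of_le_multiplicity
    have h3 := ord_ofHeightOneSpectrum_algebraMap (K := K) (F := F) w hne
    rw [hw] at h3
    have h4 : algebraMap (intClosure K φ) F
        (algebraMap (polyRing K φ) (intClosure K φ) (RamifiedGen K φ c)) =
        φ - algebraMap K F c := rfl
    rw [h4] at h3
    rw [h3] at h2
    exact_mod_cast h2

end Fermat.Agent.S17.FF
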