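import Fermat.Agent.S17.FF.RiemannB

/-! # S17-FF, file `Riemann`: Riemann's theorem. -/

set_option autoImplicit false
set_option linter.unusedSectionVars false

noncomputable section

namespace Fermat.Agent.S17.FF

open AlgebraicCurve Fermat.Agent.S24.Zeros

variable (K F : Type*) [Field K] [Field F] [Algebra K F] [IsAlgClosed K] [CharZero K] [IsFF K F]

variable {K F} in
/-- `deg D - ℓ(D)` is monotone. -/
theorem Riemann_mono {D E : Divisor K F} (h : D ≤ E) :
    Divisor.degree D - ell D ≤ Divisor.degree E - ell E := by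
  have := ell_le_ell_add_degree h
  linarith

variable {K F} in
/-- `deg D - ℓ(D)` is invariant under linear equivalence. -/
theorem Riemann_add_divf (D : Divisor K F) {f : F} (hf : f ≠ 0) :
    Divisor.degree (D + divf f) - ell (D + divf f) = Divisor.degree D - ell D := by
  rw [ell_add_divf D hf, map_add, degree_divf, add_zero]

/-- `deg D - ℓ(D)` is bounded above. -/
theorem exists_bound : ∃ c : ℤ, ∀ D : Divisor K F, Divisor.degree D - ell D ≤ c := by
  obtain ⟨x, hx, hfin⟩ := IsFF.out (K := K) (F := F)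
  obtain ⟨n, hn⟩ : ∃ n, n = Module.finrank (IntermediateField.adjoin K {x}) F := ⟨_, rfl⟩
  have hnpos : 0 < n := hn ▸ Module.finrank_pos
  obtain ⟨B, hB⟩ : ∃ B, B = poleDiv (K := K) x := ⟨_, rfl⟩
  have hBdeg : Divisor.degree B = (n : ℤ) := by rw [hB, hn]; exact degree_poleDiv hx
  have hB0 : 0 ≤ B := by
    intro v
    rw [hB, poleDiv_apply]
    exact le_max_left _ _
  obtain ⟨m₀, hm₀⟩ := exists_lower_bound (K := K) hx
  rw [← hn, ← hB] at hm₀
  have h1 : ∀ k : ℕ, Divisor.degree (k • B) - ell (k • B) ≤ (n : ℤ) * m₀ - n := by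
    intro k
    have hle : k • B ≤ (k + m₀) • B := by
      rw [add_smul]
      exact le_add_of_nonneg_right (nsmul_nonneg hB0 m₀)
    refine (Riemann_mono hle).trans ?_
    have h2 : ((n * (k + 1) : ℕ) : ℤ) ≤ ell ((k + m₀) • B) := by exact_mod_cast hm₀ k
    rw [map_nsmul, hBdeg]
    rw [nsmul_eq_mul]
    push_cast at h2 ⊢
    nlinarith
  refine ⟨(n : ℤ) * m₀ - n, fun D => ?_⟩
  obtain ⟨D₁, hD₁⟩ : ∃ D₁, D₁ = D ⊔ 0 := ⟨_, rfl⟩
  have hDD₁ : D ≤ D₁ := hD₁ ▸ le_sup_left
  have hD₁0 : 0 ≤ D₁ := hD₁ ▸ le_sup_right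
  obtain ⟨k, hk⟩ : ∃ k : ℕ, (n : ℤ) * m₀ - n + Divisor.degree D₁ < k :=
    ⟨((n : ℤ) * m₀ - n + Divisor.degree D₁).toNat + 1, by
      push_cast
      have := Int.self_le_toNat ((n : ℤ) * m₀ - n + Divisor.degree D₁)
      linarith⟩
  have h3 : 0 < ell (k • B - D₁) := by
    have h4 := ell_le_ell_add_degree (sub_le_self (k • B) hD₁0)
    have h5 := h1 k
    rw [map_sub, map_nsmul, hBdeg] at h4
    rw [map_nsmul, hBdeg] at h5
    rw [nsmul_eq_mul] at h4 h5
    have h6 : (k : ℤ) ≤ k * n := by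
      have : (1 : ℤ) ≤ n := by exact_mod_cast hnpos
      nlinarith
    have : (0 : ℤ) < ell (k • B - D₁) := by linarith
    exact_mod_cast this
  obtain ⟨f, hf, hf0⟩ := ell_pos_iff.mp h3
  rw [mem_LSpace_of_ne_zero hf0] at hf
  have h7 : D ≤ k • B + divf f := by
    refine hDD₁.trans ?_
    have : 0 ≤ k • B + divf f - D₁ := by
      have e : k • B + divf f - D₁ = divf f + (k • B - D₁) := by abel
      rw [e]; exact hf
    exact sub_nonneg.mp this
  calc Divisor.degree D - ell D ≤ Divisor.degree (k • B + divf f) - ell (k • B + divf f) :=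
        Riemann_mono h7
    _ = Divisor.degree (k • B) - ell (k • B) := Riemann_add_divf _ hf0
    _ ≤ _ := h1 k

/-- **Riemann's theorem.** -/
theorem exists_riemann : ∃ (g : ℕ) (c₀ : ℤ),
    (∀ D : Divisor K F, Divisor.degree D + 1 - g ≤ ell D) ∧
      ∀ D : Divisor K F, c₀ ≤ Divisor.degree D → (ell D : ℤ) = Divisor.degree D + 1 - g := by
  obtain ⟨c, hc⟩ := exists_bound K F
  obtain ⟨g', ⟨D₀, hD₀⟩, hmax⟩ := Int.exists_greatest_of_bdd
    (P := fun z : ℤ => ∃ D : Divisor K F, z = Divisor.degree D - ell D + 1)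
    ⟨c + 1, by rintro z ⟨D, rfl⟩; linarith [hc D]⟩
    ⟨0, 0, by rw [ell_zero, map_zero]; norm_num⟩
  have hg0 : 0 ≤ g' := hmax 0 ⟨0, by rw [ell_zero, map_zero]; norm_num⟩
  have hg : ((g'.toNat : ℕ) : ℤ) = g' := Int.toNat_of_nonneg hg0
  have hle : ∀ D : Divisor K F, Divisor.degree D + 1 - g' ≤ ell D := by
    intro D
    have := hmax _ ⟨D, rfl⟩
    linarith
  refine ⟨g'.toNat, Divisor.degree D₀ + g', ?_, ?_⟩
  · intro D
    rw [hg]
    exact hle D
  · intro D hD
    rw [hg]
    have h1 : 0 < ell (D - D₀) := by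
      have h2 := hle (D - D₀)
      rw [map_sub] at h2
      have : (0 : ℤ) < ell (D - D₀) := by linarith
      exact_mod_cast this
    obtain ⟨z, hz, hz0⟩ := ell_pos_iff.mp h1
    rw [mem_LSpace_of_ne_zero hz0] at hz
    have h3 : D₀ ≤ D + divf z := by
      have : 0 ≤ D + divf z - D₀ := by
        have e : D + divf z - D₀ = divf z + (D - D₀) := by abel
        rw [e]; exact hz
      exact sub_nonneg.mp this
    have h4 := Riemann_mono h3
    rw [Riemann_add_divf _ hz0] at h4
    have h5 := hle D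
    linarith

/-- the genus (in the sense of Riemann's theorem). -/
def genus : ℕ := (exists_riemann K F).choose

/-- a bound from which on `ℓ(D) = deg D + 1 - g`. -/
def cBound : ℤ := (exists_riemann K F).choose_spec.choose

variable {K F}

theorem riemann_le (D : Divisor K F) : Divisor.degree D + 1 - genus K F ≤ ell D :=
  (exists_riemann K F).choose_spec.choose_spec.1 D

theorem riemann_eq {D : Divisor K F} (h : cBound K F ≤ Divisor.degree D) :
    (ell D : ℤ) = Divisor.degree D + 1 - genus K F :=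
  (exists_riemann K F).choose_spec.choose_spec.2 D h

end Fermat.Agent.S17.FF
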