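import Fermat.Agent.S17.FF.LSpace

/-! # S17-FF, file `RiemannA`: the pole divisor of `x`. -/

set_option autoImplicit false
set_option linter.unusedSectionVars false

noncomputable section

namespace Fermat.Agent.S17.FF

open AlgebraicCurve Fermat.Agent.S24.Zeros

variable {K F : Type*} [Field K] [Field F] [Algebra K F] [IsAlgClosed K] [CharZero K] [IsFF K F]

theorem finite_support_poleDiv (x : F) :
    (Function.support fun v : Place K F => max 0 (-(v.ord x))).Finite := by
  refine (finite_support_ord' (K := K) x).subset ?_
  intro v hv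
  simp only [Function.mem_support] at hv ⊢
  intro h
  apply hv
  rw [h]
  simp

/-- the divisor of poles of `x`. -/
def poleDiv (x : F) : Divisor K F :=
  Finsupp.ofSupportFinite (fun v : Place K F => max 0 (-(v.ord x))) (finite_support_poleDiv x)

@[simp] theorem poleDiv_apply (x : F) (v : Place K F) :
    poleDiv (K := K) x v = max 0 (-(v.ord x)) := rfl

theorem degree_poleDiv {x : F} (hx : Transcendental K x) :
    Divisor.degree (poleDiv (K := K) x) =
      (Module.finrank (IntermediateField.adjoin K {x}) F : ℤ) := by
  have hfin := finiteDimensional_adjoin (K := K) hx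
  rw [degree_eq_finsum deg_eq_one']
  have hsupp : (Function.support fun v : Place K F => poleDiv (K := K) x v)
      = {v : Place K F | v.ord x < 0} := by
    ext v
    simp only [Function.mem_support, poleDiv_apply, Set.mem_ofPred_eq]
    omega
  rw [← finsum_mem_support, hsupp]
  have h1 : ∑ᶠ v ∈ {v : Place K F | v.ord x < 0}, poleDiv (K := K) x v
      = ∑ᶠ v ∈ {v : Place K F | v.ord x < 0}, -(v.ord x) := by
    refine finsum_mem_congr rfl fun v hv => ?_
    simp only [Set.mem_ofPred_eq] at hv
    rw [poleDiv_apply]
    omega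
  rw [h1, finsum_mem_neg_distrib (f := fun v : Place K F => v.ord x) (finite_poles hx hfin),
    sum_ord_poles hx hfin, neg_neg]

/-- an element integral over `K[x]` has its poles among the poles of `x`. -/
theorem exists_mem_LSpace_of_isIntegral {x y : F} (hy : IsIntegral (Algebra.adjoin K {x}) y) :
    ∃ m : ℕ, y ∈ LSpace (m • poleDiv (K := K) x) := by
  classical
  have hS : {v : Place K F | v.ord x < 0}.Finite := by
    refine (finite_support_ord' (K := K) x).subset ?_
    intro v hv
    simp only [Set.mem_ofPred_eq] at hv
    simp only [Function.mem_support]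
    omega
  refine ⟨∑ v ∈ hS.toFinset, (-(v.ord y)).toNat, Or.inr fun v => ?_⟩
  by_cases hv : 0 ≤ v.ord x
  · have h1 : y ∈ v.toValuationSubring := intClosure_mem v hv (⟨y, hy⟩ : intClosure K x)
    have h2 : 0 ≤ v.ord y := ord_nonneg_of_mem v h1
    have h3 : poleDiv (K := K) x v = 0 := by
      rw [poleDiv_apply]; omega
    rw [Finsupp.smul_apply, h3, smul_zero, neg_zero]
    exact h2
  · have hv' : v.ord x < 0 := not_le.mp hv
    have hmem : v ∈ hS.toFinset := by simpa using hv'
    have h1 : (-(v.ord y)).toNat ≤ ∑ v ∈ hS.toFinset, (-(v.ord y)).toNat :=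
      Finset.single_le_sum (f := fun v : Place K F => (-(v.ord y)).toNat)
        (fun _ _ => Nat.zero_le _) hmem
    set m := ∑ v ∈ hS.toFinset, (-(v.ord y)).toNat with hm
    have h2 : (1 : ℤ) ≤ poleDiv (K := K) x v := by
      rw [poleDiv_apply]; omega
    have h3 : -(v.ord y) ≤ (m : ℤ) := by
      have := Int.self_le_toNat (-(v.ord y))
      omega
    rw [Finsupp.smul_apply, nsmul_eq_mul]
    have h4 : (m : ℤ) * 1 ≤ (m : ℤ) * poleDiv (K := K) x v :=
      mul_le_mul_of_nonneg_left h2 (by positivity)
    omega

end Fermat.Agent.S17.FF
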