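import Fermat.Agent.S17.FF.RiemannA

/-! # S17-FF, file `RiemannB`: the lower bound `ℓ((m + m₀) (x)_∞) ≥ [F : K(x)] (m + 1)`. -/

set_option autoImplicit false
set_option linter.unusedSectionVars false

noncomputable section

namespace Fermat.Agent.S17.FF

open AlgebraicCurve Fermat.Agent.S24.Zeros

variable {K F : Type*} [Field K] [Field F] [Algebra K F] [IsAlgClosed K] [CharZero K] [IsFF K F]

open scoped IntermediateField.algebraAdjoinAdjoin in
/-- a `K(x)`-basis of `F` consisting of elements integral over `K[x]`. -/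
theorem exists_integral_basis {x : F} (hx : Transcendental K x) :
    ∃ y : Fin (Module.finrank (IntermediateField.adjoin K {x}) F) → F,
      LinearIndependent (IntermediateField.adjoin K {x}) y ∧
        ∀ i, IsIntegral (Algebra.adjoin K {x}) (y i) := by
  have hfin : FiniteDimensional (IntermediateField.adjoin K {x}) F := finiteDimensional_adjoin hx
  let b := Module.finBasis (IntermediateField.adjoin K {x}) F
  have halg : Algebra.IsAlgebraic (Algebra.adjoin K {x}) F :=
    Algebra.IsAlgebraic.trans (Algebra.adjoin K {x}) (IntermediateField.adjoin K {x}) F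
  have hex : ∀ i, ∃ c : Algebra.adjoin K {x}, c ≠ 0 ∧ IsIntegral (Algebra.adjoin K {x}) (c • b i) :=
    fun i => (halg.isAlgebraic (b i)).exists_integral_multiple
  choose c hc0 hc using hex
  have hc' : ∀ i, algebraMap (Algebra.adjoin K {x}) (IntermediateField.adjoin K {x}) (c i) ≠ 0 := by
    intro i h
    apply hc0 i
    exact (FaithfulSMul.algebraMap_injective (Algebra.adjoin K {x})
      (IntermediateField.adjoin K {x})) (by rw [h, map_zero])
  refine ⟨fun i => c i • b i, ?_, hc⟩
  have h1 := b.linearIndependent.units_smul (fun i => Units.mk0 _ (hc' i))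
  convert h1 using 1
  funext i
  simp only [Pi.smul_apply', Units.smul_mk0]
  rw [algebraMap_smul]

/-- `x ^ j * y i` are linearly independent over `K`. -/
theorem linearIndependent_pow_mul {x : F} (hx : Transcendental K x) {n : ℕ} {y : Fin n → F}
    (hy : LinearIndependent (IntermediateField.adjoin K {x}) y) (m : ℕ) :
    LinearIndependent K (fun p : Fin n × Fin (m + 1) => x ^ (p.2 : ℕ) * y p.1) := by
  rw [Fintype.linearIndependent_iff]
  intro g hg
  rw [Fintype.linearIndependent_iff] at hy
  let P : Fin n → Polynomial K := fun i => ∑ j : Fin (m + 1), Polynomial.monomial (j : ℕ) (g (i, j))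
  have hcoe : ∀ i, algebraMap (IntermediateField.adjoin K {x}) F
      (Polynomial.aeval (IntermediateField.AdjoinSimple.gen K x) (P i)) =
      Polynomial.aeval x (P i) := by
    intro i
    rw [← Polynomial.aeval_algebraMap_apply, IntermediateField.AdjoinSimple.algebraMap_gen]
  have hP : ∀ i, Polynomial.aeval (IntermediateField.AdjoinSimple.gen K x) (P i) = 0 := by
    apply hy
    rw [← hg, Fintype.sum_prod_type]
    refine Finset.sum_congr rfl fun i _ => ?_
    rw [Algebra.smul_def, hcoe, map_sum, Finset.sum_mul]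
    refine Finset.sum_congr rfl fun j _ => ?_
    rw [Polynomial.aeval_monomial, Algebra.smul_def, mul_assoc]
  have hP0 : ∀ i, P i = 0 := by
    intro i
    have h1 : Polynomial.aeval x (P i) = 0 := by rw [← hcoe, hP i, map_zero]
    exact (transcendental_iff.mp hx) _ h1
  rintro ⟨i, j⟩
  have h2 : (P i).coeff (j : ℕ) = g (i, j) := by
    simp only [P, Polynomial.finsetSum_coeff, Polynomial.coeff_monomial]
    rw [Finset.sum_eq_single j]
    · simp
    · intro b _ hb
      rw [if_neg]
      intro h
      exact hb (Fin.ext h)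
    · simp
  rw [← h2, hP0 i, Polynomial.coeff_zero]

theorem RiemannB_mem {x y : F} {m₀ : ℕ} (hy : y ∈ LSpace (m₀ • poleDiv (K := K) x)) {j m : ℕ}
    (hj : j ≤ m) : x ^ j * y ∈ LSpace ((m + m₀) • poleDiv (K := K) x) := by
  by_cases hx0 : x = 0
  · rcases Nat.eq_zero_or_pos j with rfl | hjpos
    · rw [pow_zero, one_mul]
      refine LSpace_mono ?_ hy
      intro v
      simp only [Finsupp.coe_smul, Pi.smul_apply, poleDiv_apply, nsmul_eq_mul]
      have h0 : (0 : ℤ) ≤ max 0 (-(v.ord x)) := le_max_left _ _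
      have : (m₀ : ℤ) ≤ ((m + m₀ : ℕ) : ℤ) := by push_cast; omega
      exact mul_le_mul_of_nonneg_right this h0
    · rw [hx0, zero_pow hjpos.ne', zero_mul]
      exact Submodule.zero_mem _
  by_cases hy0 : y = 0
  · rw [hy0, mul_zero]; exact Submodule.zero_mem _
  rcases hy with hy | hy
  · exact absurd hy hy0
  refine Or.inr fun v => ?_
  have h1 := hy v
  rw [v.ord_mul (pow_ne_zero _ hx0) hy0, ← zpow_natCast, v.ord_zpow]
  simp only [Finsupp.coe_smul, Pi.smul_apply, poleDiv_apply, nsmul_eq_mul] at h1 ⊢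
  have h0 : (0 : ℤ) ≤ max 0 (-(v.ord x)) := le_max_left _ _
  have h2 : -(v.ord x) ≤ max 0 (-(v.ord x)) := le_max_right _ _
  have h3 : (j : ℤ) * -(v.ord x) ≤ (j : ℤ) * max 0 (-(v.ord x)) :=
    mul_le_mul_of_nonneg_left h2 (by positivity)
  have h4 : (j : ℤ) * max 0 (-(v.ord x)) ≤ (m : ℤ) * max 0 (-(v.ord x)) :=
    mul_le_mul_of_nonneg_right (by exact_mod_cast hj) h0
  push_cast
  nlinarith

theorem exists_lower_bound {x : F} (hx : Transcendental K x) :
    ∃ m₀ : ℕ, ∀ m : ℕ, Module.finrank (IntermediateField.adjoin K {x}) F * (m + 1) ≤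
      ell ((m + m₀) • poleDiv (K := K) x) := by
  obtain ⟨y, hy, hint⟩ := exists_integral_basis hx
  have hex : ∀ i, ∃ m : ℕ, y i ∈ LSpace (m • poleDiv (K := K) x) :=
    fun i => exists_mem_LSpace_of_isIntegral (hint i)
  choose mi hmi using hex
  refine ⟨Finset.univ.sup mi, fun m => ?_⟩
  have hmem : ∀ i, y i ∈ LSpace ((Finset.univ.sup mi) • poleDiv (K := K) x) := by
    intro i
    refine LSpace_mono ?_ (hmi i)
    intro v
    simp only [Finsupp.coe_smul, Pi.smul_apply, poleDiv_apply, nsmul_eq_mul]
    have h0 : (0 : ℤ) ≤ max 0 (-(v.ord x)) := le_max_left _ _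
    have : (mi i : ℤ) ≤ ((Finset.univ.sup mi : ℕ) : ℤ) := by
      exact_mod_cast Finset.le_sup (f := mi) (Finset.mem_univ i)
    exact mul_le_mul_of_nonneg_right this h0
  have hli := linearIndependent_pow_mul hx hy m
  let w : Fin (Module.finrank (IntermediateField.adjoin K {x}) F) × Fin (m + 1) →
      LSpace ((m + Finset.univ.sup mi) • poleDiv (K := K) x) :=
    fun p => ⟨x ^ (p.2 : ℕ) * y p.1, RiemannB_mem (hmem p.1) (Nat.lt_succ_iff.mp p.2.2)⟩
  have hw : LinearIndependent K w := by
    apply LinearIndependent.of_comp (LSpace ((m + Finset.univ.sup mi) • poleDiv (K := K) x)).subtype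
    exact hli
  have h := hw.fintype_card_le_finrank
  rw [Fintype.card_prod, Fintype.card_fin, Fintype.card_fin] at h
  exact h

end Fermat.Agent.S17.FF
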