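import Fermat.Agent.S17.FF.Riemann

/-! # S17-FF, file `RiemannCor`: corollaries of Riemann's theorem. -/

set_option autoImplicit false
set_option linter.unusedSectionVars false

noncomputable section

namespace Fermat.Agent.S17.FF

open AlgebraicCurve Fermat.Agent.S24.Zeros

variable {K F : Type*} [Field K] [Field F] [Algebra K F] [IsAlgClosed K] [CharZero K] [IsFF K F]

/-- every divisor of degree `≥ g` is linearly equivalent to an effective one. -/
theorem exists_ne_zero_mem_LSpace {D : Divisor K F} (h : (genus K F : ℤ) ≤ Divisor.degree D) :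
    ∃ f ∈ LSpace D, f ≠ 0 := by
  apply ell_pos_iff.mp
  have h1 := riemann_le D
  omega

/-- there is at least one place. -/
theorem RiemannCor_nonempty_place : Nonempty (Place K F) := by
  by_contra hne
  rw [not_nonempty_iff] at hne
  obtain ⟨x, hx, hfin⟩ := (inferInstance : IsFF K F).out
  have h1 := sum_ord_zeros hx hfin
  have h2 : (∑ᶠ v ∈ {v : Place K F | 0 < v.ord x}, v.ord x) = 0 := by
    apply finsum_eq_zero_of_forall_eq_zero
    intro v
    exact (hne.false v).elim
  rw [h2] at h1
  have h3 : 0 < Module.finrank (IntermediateField.adjoin K {x}) F := Module.finrank_pos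
  omega

/-- an element of `L(D)` which is not in `L(D - v)` has exact order `-D v` at `v`. -/
theorem RiemannCor_ord_eq {D : Divisor K F} {v : Place K F} {f : F} (hf : f ∈ LSpace D)
    (hf' : f ∉ LSpace (D - Finsupp.single v 1)) : f ≠ 0 ∧ v.ord f = -D v := by
  have hf0 : f ≠ 0 := by
    rintro rfl
    exact hf' (Submodule.zero_mem _)
  refine ⟨hf0, ?_⟩
  have h1 : ∀ w : Place K F, -D w ≤ w.ord f := by
    rcases mem_LSpace.mp hf with h | h
    · exact absurd h hf0
    · exact h
  by_contra hne
  apply hf'
  refine mem_LSpace.mpr (Or.inr fun w => ?_)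
  rw [Finsupp.sub_apply]
  by_cases hw : w = v
  · subst hw
    rw [Finsupp.single_eq_same]
    have := h1 w
    omega
  · rw [Finsupp.single_eq_of_ne hw]
    have := h1 w
    omega

/-- `L(D - v)` is a proper subspace of `L(D)` when `deg D` is large. -/
theorem RiemannCor_not_le {D : Divisor K F} (h : cBound K F + 1 ≤ Divisor.degree D)
    (v : Place K F) : ¬ LSpace D ≤ LSpace (D - Finsupp.single v 1) := by
  intro hle
  have hdeg : Divisor.degree (D - Finsupp.single v 1) = Divisor.degree D - 1 := by
    rw [map_sub, degree_single']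
  have h1 : (ell D : ℤ) = Divisor.degree D + 1 - genus K F := riemann_eq (by omega)
  have h2 : (ell (D - Finsupp.single v 1) : ℤ) =
      Divisor.degree (D - Finsupp.single v 1) + 1 - genus K F := riemann_eq (by omega)
  have h3 : ell D ≤ ell (D - Finsupp.single v 1) := Submodule.finrank_mono hle
  omega

/-- `|D|` has no base point at `v` when `deg D` is large. -/
theorem exists_mem_LSpace_ord_eq {D : Divisor K F} (h : cBound K F + 1 ≤ Divisor.degree D)
    (v : Place K F) : ∃ f ∈ LSpace D, f ≠ 0 ∧ v.ord f = -D v := by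
  obtain ⟨f, hf, hf'⟩ := SetLike.not_le_iff_exists.mp (RiemannCor_not_le h v)
  exact ⟨f, hf, RiemannCor_ord_eq hf hf'⟩

/-- avoiding finitely many base conditions at once (`K` is infinite). -/
theorem exists_mem_LSpace_forall_ord_eq {D : Divisor K F}
    (h : cBound K F + 1 ≤ Divisor.degree D) (S : Finset (Place K F)) :
    ∃ f ∈ LSpace D, f ≠ 0 ∧ ∀ v ∈ S, v.ord f = -D v := by
  classical
  by_cases hS : S = ∅
  · subst hS
    obtain ⟨v⟩ := RiemannCor_nonempty_place (K := K) (F := F)
    obtain ⟨f, hf, hf0, -⟩ := exists_mem_LSpace_ord_eq h v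
    exact ⟨f, hf, hf0, by simp⟩
  let P : Finset (Submodule K (LSpace D)) :=
    S.image fun v => Submodule.comap (LSpace D).subtype (LSpace (D - Finsupp.single v 1))
  have hP : (⊤ : Submodule K (LSpace D)) ∉ P := by
    intro htop
    obtain ⟨v, -, hv⟩ := Finset.mem_image.mp htop
    apply RiemannCor_not_le h v
    intro f hf
    have : (⟨f, hf⟩ : LSpace D) ∈
        Submodule.comap (LSpace D).subtype (LSpace (D - Finsupp.single v 1)) := by
      rw [hv]; trivial
    exact this
  have hne := Subspace.biUnion_ne_univ_of_top_notMem hP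
  obtain ⟨f, hf⟩ := (Set.ne_univ_iff_exists_notMem _).mp hne
  simp only [Set.mem_iUnion, not_exists] at hf
  have hf' : ∀ v ∈ S, (f : F) ∉ LSpace (D - Finsupp.single v 1) := by
    intro v hv hmem
    exact hf _ (Finset.mem_image_of_mem _ hv) hmem
  obtain ⟨v0, hv0⟩ := Finset.nonempty_iff_ne_empty.mpr hS
  exact ⟨f, f.2, (RiemannCor_ord_eq f.2 (hf' v0 hv0)).1,
    fun v hv => (RiemannCor_ord_eq f.2 (hf' v hv)).2⟩

/-- prescribing orders at finitely many places. -/
theorem exists_forall_ord_eq (S : Finset (Place K F)) (n : Place K F → ℤ) :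
    ∃ f : F, f ≠ 0 ∧ ∀ v ∈ S, v.ord f = n v := by
  classical
  by_cases hS : S = ∅
  · subst hS
    exact ⟨1, one_ne_zero, by simp⟩
  obtain ⟨w0, hw0⟩ := Finset.nonempty_iff_ne_empty.mpr hS
  let E : Divisor K F := ∑ v ∈ S, Finsupp.single v (n v)
  have hE : ∀ v ∈ S, E v = n v := by
    intro v hv
    simp only [E, Finsupp.finsetSum_apply]
    rw [Finset.sum_eq_single v]
    · simp
    · intro b _ hb
      exact Finsupp.single_eq_of_ne (Ne.symm hb)
    · intro hv'
      exact absurd hv hv'
  let m : ℤ := |cBound K F| + 1 + |Divisor.degree E|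
  have h1 : cBound K F + 1 ≤ Divisor.degree (Finsupp.single w0 m - E) := by
    rw [map_sub, degree_single']
    have := le_abs_self (cBound K F)
    have := le_abs_self (Divisor.degree E)
    simp only [m]
    omega
  have h2 : cBound K F + 1 ≤ Divisor.degree (Finsupp.single w0 m : Divisor K F) := by
    rw [degree_single']
    have := le_abs_self (cBound K F)
    have := abs_nonneg (Divisor.degree E)
    simp only [m]
    omega
  obtain ⟨f1, -, hf1, ho1⟩ := exists_mem_LSpace_forall_ord_eq h1 S
  obtain ⟨f2, -, hf2, ho2⟩ := exists_mem_LSpace_forall_ord_eq h2 S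
  refine ⟨f1 / f2, div_ne_zero hf1 hf2, fun v hv => ?_⟩
  rw [div_eq_mul_inv, v.ord_mul hf1 (inv_ne_zero hf2), v.ord_inv, ho1 v hv, ho2 v hv,
    Finsupp.sub_apply, hE v hv]
  ring

end Fermat.Agent.S17.FF
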