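import Fermat.Agent.S17.FF.Basic

/-! # S17-FF, file `Taylor`: Laurent/Taylor expansion at a place with respect to a uniformiser
(wrapper around `S24/FormalEmb`). -/

set_option autoImplicit false
set_option linter.unusedSectionVars false

noncomputable section

namespace Fermat.Agent.S17.FF

open AlgebraicCurve Fermat.Agent.S24.Zeros

variable {K F : Type*} [Field K] [Field F] [Algebra K F] [IsAlgClosed K] [CharZero K] [IsFF K F]

theorem Taylor_coeff_C (c : K) (n : ℤ) :
    (HahnSeries.C c : LaurentSeries K).coeff n = if n = 0 then c else 0 := by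
  by_cases h : n = 0
  · rw [if_pos h, h, HahnSeries.C_apply, HahnSeries.coeff_single_same]
  · rw [if_neg h, HahnSeries.C_apply, HahnSeries.coeff_single_of_ne h]

theorem Taylor_unif_ne_zero {v : Place K F} {τ : F} (hτ : v.ord τ = 1) : τ ≠ 0 := by
  rintro rfl
  rw [v.ord_zero] at hτ
  exact zero_ne_one hτ

theorem exists_expansion (v : Place K F) (τ : F) (hτ : v.ord τ = 1) :
    ∃ φ : F →+* LaurentSeries K, (∀ a : K, φ (algebraMap K F a) = HahnSeries.C a) ∧
      φ τ = HahnSeries.single 1 1 ∧ (∀ f : F, f ≠ 0 → (φ f).order = v.ord f) ∧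
      ∀ f : F, 0 ≤ v.ord f → (φ f).coeff 0 = val v f := by
  have hτ0 : τ ≠ 0 := by
    rintro rfl
    rw [v.ord_zero] at hτ
    exact zero_ne_one hτ
  have hτmem : τ ∈ v.toValuationSubring := mem_of_ord_nonneg v (by rw [hτ]; exact zero_le_one)
  obtain ⟨π₀, hπ₀⟩ := IsDiscreteValuationRing.exists_irreducible v.toValuationSubring
  obtain ⟨u, hu⟩ := v.exists_unit_mul_zpow hτ0 hπ₀
  rw [hτ, zpow_one] at hu
  have hπ : Irreducible (⟨τ, hτmem⟩ : v.toValuationSubring) := by
    have : (⟨τ, hτmem⟩ : v.toValuationSubring) = u * π₀ := Subtype.ext hu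
    rw [this]
    exact (irreducible_units_mul u).mpr hπ₀
  have hres : Function.Surjective (algebraMap K v.ResidueField) := (residue_bijective v).2
  refine ⟨S24.formalHom hπ hres, S24.formalHom_algebraMap hπ hres, ?_,
    fun f hf => S24.order_formalHom hπ hres hf, ?_⟩
  · have := S24.formalHom_coe hπ hres (⟨τ, hτmem⟩ : v.toValuationSubring)
    rw [S24.formalHom₀_X, HahnSeries.ofPowerSeries_X] at this
    exact this
  · intro f hf
    rcases (val_eq_iff v hf (val v f)).mp rfl with h | h
    · conv_lhs => rw [h]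
      rw [S24.formalHom_algebraMap, Taylor_coeff_C, if_pos rfl]
    · have hg0 : f - algebraMap K F (val v f) ≠ 0 := by
        intro h0
        rw [h0, v.ord_zero] at h
        exact lt_irrefl _ h
      have hord := S24.order_formalHom hπ hres hg0
      have hc : (S24.formalHom hπ hres (f - algebraMap K F (val v f))).coeff 0 = 0 :=
        HahnSeries.coeff_eq_zero_of_lt_order (by rw [hord]; exact h)
      rw [map_sub, S24.formalHom_algebraMap, HahnSeries.coeff_sub, Taylor_coeff_C, if_pos rfl,
        sub_eq_zero] at hc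
      exact hc

/-- the expansion of functions at `v` in powers of the uniformiser `τ`. -/
def expansion (v : Place K F) (τ : F) (hτ : v.ord τ = 1) : F →+* LaurentSeries K :=
  (exists_expansion v τ hτ).choose

variable (v : Place K F) (τ : F) (hτ : v.ord τ = 1)

theorem expansion_algebraMap (a : K) : expansion v τ hτ (algebraMap K F a) = HahnSeries.C a :=
  (exists_expansion v τ hτ).choose_spec.1 a

theorem expansion_unif : expansion v τ hτ τ = HahnSeries.single 1 1 :=
  (exists_expansion v τ hτ).choose_spec.2.1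

theorem order_expansion {f : F} (hf : f ≠ 0) : (expansion v τ hτ f).order = v.ord f :=
  (exists_expansion v τ hτ).choose_spec.2.2.1 f hf

theorem coeff_zero_expansion {f : F} (hf : 0 ≤ v.ord f) :
    (expansion v τ hτ f).coeff 0 = val v f :=
  (exists_expansion v τ hτ).choose_spec.2.2.2 f hf

theorem expansion_injective : Function.Injective (expansion v τ hτ) :=
  (expansion v τ hτ).injective

/-- the `n`-th Taylor coefficient. -/
def taylorCoeff (n : ℕ) (f : F) : K := (expansion v τ hτ f).coeff (n : ℤ)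

theorem coeff_expansion_of_lt {f : F} {n : ℤ} (h : n < v.ord f) :
    (expansion v τ hτ f).coeff n = 0 := by
  by_cases hf : f = 0
  · rw [hf, map_zero, HahnSeries.coeff_zero]
  · exact HahnSeries.coeff_eq_zero_of_lt_order (by rw [order_expansion v τ hτ hf]; exact h)

/-- `ord_v f ≥ n` iff the coefficients below `n` vanish. -/
theorem le_ord_iff {f : F} (hf : f ≠ 0) (n : ℤ) :
    n ≤ v.ord f ↔ ∀ m < n, (expansion v τ hτ f).coeff m = 0 := by
  constructor
  · intro h m hm
    exact coeff_expansion_of_lt v τ hτ (lt_of_lt_of_le hm h)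
  · intro h
    by_contra hlt
    rw [not_le] at hlt
    have h1 := h _ hlt
    rw [← order_expansion v τ hτ hf, HahnSeries.coeff_order_eq_zero] at h1
    exact hf (expansion_injective v τ hτ (h1.trans (map_zero _).symm))

theorem taylorCoeff_zero {f : F} (hf : 0 ≤ v.ord f) : taylorCoeff v τ hτ 0 f = val v f := by
  rw [taylorCoeff, Nat.cast_zero]
  exact coeff_zero_expansion v τ hτ hf

/-- recursion: `f = f(v) + τ f₁` and the Taylor coefficients of `f₁` are the shifted ones. -/
theorem taylorCoeff_succ (n : ℕ) (f : F) :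
    taylorCoeff v τ hτ (n + 1) f = taylorCoeff v τ hτ n ((f - algebraMap K F (val v f)) / τ) := by
  have hτ0 : τ ≠ 0 := Taylor_unif_ne_zero hτ
  have h1 : (f - algebraMap K F (val v f)) / τ * τ = f - algebraMap K F (val v f) :=
    div_mul_cancel₀ _ hτ0
  have h2 := congrArg (fun x => (expansion v τ hτ x).coeff ((n : ℤ) + 1)) h1
  simp only [map_mul, map_sub, expansion_unif, expansion_algebraMap, HahnSeries.coeff_sub,
    HahnSeries.coeff_mul_single_add, mul_one, Taylor_coeff_C] at h2
  rw [if_neg (by omega), sub_zero] at h2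
  rw [taylorCoeff, taylorCoeff, h2]
  push_cast
  rfl

theorem Taylor_remainder_aux {f : F} (hf : 0 ≤ v.ord f) (n : ℕ) :
    ∃ r : F, 0 ≤ v.ord r ∧
      f = ∑ i ∈ Finset.range n, algebraMap K F (taylorCoeff v τ hτ i f) * τ ^ i + τ ^ n * r ∧
      ∀ m : ℕ, taylorCoeff v τ hτ m r = taylorCoeff v τ hτ (n + m) f := by
  have hτ0 : τ ≠ 0 := Taylor_unif_ne_zero hτ
  induction n with
  | zero => exact ⟨f, hf, by simp, fun m => by rw [zero_add]⟩
  | succ n ih =>
    obtain ⟨r, hr, hfr, hm⟩ := ih
    have hval : val v r = taylorCoeff v τ hτ n f := by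
      rw [← taylorCoeff_zero v τ hτ hr, hm 0, add_zero]
    refine ⟨(r - algebraMap K F (val v r)) / τ, ?_, ?_, fun m => ?_⟩
    · rcases (val_eq_iff v hr (val v r)).mp rfl with h | h
      · rw [← h, sub_self, zero_div, v.ord_zero]
      · have hg0 : r - algebraMap K F (val v r) ≠ 0 := by
          intro h0
          rw [h0, v.ord_zero] at h
          exact lt_irrefl _ h
        rw [div_eq_mul_inv, v.ord_mul hg0 (inv_ne_zero hτ0), v.ord_inv, hτ]
        omega
    · rw [Finset.sum_range_succ, ← hval]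
      conv_lhs => rw [hfr]
      field_simp
      ring
    · rw [← taylorCoeff_succ, hm]
      congr 1
      omega

/-- Taylor's formula with remainder. -/
theorem taylor_remainder {f : F} (hf : 0 ≤ v.ord f) (n : ℕ) :
    ∃ r : F, 0 ≤ v.ord r ∧
      f = ∑ i ∈ Finset.range n, algebraMap K F (taylorCoeff v τ hτ i f) * τ ^ i + τ ^ n * r ∧
      val v r = taylorCoeff v τ hτ n f := by
  obtain ⟨r, hr, hfr, hm⟩ := Taylor_remainder_aux v τ hτ hf n
  refine ⟨r, hr, hfr, ?_⟩
  rw [← taylorCoeff_zero v τ hτ hr, hm 0, add_zero]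

theorem Taylor_eq_ofPowerSeries (x : LaurentSeries K) (h : ∀ m < 0, x.coeff m = 0) :
    x = HahnSeries.ofPowerSeries ℤ K (PowerSeries.mk fun n : ℕ => x.coeff (n : ℤ)) := by
  ext m
  have := PowerSeries.coeff_coe (PowerSeries.mk fun n : ℕ => x.coeff (n : ℤ)) m
  refine Eq.trans ?_ this.symm
  split_ifs with hm
  · exact h m hm
  · rw [PowerSeries.coeff_mk]
    congr 1
    omega

/-- Leibniz rule for Taylor coefficients. -/
theorem taylorCoeff_mul {f g : F} (hf : 0 ≤ v.ord f) (hg : 0 ≤ v.ord g) (n : ℕ) :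
    taylorCoeff v τ hτ n (f * g) =
      ∑ p ∈ Finset.HasAntidiagonal.antidiagonal n, taylorCoeff v τ hτ p.1 f * taylorCoeff v τ hτ p.2 g := by
  have h1 := Taylor_eq_ofPowerSeries (expansion v τ hτ f)
    (fun m hm => coeff_expansion_of_lt v τ hτ (lt_of_lt_of_le hm hf))
  have h2 := Taylor_eq_ofPowerSeries (expansion v τ hτ g)
    (fun m hm => coeff_expansion_of_lt v τ hτ (lt_of_lt_of_le hm hg))
  rw [taylorCoeff, map_mul, h1, h2, ← map_mul, HahnSeries.ofPowerSeries_apply_coeff,
    PowerSeries.coeff_mul]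
  refine Finset.sum_congr rfl fun p _ => ?_
  rw [PowerSeries.coeff_mk, PowerSeries.coeff_mk]
  rfl

theorem taylorCoeff_add (f g : F) (n : ℕ) :
    taylorCoeff v τ hτ n (f + g) = taylorCoeff v τ hτ n f + taylorCoeff v τ hτ n g := by
  rw [taylorCoeff, map_add, HahnSeries.coeff_add]
  rfl

theorem taylorCoeff_smul (c : K) (f : F) (n : ℕ) :
    taylorCoeff v τ hτ n (algebraMap K F c * f) = c * taylorCoeff v τ hτ n f := by
  rw [taylorCoeff, map_mul, expansion_algebraMap, HahnSeries.C_mul_eq_smul, HahnSeries.coeff_smul,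
    smul_eq_mul]
  rfl

end Fermat.Agent.S17.FF
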